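import Fermat.Agent.S05.L2
set_option autoImplicit false
set_option linter.unusedSectionVars false

/-!
# S13, leaf C1: the link between the group law and the division polynomials

`W : y² = x (x² + a₂ x + a₄)` over a field with `2 ≠ 0`.
For a point `T` with `k • T ≠ 0` for `0 < k < n` we define `hseq T k` by the recursion
`h (k+1) = -(x(kT) - x(T)) h(k)² / h(k-1)` and show that it is the normalised EDS of `W` at `T`.
-/

namespace Fermat.Agent.S13Lib

open WeierstrassCurve WeierstrassCurve.Affine WeierstrassCurve.Affine.Point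
open Fermat.Agent.S05Lib

variable {F : Type*} [Field F] [DecidableEq F] {W : WeierstrassCurve.Affine F}

/-- (I1) -/
theorem xc_add_sub_xc_sub (hW : IsE W) {P Q : W.Point} (hP : P ≠ 0) (hQ : Q ≠ 0)
    (h : xc P ≠ xc Q) :
    (xc (P + Q) - xc (P - Q)) * (xc P - xc Q) ^ 2 = -((2 * yc P) * (2 * yc Q)) := by
  have e1 := xc_add hW hP hQ h
  have e2 := xc_sub hW hP hQ h
  linear_combination e1 - e2

/-- (I2) -/
theorem xc_I2 (hW : IsE W) (h2 : (2 : F) ≠ 0) {P Q : W.Point} (hP : P ≠ 0) (hQ : Q ≠ 0)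
    (h : xc P ≠ xc Q) (hy : yc P ≠ 0) :
    (xc (P + Q) - xc P) * (xc (P - Q) - xc P) * (xc P - xc Q) ^ 2 =
      (xc (P + P) - xc Q) * (2 * yc P) ^ 2 := by
  have e1 := xc_add hW hP hQ h
  have e2 := xc_sub hW hP hQ h
  have e3 := xc_add_mul_xc_sub hW hP hQ h
  have e4 := xc_add_self hW h2 hy
  have c1 := curve_eq hW P
  linear_combination e3 - xc P * (e1 + e2) - e4 + 4 * xc Q * c1

/-- the sequence `h`. -/
noncomputable def hseq (T : W.Point) : ℕ → F
  | 0 => 0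
  | 1 => 1
  | 2 => 2 * yc T
  | (k + 3) => -(xc ((k + 2) • T) - xc T) * hseq T (k + 2) ^ 2 / hseq T (k + 1)

@[simp] theorem hseq_zero (T : W.Point) : hseq T 0 = 0 := by rw [hseq]
@[simp] theorem hseq_one (T : W.Point) : hseq T 1 = 1 := by rw [hseq]
@[simp] theorem hseq_two (T : W.Point) : hseq T 2 = 2 * yc T := by rw [hseq]
theorem hseq_succ (T : W.Point) (k : ℕ) :
    hseq T (k + 3) = -(xc ((k + 2) • T) - xc T) * hseq T (k + 2) ^ 2 / hseq T (k + 1) := by
  rw [hseq]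

section algebra

theorem algE {A1 B1 c1 c0 u v w s t : F} (hw : w ≠ 0) (hu : u ≠ 0)
    (i1 : A1 * B1 ^ 2 = -(c1 * c0)) (g : A1 * u ^ 2 = -(v * w)) (o : B1 * s ^ 2 * t ^ 2 = -u)
    (e : c0 * t ^ 4 = w) : c1 * s ^ 4 = v := by
  have h : (c1 * s ^ 4 - v) * (w * u ^ 2) = 0 := by
    linear_combination (-c1 * s ^ 4 * u ^ 2) * e + (s ^ 4 * t ^ 4 * u ^ 2) * i1
      - A1 * u ^ 2 * (B1 * s ^ 2 * t ^ 2 - u) * o - u ^ 2 * g
  have h' := (mul_eq_zero.mp h).resolve_right (mul_ne_zero hw (pow_ne_zero 2 hu))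
  exact sub_eq_zero.mp h'

theorem algO {a B1 C1 A2 c1 u v z s t r : F} (hu : u ≠ 0) (ht : t ≠ 0)
    (i2 : a * (-B1) * C1 ^ 2 = A2 * c1 ^ 2) (g2 : A2 * v ^ 2 = -(z * u)) (e1 : c1 * s ^ 4 = v)
    (o : B1 * s ^ 2 * t ^ 2 = -u) (g1 : C1 * s ^ 2 = -(r * t)) :
    a * r ^ 2 * s ^ 2 = -z := by
  have h : (a * r ^ 2 * s ^ 2 + z) * (u * t ^ 2) = 0 := by
    linear_combination (a * r ^ 2 * s ^ 2 * t ^ 2) * o
      + a * B1 * s ^ 4 * t ^ 2 * (C1 * s ^ 2 - r * t) * g1 + s ^ 8 * t ^ 2 * i2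
      + A2 * t ^ 2 * (c1 * s ^ 4 + v) * e1 + t ^ 2 * g2
  have h' := (mul_eq_zero.mp h).resolve_right (mul_ne_zero hu (pow_ne_zero 2 ht))
  linear_combination h'

end algebra

section seq

variable {T : W.Point} {n : ℕ}

theorem T_ne_zero (hn : 1 < n) (hne : ∀ k, 0 < k → k < n → k • T ≠ 0) : T ≠ 0 := by
  have := hne 1 one_pos hn
  rwa [one_nsmul] at this

theorem yc_nsmul_ne_zero (hW : IsE W) (hne : ∀ k, 0 < k → k < n → k • T ≠ 0) {m : ℕ}
    (hm : 0 < m) (h2m : 2 * m < n) : yc (m • T) ≠ 0 := by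
  intro hy
  have := add_self_eq_zero_of_yc_eq_zero hW hy
  rw [← add_nsmul, ← two_mul] at this
  exact hne (2 * m) (by omega) h2m this

theorem xc_nsmul_ne (hne : ∀ k, 0 < k → k < n → k • T ≠ 0) {i j : ℕ} (hj : 0 < j) (hji : j < i)
    (hij : i + j < n) : xc (i • T) ≠ xc (j • T) := by
  apply xc_ne_of_ne (hne i (by omega) (by omega)) (hne j hj (by omega))
  · have e2 : i • T - j • T = (i - j) • T := by
      rw [sub_eq_iff_eq_add, ← add_nsmul, Nat.sub_add_cancel hji.le]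
    rw [e2]; exact hne _ (by omega) (by omega)
  · rw [← add_nsmul]; exact hne _ (by omega) hij

theorem hseq_ne_zero (hW : IsE W) (h2 : (2 : F) ≠ 0) (hne : ∀ k, 0 < k → k < n → k • T ≠ 0) :
    ∀ k, 0 < k → k < n → hseq T k ≠ 0 := by
  intro k
  induction k using Nat.strong_induction_on with
  | _ k ih =>
    intro h0 hk
    match k, h0, hk, ih with
    | 1, _, _, _ => simp
    | 2, _, hk, _ =>
      rw [hseq_two]
      have := yc_nsmul_ne_zero hW hne one_pos (by omega : 2 * 1 < n)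
      rw [one_nsmul] at this
      exact mul_ne_zero h2 this
    | (k + 3), _, hk, ih =>
      rw [hseq_succ]
      have h1 := xc_nsmul_ne hne (i := k + 2) (j := 1) one_pos (by omega) (by omega)
      rw [one_nsmul] at h1
      exact div_ne_zero (mul_ne_zero (neg_ne_zero.mpr (sub_ne_zero.mpr h1))
        (pow_ne_zero 2 (ih (k + 2) (by omega) (by omega) (by omega))))
        (ih (k + 1) (by omega) (by omega) (by omega))

/-- (G1) -/
theorem hseq_G1 (hW : IsE W) (h2 : (2 : F) ≠ 0) (hne : ∀ k, 0 < k → k < n → k • T ≠ 0)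
    (k : ℕ) (hk : k < n) :
    (xc ((k + 1) • T) - xc T) * hseq T (k + 1) ^ 2 = -(hseq T (k + 2) * hseq T k) := by
  match k, hk with
  | 0, _ => simp
  | (k + 1), hk =>
    have h0 := hseq_ne_zero hW h2 hne (k + 1) (by omega) hk
    rw [show k + 1 + 2 = k + 3 from rfl, hseq_succ]
    field_simp

theorem hseq_EO (hW : IsE W) (h2 : (2 : F) ≠ 0) (hne : ∀ k, 0 < k → k < n → k • T ≠ 0) (m : ℕ) :
    (2 * (m + 1) ≤ n → 2 * yc ((m + 1) • T) * hseq T (m + 1) ^ 4 = hseq T (2 * (m + 1))) ∧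
    (2 * (m + 1) + 1 ≤ n → (xc ((m + 2) • T) - xc ((m + 1) • T)) * hseq T (m + 2) ^ 2 *
      hseq T (m + 1) ^ 2 = -hseq T (2 * (m + 1) + 1)) := by
  induction m with
  | zero =>
    refine ⟨fun _ => by simp, fun h => ?_⟩
    have := hseq_G1 hW h2 hne 1 (by omega)
    simp only [zero_add, one_nsmul, hseq_one, one_pow, mul_one] at this ⊢
    linear_combination this
  | succ m ih =>
    have hE : 2 * (m + 1 + 1) ≤ n →
        2 * yc ((m + 1 + 1) • T) * hseq T (m + 1 + 1) ^ 4 = hseq T (2 * (m + 1 + 1)) := by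
      intro h
      have hT := T_ne_zero (by omega) hne
      have i1 := xc_add_sub_xc_sub hW (hne (m + 2) (by omega) (by omega))
        (hne (m + 1) (by omega) (by omega))
        (xc_nsmul_ne hne (i := m + 2) (j := m + 1) (by omega) (by omega) (by omega))
      have e1 : (m + 2) • T + (m + 1) • T = (2 * (m + 1) + 1) • T := by
        rw [← add_nsmul]; congr 1; omega
      have e2 : (m + 2) • T - (m + 1) • T = T := by
        rw [sub_eq_iff_eq_add, ← succ_nsmul']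
      rw [e1, e2] at i1
      have g := hseq_G1 hW h2 hne (2 * (m + 1)) (by omega)
      exact algE (hseq_ne_zero hW h2 hne (2 * (m + 1)) (by omega) (by omega))
        (hseq_ne_zero hW h2 hne (2 * (m + 1) + 1) (by omega) (by omega)) i1 g
        (ih.2 (by omega)) (ih.1 (by omega))
    refine ⟨hE, fun h => ?_⟩
    have hT := T_ne_zero (by omega) hne
    have hx : xc ((m + 2) • T) ≠ xc T := by
      have := xc_nsmul_ne hne (i := m + 2) (j := 1) one_pos (by omega) (by omega)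
      rwa [one_nsmul] at this
    have i2 := xc_I2 hW h2 (hne (m + 2) (by omega) (by omega)) hT hx
      (yc_nsmul_ne_zero hW hne (by omega) (by omega))
    have e1 : (m + 2) • T + T = (m + 3) • T := (succ_nsmul T (m + 2)).symm
    have e2 : (m + 2) • T - T = (m + 1) • T := by
      rw [sub_eq_iff_eq_add, ← succ_nsmul]
    have e3 : (m + 2) • T + (m + 2) • T = (2 * (m + 1 + 1)) • T := by
      rw [← add_nsmul]; congr 1; omega
    rw [e1, e2, e3] at i2
    have g2 := hseq_G1 hW h2 hne (2 * (m + 1) + 1) (by omega)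
    have g1 := hseq_G1 hW h2 hne (m + 1) (by omega)
    refine algO (a := xc ((m + 3) • T) - xc ((m + 2) • T))
      (B1 := xc ((m + 2) • T) - xc ((m + 1) • T)) (C1 := xc ((m + 2) • T) - xc T)
      (hseq_ne_zero hW h2 hne (2 * (m + 1) + 1) (by omega) (by omega))
      (hseq_ne_zero hW h2 hne (m + 1) (by omega) (by omega)) ?_ g2 (hE (by omega))
      (ih.2 (by omega)) g1
    linear_combination i2

/-- the odd recurrence -/
theorem hseq_odd (hW : IsE W) (h2 : (2 : F) ≠ 0) (hne : ∀ k, 0 < k → k < n → k • T ≠ 0) (m : ℕ)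
    (h : 2 * (m + 1) + 1 ≤ n) :
    hseq T (2 * (m + 1) + 1) =
      hseq T (m + 3) * hseq T (m + 1) ^ 3 - hseq T m * hseq T (m + 2) ^ 3 := by
  have o := (hseq_EO hW h2 hne m).2 h
  have g1 := hseq_G1 hW h2 hne (m + 1) (by omega)
  have g0 := hseq_G1 hW h2 hne m (by omega)
  linear_combination o - hseq T (m + 1) ^ 2 * g1 + hseq T (m + 2) ^ 2 * g0

/-- the even recurrence -/
theorem hseq_even (hW : IsE W) (h2 : (2 : F) ≠ 0) (hne : ∀ k, 0 < k → k < n → k • T ≠ 0) (m : ℕ)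
    (h : 2 * (m + 2) ≤ n) :
    hseq T (2 * (m + 2)) * hseq T 2 =
      hseq T (m + 1) ^ 2 * hseq T (m + 2) * hseq T (m + 4) -
        hseq T m * hseq T (m + 2) * hseq T (m + 3) ^ 2 := by
  have e := (hseq_EO hW h2 hne (m + 1)).1 h
  have hT := T_ne_zero (by omega) hne
  have hx : xc ((m + 2) • T) ≠ xc T := by
    have := xc_nsmul_ne hne (i := m + 2) (j := 1) one_pos (by omega) (by omega)
    rwa [one_nsmul] at this
  have i1 := xc_add_sub_xc_sub hW (hne (m + 2) (by omega) (by omega)) hT hx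
  have e1 : (m + 2) • T + T = (m + 3) • T := (succ_nsmul T (m + 2)).symm
  have e2 : (m + 2) • T - T = (m + 1) • T := by
    rw [sub_eq_iff_eq_add, ← succ_nsmul]
  rw [e1, e2] at i1
  have gp := hseq_G1 hW h2 hne (m + 2) (by omega)
  have g0 := hseq_G1 hW h2 hne (m + 1) (by omega)
  have gm := hseq_G1 hW h2 hne m (by omega)
  rw [hseq_two]
  set C1 := xc ((m + 3) • T) - xc T with hC1
  set C0 := xc ((m + 2) • T) - xc T with hC0
  set Cm := xc ((m + 1) • T) - xc T with hCm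
  have i1' : (C1 - Cm) * C0 ^ 2 = -(2 * yc ((m + 2) • T) * (2 * yc T)) := by
    rw [← i1, hC1, hCm, hC0]; ring
  have hm1 : m + 1 + 1 = m + 2 := rfl
  have hm2 : m + 1 + 2 = m + 3 := rfl
  have hm3 : m + 2 + 1 = m + 3 := rfl
  have hm4 : m + 2 + 2 = m + 4 := rfl
  rw [hm1] at e g0
  rw [hm2] at g0
  rw [hm3, hm4] at gp
  set t := hseq T (m + 2)
  set s := hseq T (m + 3)
  set r := hseq T (m + 4)
  set q := hseq T (m + 1)
  set q' := hseq T m
  set w := hseq T (2 * (m + 2))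
  set c := 2 * yc ((m + 2) • T)
  -- `gp : C1 s² = - r t`, `g0 : C0 t² = - s q`, `gm : Cm q² = - t q'`, `e : c t⁴ = w`
  linear_combination (-(2 * yc T)) * e + t ^ 4 * i1' - (C1 - Cm) * (C0 * t ^ 2 - s * q) * g0
    - q ^ 2 * gp + s ^ 2 * gm

end seq

section evals

open Polynomial

omit [DecidableEq F] in
theorem eval_Ψ₂Sq (hW : IsE W) (x : F) :
    (WeierstrassCurve.Ψ₂Sq W).eval x = 4 * x ^ 3 + 4 * W.a₂ * x ^ 2 + 4 * W.a₄ * x := by
  simp only [WeierstrassCurve.Ψ₂Sq, WeierstrassCurve.b₂, WeierstrassCurve.b₄, WeierstrassCurve.b₆,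
    hW.a₁, hW.a₃, hW.a₆, eval_add, eval_mul, eval_C, eval_pow, eval_X]
  ring

omit [DecidableEq F] in
theorem eval_Ψ₃ (hW : IsE W) (x : F) :
    (WeierstrassCurve.Ψ₃ W).eval x = 3 * x ^ 4 + 4 * W.a₂ * x ^ 3 + 6 * W.a₄ * x ^ 2 - W.a₄ ^ 2 := by
  simp only [WeierstrassCurve.Ψ₃, WeierstrassCurve.b₂, WeierstrassCurve.b₄, WeierstrassCurve.b₆,
    WeierstrassCurve.b₈, hW.a₁, hW.a₃, hW.a₆, eval_add, eval_mul, eval_C, eval_pow, eval_X,
    eval_ofNat]
  ring

omit [DecidableEq F] in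
theorem eval_preΨ₄ (hW : IsE W) (x : F) :
    (WeierstrassCurve.preΨ₄ W).eval x = 2 * x ^ 6 + 4 * W.a₂ * x ^ 5 + 10 * W.a₄ * x ^ 4
      - 10 * W.a₄ ^ 2 * x ^ 2 - 4 * W.a₂ * W.a₄ ^ 2 * x - 2 * W.a₄ ^ 3 := by
  simp only [WeierstrassCurve.preΨ₄, WeierstrassCurve.b₂, WeierstrassCurve.b₄, WeierstrassCurve.b₆,
    WeierstrassCurve.b₈, hW.a₁, hW.a₃, hW.a₆, eval_add, eval_mul, eval_C, eval_pow, eval_X,
    eval_ofNat]
  ring

theorem hseq_three (hW : IsE W) (h2 : (2 : F) ≠ 0) {T : W.Point} (hy : yc T ≠ 0) :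
    hseq T 3 = (WeierstrassCurve.Ψ₃ W).eval (xc T) := by
  have e := xc_add_self hW h2 hy
  have c := curve_eq hW T
  rw [show (3 : ℕ) = 0 + 3 from rfl, hseq_succ, eval_Ψ₃ hW]
  simp only [zero_add, hseq_two, hseq_one, div_one, two_nsmul]
  linear_combination -e + 4 * xc T * c

theorem hseq_four (hW : IsE W) (h2 : (2 : F) ≠ 0) {T : W.Point}
    (hne : ∀ k, 0 < k → k < 4 → k • T ≠ 0) :
    hseq T 4 = (WeierstrassCurve.preΨ₄ W).eval (xc T) * (2 * yc T) := by
  have hy : yc T ≠ 0 := by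
    have := yc_nsmul_ne_zero hW hne one_pos (by omega : 2 * 1 < 4)
    rwa [one_nsmul] at this
  have hT := T_ne_zero (by omega) hne
  have c := curve_eq hW T
  have hx0 : xc T ≠ 0 := by
    intro h
    rw [h] at c
    apply hy
    have : yc T ^ 2 = 0 := by rw [c]; ring
    exact pow_eq_zero_iff (two_ne_zero) |>.mp this
  have e := xc_add_self hW h2 hy
  have hx : xc (2 • T) ≠ xc T := by
    have := xc_nsmul_ne hne (i := 2) (j := 1) one_pos (by omega) (by omega)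
    rwa [one_nsmul] at this
  have e3 := xc_add_mul_xc_sub hW (hne 2 (by omega) (by omega)) hT hx
  have e1 : 2 • T + T = 3 • T := (succ_nsmul T 2).symm
  have e2 : 2 • T - T = T := by
    rw [sub_eq_iff_eq_add, two_nsmul]
  rw [e1, e2] at e3
  rw [← two_nsmul] at e
  have g3 := hseq_G1 hW h2 hne 2 (by omega)
  have g2 := hseq_G1 hW h2 hne 1 (by omega)
  have h3 := hseq_three hW h2 hy
  rw [eval_Ψ₃ hW] at h3
  simp only [Nat.reduceAdd, hseq_two, hseq_one, mul_one] at g3 g2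
  rw [eval_preΨ₄ hW]
  have h2y : 2 * yc T ≠ 0 := mul_ne_zero h2 hy
  apply mul_right_cancel₀ (mul_ne_zero hx0 h2y)
  set x := xc T
  set y := yc T
  set X2 := xc (2 • T)
  set X3 := xc (3 • T)
  set h3' := hseq T 3
  set h4 := hseq T 4
  set a := W.a₂
  set b := W.a₄
  have k1 : h3' ^ 2 = (X2 - x) ^ 2 * (2 * y) ^ 4 := by
    have : h3' = -((X2 - x) * (2 * y) ^ 2) := by linear_combination g2
    rw [this]; ring
  have k2 : h4 * (2 * y) * x = -((X2 * x - b) ^ 2 - x ^ 2 * (X2 - x) ^ 2) * (2 * y) ^ 4 := by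
    linear_combination x * g3 - x * (X3 - x) * k1 - (2 * y) ^ 4 * e3
  have k3 : (X2 * x - b) * (2 * y) ^ 2 = x * ((x ^ 2 - b) ^ 2 - 4 * b * (x ^ 2 + a * x + b)) := by
    linear_combination x * e - 4 * b * c
  linear_combination k2
    - ((X2 * x - b) * (2 * y) ^ 2 + x * ((x ^ 2 - b) ^ 2 - 4 * b * (x ^ 2 + a * x + b))) * k3
    - x ^ 2 * k1 + x ^ 2 * (h3' + (3 * x ^ 4 + 4 * a * x ^ 3 + 6 * b * x ^ 2 - b ^ 2)) * h3
    - 4 * (2 * x ^ 6 + 4 * a * x ^ 5 + 10 * b * x ^ 4 - 10 * b ^ 2 * x ^ 2 - 4 * a * b ^ 2 * x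
      - 2 * b ^ 3) * x * c

theorem hseq_eq_normEDS (hW : IsE W) (h2 : (2 : F) ≠ 0) {T : W.Point} {n : ℕ} (hn : 4 ≤ n)
    (hne : ∀ k, 0 < k → k < n → k • T ≠ 0) :
    ∀ k, k ≤ n → hseq T k = normEDS (2 * yc T) ((WeierstrassCurve.Ψ₃ W).eval (xc T))
      ((WeierstrassCurve.preΨ₄ W).eval (xc T)) (k : ℤ) := by
  have hy : yc T ≠ 0 := by
    have := yc_nsmul_ne_zero hW hne one_pos (by omega : 2 * 1 < n)
    rwa [one_nsmul] at this
  have h2y : 2 * yc T ≠ 0 := mul_ne_zero h2 hy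
  intro k
  induction k using Nat.strong_induction_on with
  | _ k ih =>
    intro hk
    match k, hk, ih with
    | 0, _, _ => simp
    | 1, _, _ => simp
    | 2, _, _ =>
      rw [hseq_two, show ((2 : ℕ) : ℤ) = 2 from rfl, normEDS_two]
    | 3, _, _ =>
      rw [hseq_three hW h2 hy, show ((3 : ℕ) : ℤ) = 3 from rfl, normEDS_three]
    | 4, _, _ =>
      rw [hseq_four hW h2 (fun k h0 hk => hne k h0 (by omega)), show ((4 : ℕ) : ℤ) = 4 from rfl,
        normEDS_four]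
    | (k + 5), hk, ih =>
      rcases Nat.even_or_odd' k with ⟨m, rfl | rfl⟩
      · -- `2 m + 5 = 2 (m + 1 + 1) + 1`
        have e : 2 * m + 5 = 2 * (m + 1 + 1) + 1 := by ring
        rw [e] at hk ih ⊢
        rw [hseq_odd hW h2 hne (m + 1) hk, ih (m + 1 + 3) (by omega) (by omega),
          ih (m + 1 + 1) (by omega) (by omega), ih (m + 1) (by omega) (by omega),
          ih (m + 1 + 2) (by omega) (by omega)]
        have := normEDS_odd (2 * yc T) ((WeierstrassCurve.Ψ₃ W).eval (xc T))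
          ((WeierstrassCurve.preΨ₄ W).eval (xc T)) ((m : ℤ) + 2)
        have c1 : ((2 * (m + 1 + 1) + 1 : ℕ) : ℤ) = 2 * ((m : ℤ) + 2) + 1 := by push_cast; ring
        have c2 : ((m + 1 + 3 : ℕ) : ℤ) = (m : ℤ) + 2 + 2 := by push_cast; ring
        have c3 : ((m + 1 + 1 : ℕ) : ℤ) = (m : ℤ) + 2 := by push_cast; ring
        have c4 : ((m + 1 : ℕ) : ℤ) = (m : ℤ) + 2 - 1 := by push_cast; ring
        have c5 : ((m + 1 + 2 : ℕ) : ℤ) = (m : ℤ) + 2 + 1 := by push_cast; ring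
        rw [c1, c2, c3, c4, c5, this]
      · -- `2 m + 1 + 5 = 2 (m + 1 + 2)`
        have e : 2 * m + 1 + 5 = 2 * (m + 1 + 2) := by ring
        rw [e] at hk ih ⊢
        have h1 := hseq_even hW h2 hne (m + 1) hk
        rw [ih (m + 1 + 1) (by omega) (by omega), ih (m + 1 + 2) (by omega) (by omega),
          ih (m + 1 + 4) (by omega) (by omega), ih (m + 1) (by omega) (by omega),
          ih (m + 1 + 3) (by omega) (by omega), hseq_two] at h1
        have := normEDS_even (2 * yc T) ((WeierstrassCurve.Ψ₃ W).eval (xc T))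
          ((WeierstrassCurve.preΨ₄ W).eval (xc T)) ((m : ℤ) + 3)
        have c1 : ((2 * (m + 1 + 2) : ℕ) : ℤ) = 2 * ((m : ℤ) + 3) := by push_cast; ring
        have c2 : ((m + 1 + 1 : ℕ) : ℤ) = (m : ℤ) + 3 - 1 := by push_cast; ring
        have c3 : ((m + 1 + 2 : ℕ) : ℤ) = (m : ℤ) + 3 := by push_cast; ring
        have c4 : ((m + 1 + 4 : ℕ) : ℤ) = (m : ℤ) + 3 + 2 := by push_cast; ring
        have c5 : ((m + 1 : ℕ) : ℤ) = (m : ℤ) + 3 - 2 := by push_cast; ring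
        have c6 : ((m + 1 + 3 : ℕ) : ℤ) = (m : ℤ) + 3 + 1 := by push_cast; ring
        rw [c2, c3, c4, c5, c6, ← this] at h1
        rw [c1]
        exact mul_right_cancel₀ h2y h1

/-- for odd `k ≤ n`, `hseq T k` is the value of the division polynomial `preΨ' k`. -/
theorem hseq_eq_eval_preΨ' (hW : IsE W) (h2 : (2 : F) ≠ 0) {T : W.Point} {n : ℕ} (hn : 4 ≤ n)
    (hne : ∀ k, 0 < k → k < n → k • T ≠ 0) {k : ℕ} (hk : k ≤ n) (hodd : Odd k) :
    hseq T k = (WeierstrassCurve.preΨ' W k).eval (xc T) := by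
  rw [hseq_eq_normEDS hW h2 hn hne k hk, normEDS_ofNat, if_neg (Nat.not_even_iff_odd.mpr hodd),
    mul_one, WeierstrassCurve.preΨ', ← coe_evalRingHom, map_preNormEDS', coe_evalRingHom, eval_pow,
    eval_Ψ₂Sq hW]
  congr 1
  have c := curve_eq hW T
  linear_combination (16 * yc T ^ 2 + 16 * (xc T ^ 3 + W.a₂ * xc T ^ 2 + W.a₄ * xc T)) * c

/-- (a) the `x`-coordinate of a point of exact order `p` is a root of `preΨ' p`. -/
theorem eval_preΨ'_eq_zero (hW : IsE W) (h2 : (2 : F) ≠ 0) {p : ℕ} (hp : p.Prime) (hp5 : 5 ≤ p)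
    {T : W.Point} (hT : T ≠ 0) (hpT : p • T = 0) :
    (WeierstrassCurve.preΨ' W p).eval (xc T) = 0 := by
  have hne : ∀ k, 0 < k → k < p → k • T ≠ 0 := fun k h0 hk =>
    nsmul_ne_zero_of_not_dvd hp hpT hT (not_dvd_of_lt h0 hk)
  have hodd : Odd p := hp.odd_of_ne_two (by omega)
  rw [← hseq_eq_eval_preΨ' hW h2 (by omega) hne le_rfl hodd]
  obtain ⟨k, rfl⟩ : ∃ k, p = k + 3 := ⟨p - 3, by omega⟩
  have e : (k + 2) • T = -T := by
    rw [eq_neg_iff_add_eq_zero, ← succ_nsmul, hpT]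
  rw [hseq_succ, e, xc_neg, sub_self]
  simp

/-- (b) converse. -/
theorem nsmul_eq_zero_of_eval_preΨ' (hW : IsE W) (h2 : (2 : F) ≠ 0) {p : ℕ} (hp5 : 5 ≤ p)
    (hodd : Odd p) {T : W.Point} (hne : ∀ k, 0 < k → k < p → k • T ≠ 0)
    (h0 : (WeierstrassCurve.preΨ' W p).eval (xc T) = 0) : p • T = 0 := by
  rw [← hseq_eq_eval_preΨ' hW h2 (by omega) hne le_rfl hodd] at h0
  obtain ⟨k, rfl⟩ : ∃ k, p = k + 3 := ⟨p - 3, by omega⟩
  rw [hseq_succ] at h0
  have h1 := hseq_ne_zero hW h2 hne (k + 2) (by omega) (by omega)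
  have h3 := hseq_ne_zero hW h2 hne (k + 1) (by omega) (by omega)
  have h4 : xc ((k + 2) • T) = xc T := by
    rcases div_eq_zero_iff.mp h0 with h | h
    · rcases mul_eq_zero.mp h with h | h
      · exact sub_eq_zero.mp (neg_eq_zero.mp h)
      · exact absurd (pow_eq_zero_iff two_ne_zero |>.mp h) h1
    · exact absurd h h3
  have hT := T_ne_zero (by omega) hne
  rcases eq_or_eq_neg_of_xc_eq (hne (k + 2) (by omega) (by omega)) hT h4 with h | h
  · exfalso
    apply hne (k + 1) (by omega) (by omega)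
    have : (k + 1) • T + T = T := by rw [← succ_nsmul]; exact h
    simpa using this
  · rw [succ_nsmul, h, neg_add_cancel]

end evals

end Fermat.Agent.S13Lib
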