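import Fermat.Agent.S05.Final
import Fermat.Agent.S13.Link
set_option autoImplicit false
set_option linter.unusedSectionVars false

/-!
# S13, leaf C2: `#E[p] ≤ p²`
-/

namespace Fermat.Agent.S13Lib

open WeierstrassCurve WeierstrassCurve.Affine WeierstrassCurve.Affine.Point
open Fermat.Agent.S05Lib

local notation "Qb" => AlgebraicClosure ℚ

theorem exists_finset_torsion {F : Type*} [Field F] [DecidableEq F] {W : WeierstrassCurve.Affine F}
    (hW : IsE W) (h2 : (2 : F) ≠ 0) {p : ℕ} (hp : p.Prime) (hp5 : 5 ≤ p) (hpF : (p : F) ≠ 0) :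
    ∃ S : Finset W.Point, S.card ≤ p ^ 2 ∧ ∀ T : W.Point, p • T = 0 → T ∈ S := by
  classical
  set f := WeierstrassCurve.preΨ' W p with hf
  have hf0 : f ≠ 0 := WeierstrassCurve.preΨ'_ne_zero W hpF
  set Rts := f.roots.toFinset with hRts
  have hodd : ¬ Even p := Nat.not_even_iff_odd.mpr (hp.odd_of_ne_two (by omega))
  have hcard : Rts.card ≤ (p ^ 2 - 1) / 2 := by
    calc Rts.card ≤ Multiset.card f.roots := Multiset.toFinset_card_le _
      _ ≤ f.natDegree := Polynomial.card_roots' f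
      _ ≤ (p ^ 2 - if Even p then 4 else 1) / 2 := WeierstrassCurve.natDegree_preΨ'_le W p
      _ = (p ^ 2 - 1) / 2 := by rw [if_neg hodd]
  let Q : F → W.Point := fun x =>
    if h : ∃ T : W.Point, T ≠ 0 ∧ xc T = x then h.choose else 0
  refine ⟨insert 0 (Rts.image Q ∪ Rts.image (fun x => -Q x)), ?_, ?_⟩
  · have h1 : 1 ≤ p ^ 2 := Nat.one_le_pow _ _ hp.pos
    calc (insert 0 (Rts.image Q ∪ Rts.image (fun x => -Q x))).card
        ≤ (Rts.image Q ∪ Rts.image (fun x => -Q x)).card + 1 := Finset.card_insert_le _ _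
      _ ≤ (Rts.image Q).card + (Rts.image (fun x => -Q x)).card + 1 := by
          gcongr
          exact Finset.card_union_le _ _
      _ ≤ Rts.card + Rts.card + 1 := by
          gcongr <;> exact Finset.card_image_le
      _ ≤ p ^ 2 := by omega
  · intro T hT
    by_cases hT0 : T = 0
    · rw [hT0]; exact Finset.mem_insert_self _ _
    apply Finset.mem_insert_of_mem
    have hroot : xc T ∈ Rts := by
      rw [hRts, Multiset.mem_toFinset, Polynomial.mem_roots hf0]
      exact eval_preΨ'_eq_zero hW h2 hp hp5 hT0 hT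
    have hex : ∃ T' : W.Point, T' ≠ 0 ∧ xc T' = xc T := ⟨T, hT0, rfl⟩
    have hQ : Q (xc T) = hex.choose := dif_pos hex
    obtain ⟨hQ0, hQx⟩ := hex.choose_spec
    rw [← hQ] at hQ0 hQx
    rcases eq_or_eq_neg_of_xc_eq hT0 hQ0 hQx.symm with h | h
    · exact Finset.mem_union_left _ (Finset.mem_image.mpr ⟨xc T, hroot, h.symm⟩)
    · exact Finset.mem_union_right _ (Finset.mem_image.mpr ⟨xc T, hroot, h.symm⟩)

theorem card_torsion_le (P : FreyPackage) :
    Finite (Submodule.torsionBy ℤ (P.freyCurve⁄Qb).Point P.p) ∧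
      Nat.card (Submodule.torsionBy ℤ (P.freyCurve⁄Qb).Point P.p) ≤ P.p ^ 2 := by
  obtain ⟨φ, hinj, -⟩ := exists_transport P 0 _ _ (Or.inl ⟨rfl, rfl, rfl⟩)
  obtain ⟨S, hS, hmem⟩ := exists_finset_torsion (isE_EC ((P.b : ℚ) ^ P.p - (P.a : ℚ) ^ P.p)
    (-((P.a : ℚ) ^ P.p * (P.b : ℚ) ^ P.p)) Qb) two_ne_zero P.pp P.hp5
    (by exact_mod_cast P.hp0)
  have hx : ∀ x : Submodule.torsionBy ℤ (P.freyCurve⁄Qb).Point P.p, φ x.1 ∈ S := by
    intro x
    apply hmem
    have h1 := x.2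
    rw [Submodule.mem_torsionBy_iff, Nat.cast_smul_eq_nsmul ℤ] at h1
    rw [← map_nsmul, h1, _root_.map_zero]
  let ψ : Submodule.torsionBy ℤ (P.freyCurve⁄Qb).Point P.p → S := fun x => ⟨φ x.1, hx x⟩
  have hψ : Function.Injective ψ := by
    intro x y h
    apply Subtype.ext
    apply hinj
    exact congrArg Subtype.val h
  refine ⟨Finite.of_injective ψ hψ, ?_⟩
  calc Nat.card (Submodule.torsionBy ℤ (P.freyCurve⁄Qb).Point P.p) ≤ Nat.card S :=
        Nat.card_le_card_of_injective ψ hψ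
    _ = S.card := by simp
    _ ≤ P.p ^ 2 := hS

end Fermat.Agent.S13Lib
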