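import Fermat.Agent.S13.Exists1
import Fermat.Agent.Lib.PlaceExists
set_option autoImplicit false
set_option linter.unusedSectionVars false

/-!
# S13, leaf C3: the Frey curve has a nonzero point of order `p`
-/

namespace Fermat.Agent.S13Lib

open WeierstrassCurve WeierstrassCurve.Affine WeierstrassCurve.Affine.Point
open Fermat.Agent.S05Lib

local notation "Qb" => AlgebraicClosure ℚ

/-- `e = -b`: the Frey curve becomes `y² = x (x² - (a + 2 b) x + b (a + b))`. -/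
theorem isFreyChange_b (P : FreyPackage) :
    IsFreyChange P.freyCurve
      (shortCurve (-((P.a : ℚ) ^ P.p + 2 * (P.b : ℚ) ^ P.p))
        ((P.b : ℚ) ^ P.p * ((P.a : ℚ) ^ P.p + (P.b : ℚ) ^ P.p))) (-(P.b : ℚ) ^ P.p) where
  a₁ := rfl
  a₃ := rfl
  a₆ := rfl
  short := isShort_shortCurve _ _
  c₂ := by simp [FreyPackage.freyCurve]; ring
  c₄ := by simp [FreyPackage.freyCurve]; ring
  c₆ := by simp; ring

/-- points with `Y ≠ 0` are in the image of the change of variables. -/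
theorem exists_preimage_of_Y_ne {K : Type*} [Field K] [DecidableEq K] {W₁ W₂ : Affine K} {e : K}
    (hc : IsFreyChange W₁ W₂ e) (h2 : (2 : K) ≠ 0) {X Y : K} (h : W₂.Nonsingular X Y)
    (hY : Y ≠ 0) : ∃ T : W₁.Point, hc.hom h2 T = Point.some X Y h := by
  have h4 : (4 : K) ≠ 0 := by
    have : (4 : K) = 2 ^ 2 := by norm_num
    rw [this]; exact pow_ne_zero 2 h2
  have h8 : (8 : K) ≠ 0 := by
    have : (8 : K) = 2 ^ 3 := by norm_num
    rw [this]; exact pow_ne_zero 3 h2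
  have h64 : (64 : K) ≠ 0 := by
    have : (64 : K) = 2 ^ 6 := by norm_num
    rw [this]; exact pow_ne_zero 6 h2
  obtain ⟨x, hx⟩ : ∃ x, X = 4 * x - e := ⟨(X + e) / 4, by field_simp; ring⟩
  obtain ⟨y, hy⟩ : ∃ y, Y = 8 * y + 4 * x := ⟨(Y - 4 * x) / 8, by field_simp; ring⟩
  subst hx hy
  have heq := (hc.short.equation_iff _ _).mp h.1
  have hns : W₁.Nonsingular x y := by
    rw [Affine.nonsingular_iff']
    refine ⟨?_, Or.inr ?_⟩
    · rw [Affine.equation_iff, hc.a₁, hc.a₃, hc.a₆]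
      have : 64 * (y ^ 2 + 1 * x * y + 0 * y - (x ^ 3 + W₁.a₂ * x ^ 2 + W₁.a₄ * x + 0)) = 0 := by
        linear_combination heq - 16 * x ^ 2 * hc.c₂ - 4 * x * hc.c₄ - hc.c₆
      exact sub_eq_zero.mp ((mul_eq_zero.mp this).resolve_left h64)
    · rw [hc.a₁, hc.a₃]
      intro h0
      apply hY
      linear_combination 4 * h0
  exact ⟨Point.some x y hns, rfl⟩

theorem exists_preimage_homK {K : Type*} [Field K] [DecidableEq K] [Algebra ℚ K]
    {W₁ W₂ : Affine ℚ} {e : ℚ} (hc : IsFreyChange W₁ W₂ e) {X Y : K}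
    (h : (W₂⁄K).Nonsingular X Y) (hY : Y ≠ 0) :
    ∃ T : (W₁⁄K).Point, hc.homK K T = Point.some X Y h :=
  exists_preimage_of_Y_ne (hc.map (algebraMap ℚ K)) _ h hY

theorem exists_torsion_of_change (P : FreyPackage) {e α β : ℚ}
    (hc : IsFreyChange P.freyCurve (EC α β) e) (hα : ∃ a : ℤ, α = a)
    (hβ : ∃ b : ℤ, β = b ∧ ¬ (P.p : ℤ) ∣ b) :
    ∃ T : (P.freyCurve⁄Qb).Point, T ≠ 0 ∧ P.p • T = 0 := by
  obtain ⟨a, rfl⟩ := hα
  obtain ⟨b, rfl, hb⟩ := hβ
  obtain ⟨A, hA⟩ := Fermat.Agent.Lib.exists_valuationSubring_liesOver P.p P.pp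
  have hp2 : P.p ≠ 2 := by have := P.hp5; omega
  have H : Hyp A.valuation ((EC (a : ℚ) (b : ℚ))⁄Qb) :=
    { toIsE := isE_EC _ _ _
      ha₂ := by rw [EC_a₂, algebraMap_intCast_rat]; exact valuation_intCast_le_one A a
      ha₄ := by rw [EC_a₄, algebraMap_intCast_rat]; exact valuation_intCast_le_one A b
      h2 := by
        have := valuation_natCast_eq_one A P.pp hA Nat.prime_two hp2
        simpa using this }
  obtain ⟨x, y, h, hy, hT⟩ := exists_torsion_short H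
    (by rw [EC_a₄, algebraMap_intCast_rat]; exact valuation_intCast_eq_one A P.pp hA b hb)
    P.pp P.hp5 (by exact_mod_cast P.hp0) ((ValuationSubring.mem_nonunits_iff (A := A)).mp hA)
    (fun q hq hqp => valuation_natCast_eq_one A P.pp hA hq (by omega))
  obtain ⟨T, hTφ⟩ := exists_preimage_homK hc h hy
  refine ⟨T, ?_, ?_⟩
  · rintro rfl
    rw [_root_.map_zero] at hTφ
    exact Point.some_ne_zero _ hTφ.symm
  · apply hc.homK_injective (K := Qb)
    rw [map_nsmul, hTφ, _root_.map_zero]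
    exact hT

theorem exists_torsion_ne_zero (P : FreyPackage) :
    ∃ T : (P.freyCurve⁄Qb).Point, T ≠ 0 ∧ P.p • T = 0 := by
  have hpr : Prime (P.p : ℤ) := int_prime P.pp
  have hFLT := P.hFLT
  by_cases ha : (P.p : ℤ) ∣ P.a
  · -- centre `-b^p`
    have hb : ¬ (P.p : ℤ) ∣ P.b := not_dvd_of_gcd_eq_one P.pp P.hgcdab ha
    have hcc : ¬ (P.p : ℤ) ∣ P.c := not_dvd_of_gcd_eq_one P.pp P.hgcdac ha
    refine exists_torsion_of_change P (isFreyChange_b P)
      ⟨-(P.a ^ P.p + 2 * P.b ^ P.p), by push_cast; ring⟩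
      ⟨P.b ^ P.p * (P.a ^ P.p + P.b ^ P.p), by push_cast; ring, ?_⟩
    rw [hFLT]
    intro h
    rcases hpr.dvd_or_dvd h with h | h
    · exact hb (hpr.dvd_of_dvd_pow h)
    · exact hcc (hpr.dvd_of_dvd_pow h)
  by_cases hb : (P.p : ℤ) ∣ P.b
  · -- centre `a^p`
    have hcc : ¬ (P.p : ℤ) ∣ P.c := not_dvd_of_gcd_eq_one P.pp P.hgcdbc hb
    refine exists_torsion_of_change P (isFreyChange_a P)
      ⟨2 * P.a ^ P.p + P.b ^ P.p, by push_cast; ring⟩
      ⟨P.a ^ P.p * (P.a ^ P.p + P.b ^ P.p), by push_cast; ring, ?_⟩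
    rw [hFLT]
    intro h
    rcases hpr.dvd_or_dvd h with h | h
    · exact ha (hpr.dvd_of_dvd_pow h)
    · exact hcc (hpr.dvd_of_dvd_pow h)
  · -- centre `0`
    refine exists_torsion_of_change P (isFreyChange_zero P)
      ⟨P.b ^ P.p - P.a ^ P.p, by push_cast; ring⟩
      ⟨-(P.a ^ P.p * P.b ^ P.p), by push_cast; ring, ?_⟩
    rw [dvd_neg]
    intro h
    rcases hpr.dvd_or_dvd h with h | h
    · exact ha (hpr.dvd_of_dvd_pow h)
    · exact hb (hpr.dvd_of_dvd_pow h)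

end Fermat.Agent.S13Lib
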