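import Fermat.Agent.S05.Core
set_option autoImplicit false
set_option linter.unusedSectionVars false

/-!
# S13, leaf C8: the `x`-only core

`x k` is the `x`-coordinate of `k • T` on `y² + x y = x³ + a₂ x² + a₄ x` (`b₂ = 1 + 4 a₂`),
`T` of order `p`.  Only the relations (P1), (P2) are used.
-/

namespace Fermat.Agent.S13Lib

open Fermat.Agent.S05Lib

variable {F Γ₀ : Type*} [Field F] [LinearOrderedCommGroupWithZero Γ₀] (v : Valuation F Γ₀)

/-- the data of the `x`-coordinates of the multiples of a point of order `p`. -/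
structure XSeq (p : ℕ) (x : ℕ → F) (a₄ b₂ : F) : Prop where
  per : ∀ i j, i % p = j % p → x i = x j
  sym : ∀ i j, p ∣ i + j → x i = x j
  P1 : ∀ i j, j < i → ¬ p ∣ i → ¬ p ∣ j → ¬ p ∣ i + j → ¬ p ∣ i - j →
    x (i + j) * x (i - j) * (x i - x j) ^ 2 = (x i * x j - a₄) ^ 2
  P2 : ∀ i, ¬ p ∣ i →
    x (2 * i) * (4 * x i ^ 3 + b₂ * x i ^ 2 + 4 * a₄ * x i) = (x i ^ 2 - a₄) ^ 2

variable {v} {p : ℕ} {x : ℕ → F} {a₄ b₂ : F}

theorem XSeq.dbl_gt (X : XSeq p x a₄ b₂) (h4 : v (4 : F) < 1) (hb₂ : v b₂ = 1) (ha₄ : v a₄ < 1)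
    {i : ℕ} (hi : ¬ p ∣ i) (h1 : 1 < v (x i)) : v (x i) < v (x (2 * i)) := by
  have e := congrArg v (X.P2 i hi)
  set r := v (x i) with hr
  have hr0 : 0 < r := lt_trans one_pos h1
  have hR : v (x i ^ 2 - a₄) = r ^ 2 := by
    rw [hr, ← map_pow]
    apply Valuation.map_sub_eq_of_lt_left
    rw [map_pow]
    exact ha₄.trans (one_lt_pow₀ h1 two_ne_zero)
  have hD : v (4 * x i ^ 3 + b₂ * x i ^ 2 + 4 * a₄ * x i) < r ^ 3 := by
    refine Valuation.map_add_lt _ (Valuation.map_add_lt _ ?_ ?_) ?_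
    · rw [map_mul, map_pow]
      calc v 4 * r ^ 3 < 1 * r ^ 3 := mul_lt_mul_of_pos_right h4 (pow_pos hr0 3)
        _ = r ^ 3 := one_mul _
    · rw [map_mul, map_pow, hb₂, one_mul]
      exact pow_lt_pow_right₀ h1 (by norm_num)
    · rw [map_mul, map_mul]
      calc v 4 * v a₄ * r ≤ 1 * 1 * r := by gcongr
        _ = r ^ 1 := by rw [one_mul, one_mul, pow_one]
        _ < r ^ 3 := pow_lt_pow_right₀ h1 (by norm_num)
  rw [map_mul, map_pow, hR] at e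
  by_contra hcon
  push Not at hcon
  have : v (x (2 * i)) * v (4 * x i ^ 3 + b₂ * x i ^ 2 + 4 * a₄ * x i) < (r ^ 2) ^ 2 := by
    calc _ ≤ r * v (4 * x i ^ 3 + b₂ * x i ^ 2 + 4 * a₄ * x i) := by gcongr
      _ < r * r ^ 3 := mul_lt_mul_of_pos_left hD hr0
      _ = (r ^ 2) ^ 2 := by rw [← pow_succ', ← pow_mul]
  exact absurd e this.ne

theorem not_dvd_two_pow_mul (hp : p.Prime) (hp5 : 5 ≤ p) {k : ℕ} (hk : ¬ p ∣ k) (n : ℕ) :
    ¬ p ∣ 2 ^ n * k := by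
  intro h
  rcases (Nat.Prime.dvd_mul hp).mp h with h | h
  · have := (Nat.prime_dvd_prime_iff_eq hp Nat.prime_two).mp (hp.dvd_of_dvd_pow h)
    omega
  · exact hk h

/-- Step 1 : all `x k` are integral. -/
theorem XSeq.le_one (X : XSeq p x a₄ b₂) (hp : p.Prime) (hp5 : 5 ≤ p) (h4 : v (4 : F) < 1)
    (hb₂ : v b₂ = 1) (ha₄ : v a₄ < 1) {k : ℕ} (hk : ¬ p ∣ k) : v (x k) ≤ 1 := by
  by_contra hcon
  push Not at hcon
  have key : ∀ n : ℕ, v (x k) ≤ v (x (2 ^ n * k)) ∧ (0 < n → v (x k) < v (x (2 ^ n * k))) := by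
    intro n
    induction n with
    | zero => simp
    | succ n ih =>
      have h1 := X.dbl_gt h4 hb₂ ha₄ (not_dvd_two_pow_mul hp hp5 hk n) (hcon.trans_le ih.1)
      have e : 2 * (2 ^ n * k) = 2 ^ (n + 1) * k := by ring
      rw [e] at h1
      exact ⟨(ih.1.trans_lt h1).le, fun _ => ih.1.trans_lt h1⟩
  have h2 := (key (p - 1)).2 (by omega)
  have hc : Nat.Coprime 2 p := by
    rw [Nat.coprime_comm, Nat.Prime.coprime_iff_not_dvd hp]
    intro h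
    have := Nat.le_of_dvd (by norm_num) h
    omega
  have h3 : (2 ^ (p - 1) * k) % p = k % p := by
    have h4 : 2 ^ (p - 1) ≡ 1 [MOD p] := by
      have := Nat.ModEq.pow_totient hc
      rwa [Nat.totient_prime hp] at this
    have := h4.mul_right k
    rwa [one_mul] at this
  rw [X.per _ _ h3] at h2
  exact lt_irrefl _ h2

/-- Step 2 : no `x k` is a unit. -/
theorem XSeq.lt_one (X : XSeq p x a₄ b₂) (hp : p.Prime) (hp5 : 5 ≤ p) (h4 : v (4 : F) < 1)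
    (hb₂ : v b₂ = 1) (ha₄ : v a₄ < 1)
    (hodd : ∀ s t : F, v s = 1 → v t = 1 → v (s - t) < 1) {k : ℕ} (hk : ¬ p ∣ k) :
    v (x k) < 1 := by
  refine lt_of_le_of_ne (X.le_one hp hp5 h4 hb₂ ha₄ hk) fun h1 => ?_
  have hk0 : 0 < k := Nat.pos_of_ne_zero (by rintro rfl; exact hk (dvd_zero p))
  have h2k : ¬ p ∣ 2 * k := by simpa using not_dvd_two_pow_mul hp hp5 hk 1
  have h3k : ¬ p ∣ 2 * k + k := by
    intro h
    have e : 2 * k + k = 3 * k := by ring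
    rw [e] at h
    rcases (Nat.Prime.dvd_mul hp).mp h with h | h
    · have := Nat.le_of_dvd (by norm_num) h
      omega
    · exact hk h
  -- `x (2 k)` is a unit
  have hR : v (x k ^ 2 - a₄) = 1 := by
    have : v (x k ^ 2) = 1 := by rw [map_pow, h1, one_pow]
    rw [← this]
    apply Valuation.map_sub_eq_of_lt_left
    rw [this]; exact ha₄
  have hD : v (4 * x k ^ 3 + b₂ * x k ^ 2 + 4 * a₄ * x k) = 1 := by
    have e : 4 * x k ^ 3 + b₂ * x k ^ 2 + 4 * a₄ * x k =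
        b₂ * x k ^ 2 + (4 * x k ^ 3 + 4 * a₄ * x k) := by ring
    have e1 : v (b₂ * x k ^ 2) = 1 := by rw [map_mul, map_pow, hb₂, h1, one_pow, one_mul]
    rw [e, ← e1]
    apply Valuation.map_add_eq_of_lt_left
    rw [e1]
    refine Valuation.map_add_lt _ ?_ ?_
    · rw [map_mul, map_pow, h1, one_pow, mul_one]; exact h4
    · rw [map_mul, map_mul, h1, mul_one]
      calc v 4 * v a₄ ≤ 1 * v a₄ := by gcongr
        _ = v a₄ := one_mul _
        _ < 1 := ha₄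
  have e2 := congrArg v (X.P2 k hk)
  rw [map_mul, hD, mul_one, map_pow, hR, one_pow] at e2
  -- (P1) for `2 k`, `k`
  have e1 := congrArg v (X.P1 (2 * k) k (by omega) h2k hk h3k (by
    have : 2 * k - k = k := by omega
    rwa [this]))
  have hR' : v (x (2 * k) * x k - a₄) = 1 := by
    have : v (x (2 * k) * x k) = 1 := by rw [map_mul, e2, h1, one_mul]
    rw [← this]
    apply Valuation.map_sub_eq_of_lt_left
    rw [this]; exact ha₄
  rw [map_mul, map_mul, map_pow, map_pow, hR', one_pow] at e1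
  have hd := hodd _ _ e2 h1
  have h5 := X.le_one hp hp5 h4 hb₂ ha₄ h3k
  have h6 : v (x (2 * k - k)) ≤ 1 := by
    have : 2 * k - k = k := by omega
    rw [this]; exact h1.le
  have : v (x (2 * k + k)) * v (x (2 * k - k)) * v (x (2 * k) - x k) ^ 2 < 1 := by
    calc _ ≤ 1 * 1 * v (x (2 * k) - x k) ^ 2 := by gcongr
      _ = v (x (2 * k) - x k) ^ 2 := by rw [one_mul, one_mul]
      _ < 1 := pow_lt_one₀ zero_le hd two_ne_zero
  exact absurd e1 this.ne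

/-- Step 3 : `v a₄ < v (x k)`. -/
theorem XSeq.a₄_lt (X : XSeq p x a₄ b₂) (hp : p.Prime) (hp5 : 5 ≤ p) (h4 : v (4 : F) < 1)
    (hb₂ : v b₂ = 1) (ha₄ : v a₄ < 1) (ha₄0 : a₄ ≠ 0)
    (hodd : ∀ s t : F, v s = 1 → v t = 1 → v (s - t) < 1) {k : ℕ} (hk : ¬ p ∣ k) :
    v a₄ < v (x k) := by
  by_contra hcon
  push Not at hcon
  have h2k : ¬ p ∣ 2 * k := by simpa using not_dvd_two_pow_mul hp hp5 hk 1
  have hb0 : 0 < v a₄ := zero_lt_iff.mpr ((Valuation.ne_zero_iff v).mpr ha₄0)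
  have hx2 : v (x k ^ 2) < v a₄ := by
    rw [map_pow, pow_two]
    calc v (x k) * v (x k) ≤ v a₄ * v a₄ := by gcongr
      _ < v a₄ * 1 := mul_lt_mul_of_pos_left ha₄ hb0
      _ = _ := mul_one _
  have hR : v (x k ^ 2 - a₄) = v a₄ := Valuation.map_sub_eq_of_lt_right _ hx2
  have hD : v (4 * x k ^ 3 + b₂ * x k ^ 2 + 4 * a₄ * x k) ≤ v a₄ ^ 2 := by
    refine Valuation.map_add_le _ (Valuation.map_add_le _ ?_ ?_) ?_
    · rw [map_mul, map_pow]
      calc v 4 * v (x k) ^ 3 ≤ 1 * v a₄ ^ 3 := by gcongr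
        _ = v a₄ ^ 2 * v a₄ := by rw [one_mul, pow_succ]
        _ ≤ v a₄ ^ 2 * 1 := by gcongr
        _ = _ := mul_one _
    · rw [map_mul, map_pow, hb₂, one_mul]
      gcongr
    · rw [map_mul, map_mul]
      calc v 4 * v a₄ * v (x k) ≤ 1 * v a₄ * v a₄ := by gcongr
        _ = v a₄ ^ 2 := by rw [one_mul, pow_two]
  have e2 := congrArg v (X.P2 k hk)
  rw [map_mul, map_pow, hR] at e2
  have h1 := X.lt_one hp hp5 h4 hb₂ ha₄ hodd h2k
  have hD0 : 0 < v (4 * x k ^ 3 + b₂ * x k ^ 2 + 4 * a₄ * x k) := by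
    rw [zero_lt_iff]
    intro h0
    rw [h0, mul_zero] at e2
    exact (pow_pos hb0 2).ne e2
  have : v (x (2 * k)) * v (4 * x k ^ 3 + b₂ * x k ^ 2 + 4 * a₄ * x k) < v a₄ ^ 2 := by
    calc _ < 1 * v (4 * x k ^ 3 + b₂ * x k ^ 2 + 4 * a₄ * x k) := mul_lt_mul_of_pos_right h1 hD0
      _ = _ := one_mul _
      _ ≤ _ := hD
  exact absurd e2 this.ne

/-- Step 4 : conclusion. -/
theorem XSeq.exists_pow_eq (X : XSeq p x a₄ b₂) (hp : p.Prime) (hp5 : 5 ≤ p) (h4 : v (4 : F) < 1)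
    (hb₂ : v b₂ = 1) (ha₄ : v a₄ < 1) (ha₄0 : a₄ ≠ 0)
    (hodd : ∀ s t : F, v s = 1 → v t = 1 → v (s - t) < 1) : ∃ t : F, v t ^ p = v a₄ ^ 2 := by
  have hlt : ∀ k, ¬ p ∣ k → v (x k) < 1 := fun k hk => X.lt_one hp hp5 h4 hb₂ ha₄ hodd hk
  have hlow : ∀ k, ¬ p ∣ k → v a₄ < v (x k) := fun k hk => X.a₄_lt hp hp5 h4 hb₂ ha₄ ha₄0 hodd hk
  obtain ⟨k₀, hk₀, hk₀max⟩ := Finset.exists_max_image (Finset.Ioo 0 p)
    (fun k => v (x k)) ⟨1, by simp; omega⟩
  rw [Finset.mem_Ioo] at hk₀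
  have hk₀p : ¬ p ∣ k₀ := Nat.not_dvd_of_pos_of_lt hk₀.1 hk₀.2
  have hjk : ∀ j, 0 < j → j < p → ¬ p ∣ j * k₀ := by
    intro j h0 hj h
    rcases (Nat.Prime.dvd_mul hp).mp h with h | h
    · exact Nat.not_dvd_of_pos_of_lt h0 hj h
    · exact hk₀p h
  have hodd' : p % 2 = 1 := by
    rcases hp.eq_two_or_odd with h | h
    · omega
    · exact h
  obtain ⟨k, hk⟩ : ∃ k, p = 2 * k + 1 := ⟨p / 2, by omega⟩
  refine ⟨x (1 * k₀), core v (fun j => x (j * k₀)) a₄ p k hk (by omega) ha₄0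
    (fun j h0 hj => hlow _ (hjk j h0 hj)) (fun j h0 hj => ?_) (hlt _ (hjk 1 one_pos (by omega)))
    ?_ (fun i j hj hji hij => ?_) ?_⟩
  · simp only [one_mul]
    rw [X.per (j * k₀) ((j * k₀) % p) (Nat.mod_mod _ _).symm]
    apply hk₀max
    rw [Finset.mem_Ioo]
    exact ⟨Nat.pos_of_ne_zero fun h => hjk j h0 hj (Nat.dvd_of_mod_eq_zero h),
      Nat.mod_lt _ hp.pos⟩
  · simp only [one_mul]
    have e2 := congrArg v (X.P2 k₀ hk₀p)
    have hx0 : 0 < v (x k₀) := lt_of_le_of_lt zero_le (hlow _ hk₀p)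
    have hD : v (4 * x k₀ ^ 3 + b₂ * x k₀ ^ 2 + 4 * a₄ * x k₀) = v (x k₀) ^ 2 := by
      have e : 4 * x k₀ ^ 3 + b₂ * x k₀ ^ 2 + 4 * a₄ * x k₀ =
          b₂ * x k₀ ^ 2 + (4 * x k₀ ^ 3 + 4 * a₄ * x k₀) := by ring
      have e1 : v (b₂ * x k₀ ^ 2) = v (x k₀) ^ 2 := by rw [map_mul, map_pow, hb₂, one_mul]
      rw [e, ← e1]
      apply Valuation.map_add_eq_of_lt_left
      rw [e1]
      refine Valuation.map_add_lt _ ?_ ?_
      · rw [map_mul, map_pow]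
        calc v 4 * v (x k₀) ^ 3 ≤ 1 * v (x k₀) ^ 3 := by gcongr
          _ = v (x k₀) ^ 3 := one_mul _
          _ < v (x k₀) ^ 2 := pow_lt_pow_right_of_lt_one₀ hx0 (hlt _ hk₀p) (by norm_num)
      · rw [map_mul, map_mul, pow_two]
        calc v 4 * v a₄ * v (x k₀) ≤ 1 * v a₄ * v (x k₀) := by gcongr
          _ = v a₄ * v (x k₀) := by rw [one_mul]
          _ < v (x k₀) * v (x k₀) := mul_lt_mul_of_pos_right (hlow _ hk₀p) hx0
    rw [map_mul, hD, map_pow] at e2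
    exact e2
  · have e1 := congrArg v (X.P1 (i * k₀) (j * k₀) (Nat.mul_lt_mul_of_pos_right hji hk₀.1)
      (hjk i (by omega) (by omega)) (hjk j hj (by omega))
      (by rw [← add_mul]; exact hjk _ (by omega) hij)
      (by rw [← Nat.sub_mul]; exact hjk _ (by omega) (by omega)))
    rw [← add_mul, ← Nat.sub_mul, map_mul, map_mul, map_pow, map_pow] at e1
    exact e1
  · rw [X.sym ((k + 1) * k₀) (k * k₀) (by
      rw [← add_mul]
      have : k + 1 + k = p := by omega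
      rw [this]
      exact Dvd.intro _ rfl)]

end Fermat.Agent.S13Lib
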