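import Fermat.Agent.S05.Final
import Fermat.Agent.S13.NoRatCore
set_option autoImplicit false
set_option linter.unusedSectionVars false

/-!
# S13, leaf C8: the Frey curve has no rational point of order `p`
-/

namespace Fermat.Agent.S13Lib

open WeierstrassCurve WeierstrassCurve.Affine WeierstrassCurve.Affine.Point
open Fermat.Agent.S05Lib

local notation "Qb" => AlgebraicClosure ℚ

local instance nr_fact_two : Fact (Nat.Prime 2) := ⟨Nat.prime_two⟩

/-! ### the `2`-adic valuation of `ℚ` -/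

theorem v2_int_lt_one {z : ℤ} (h : (2 : ℤ) ∣ z) : Rat.padicValuation 2 (z : ℚ) < 1 := by
  rw [Rat.padicValuation_cast, Int.padicValuation_lt_one_iff]
  exact_mod_cast h

theorem v2_int_eq_one {z : ℤ} (h : ¬ (2 : ℤ) ∣ z) : Rat.padicValuation 2 (z : ℚ) = 1 := by
  rw [Rat.padicValuation_cast, Int.padicValuation_eq_one_iff]
  exact_mod_cast h

theorem v2_sub_one_lt {u : ℚ} (h : Rat.padicValuation 2 u = 1) :
    Rat.padicValuation 2 (u - 1) < 1 := by
  have hden : ¬ 2 ∣ u.den := Rat.padicValuation_le_one_iff.mp h.le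
  have hden' : ¬ (2 : ℤ) ∣ (u.den : ℤ) := by exact_mod_cast hden
  have hvd := v2_int_eq_one hden'
  have hd0 : ((u.den : ℤ) : ℚ) ≠ 0 := by exact_mod_cast u.den_nz
  have e : u = (u.num : ℚ) / ((u.den : ℤ) : ℚ) := by
    conv_lhs => rw [← Rat.num_div_den u]
    simp
  have hnum : ¬ (2 : ℤ) ∣ u.num := by
    intro hn
    have h1 := v2_int_lt_one hn
    rw [e, map_div₀, hvd, div_one] at h
    exact absurd h h1.ne
  have e2 : u - 1 = ((u.num - u.den : ℤ) : ℚ) / ((u.den : ℤ) : ℚ) := by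
    conv_lhs => rw [e]
    push_cast
    field_simp
  rw [e2, map_div₀, hvd, div_one]
  apply v2_int_lt_one
  omega

theorem v2_odd (s t : ℚ) (hs : Rat.padicValuation 2 s = 1) (ht : Rat.padicValuation 2 t = 1) :
    Rat.padicValuation 2 (s - t) < 1 := by
  have e : s - t = (s - 1) - (t - 1) := by ring
  rw [e]
  exact Valuation.map_sub_lt _ (v2_sub_one_lt hs) (v2_sub_one_lt ht)

theorem v2_pow_ne {p : ℕ} (hp : p.Prime) (hp5 : 5 ≤ p) (s : ℚ) :
    Rat.padicValuation 2 s ^ p ≠ Rat.padicValuation 2 2 ^ 8 := by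
  intro h
  have h2 : Rat.padicValuation 2 (2 : ℚ) = WithZero.exp (-1 : ℤ) := by
    have := Rat.padicValuation_self 2
    simpa using this
  have hs0 : s ≠ 0 := by
    rintro rfl
    rw [_root_.map_zero, zero_pow hp.ne_zero, h2] at h
    exact (pow_ne_zero 8 WithZero.exp_ne_zero) h.symm
  have hs : Rat.padicValuation 2 s = WithZero.exp (-padicValRat 2 s) := by
    simp [Rat.padicValuation, hs0]
  rw [hs, h2, ← WithZero.exp_nsmul, ← WithZero.exp_nsmul, WithZero.exp_inj] at h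
  have h3 : (p : ℤ) ∣ 8 := ⟨padicValRat 2 s, by
    simp only [nsmul_eq_mul, Nat.cast_ofNat] at h
    linarith⟩
  have h4 : p ∣ 8 := by exact_mod_cast h3
  have h5 : p ∣ 2 := hp.dvd_of_dvd_pow (show p ∣ 2 ^ 3 by norm_num; exact h4)
  have := Nat.le_of_dvd (by norm_num) h5
  omega

/-! ### parity in a Frey package -/

theorem two_dvd_b (P : FreyPackage) : (2 : ℤ) ∣ P.b :=
  (ZMod.intCast_zmod_eq_zero_iff_dvd P.b 2).1 P.hb2

theorem not_two_dvd_a (P : FreyPackage) : ¬ (2 : ℤ) ∣ P.a := by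
  intro h
  have h1 : (2 : ℤ) ∣ gcd P.a P.b := dvd_gcd h (two_dvd_b P)
  rw [P.hgcdab] at h1
  norm_num at h1

/-! ### the theorem -/

theorem nr_gal_nsmul {W' : Affine ℚ} (σ : Qb ≃ₐ[ℚ] Qb) (k : ℕ) (Q : (W'⁄Qb).Point) :
    σ • (k • Q) = k • (σ • Q) :=
  map_nsmul (DistribSMul.toAddMonoidHom (W'⁄Qb).Point σ) k Q

theorem no_rational_torsion (P : FreyPackage) (T : (P.freyCurve⁄Qb).Point) (hT : P.p • T = 0)
    (hfix : ∀ σ : Qb ≃ₐ[ℚ] Qb, σ • T = T) : T = 0 := by
  by_contra hT0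
  have hp := P.pp
  have hp5 := P.hp5
  set p := P.p with hpdef
  set α : ℚ := (P.b : ℚ) ^ p - (P.a : ℚ) ^ p with hα
  set β : ℚ := -((P.a : ℚ) ^ p * (P.b : ℚ) ^ p) with hβ
  obtain ⟨φ, hinj, hφ⟩ := exists_transport P 0 α β (Or.inl ⟨rfl, rfl, rfl⟩)
  set T' := φ T with hT'
  have hT'0 : T' ≠ 0 := fun h0 => hT0 (hinj (by rw [← hT', h0, _root_.map_zero]))
  have hpT' : p • T' = 0 := by rw [hT', ← map_nsmul, hT, _root_.map_zero]
  have hfix' : ∀ σ : Qb ≃ₐ[ℚ] Qb, σ • T' = T' := fun σ => by rw [hT', ← hφ, hfix]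
  have hW : IsE ((EC α β)⁄Qb) := isE_EC _ _ _
  have h2 : (2 : Qb) ≠ 0 := two_ne_zero
  have hrat : ∀ k : ℕ, ∃ r : ℚ, algebraMap ℚ Qb r = xc (k • T') := by
    intro k
    have h1 : IsAlgClosure ℚ (AlgebraicClosure ℚ) := AlgebraicClosure.instIsAlgClosure ℚ
    have h2 : IsGalois ℚ (AlgebraicClosure ℚ) := inferInstance
    apply (InfiniteGalois.mem_range_algebraMap_iff_fixed (k := ℚ) _).mpr
    intro σ
    rw [← xc_smul, nr_gal_nsmul, hfix']
  choose r hr using hrat
  have hne : ∀ k, ¬ p ∣ k → k • T' ≠ 0 := fun k hk => nsmul_ne_zero_of_not_dvd hp hpT' hT'0 hk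
  have hinjQ := (algebraMap ℚ Qb).injective
  have X : XSeq p (fun k => r k / 4) (β / 16) α :=
    { per := by
        intro i j hij
        have e : ∀ i : ℕ, i • T' = (i % p) • T' := by
          intro i
          conv_lhs => rw [← Nat.mod_add_div i p, add_nsmul, mul_nsmul, hpT', nsmul_zero, add_zero]
        have : r i = r j := hinjQ (by rw [hr, hr, e i, e j, hij])
        simp only [this]
      sym := by
        intro i j hij
        have e : i • T' = -(j • T') := by
          rw [eq_neg_iff_add_eq_zero, ← add_nsmul]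
          obtain ⟨m, hm⟩ := hij
          rw [hm, mul_nsmul, hpT', nsmul_zero]
        have : r i = r j := hinjQ (by rw [hr, hr, e, xc_neg])
        simp only [this]
      P1 := by
        intro i j hji hi hj hij hij'
        have e1 : i • T' + j • T' = (i + j) • T' := (add_nsmul T' i j).symm
        have e2 : i • T' - j • T' = (i - j) • T' := by
          rw [sub_eq_iff_eq_add, ← add_nsmul, Nat.sub_add_cancel hji.le]
        have hxne : xc (i • T') ≠ xc (j • T') := by
          apply xc_ne_of_ne (hne i hi) (hne j hj)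
          · rw [e2]; exact hne _ hij'
          · rw [e1]; exact hne _ hij
        have i1 := xc_add_mul_xc_sub hW (hne i hi) (hne j hj) hxne
        rw [e1, e2, EC_a₄, ← hr, ← hr, ← hr, ← hr] at i1
        have i2 : r (i + j) * r (i - j) * (r i - r j) ^ 2 = (r i * r j - β) ^ 2 :=
          hinjQ (by simpa only [map_mul, map_sub, map_pow] using i1)
        linear_combination i2 / 256
      P2 := by
        intro i hi
        have h2i : ¬ p ∣ 2 * i := by simpa using not_dvd_two_pow_mul hp hp5 hi 1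
        have hy : yc (i • T') ≠ 0 := by
          intro hy
          have := add_self_eq_zero_of_yc_eq_zero hW hy
          rw [← two_nsmul, ← mul_nsmul'] at this
          exact hne _ h2i this
        have i1 := xc_add_self hW h2 hy
        rw [curve_eq hW, ← two_nsmul, ← mul_nsmul', EC_a₂, EC_a₄, ← hr, ← hr] at i1
        have i2 : r (2 * i) * (4 * (r i ^ 3 + α * r i ^ 2 + β * r i)) = (r i ^ 2 - β) ^ 2 :=
          hinjQ (by simpa only [map_mul, map_sub, map_pow, map_add, map_ofNat] using i1)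
        linear_combination i2 / 256 }
  -- valuations
  have hb := two_dvd_b P
  have ha := not_two_dvd_a P
  have hp0 : p ≠ 0 := hp.ne_zero
  have pr2 : Prime (2 : ℤ) := Int.prime_two
  have h4 : Rat.padicValuation 2 (4 : ℚ) < 1 := by
    have := v2_int_lt_one (z := 4) (by norm_num)
    simpa using this
  have hvα : Rat.padicValuation 2 α = 1 := by
    have e : α = ((P.b ^ p - P.a ^ p : ℤ) : ℚ) := by rw [hα]; push_cast; ring
    rw [e]
    apply v2_int_eq_one
    intro hd
    apply ha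
    apply pr2.dvd_of_dvd_pow (n := p)
    have := dvd_sub (dvd_pow hb hp0) hd
    simpa using this
  obtain ⟨b', hb'⟩ := hb
  obtain ⟨m, hm⟩ : ∃ m, p = m + 5 := ⟨p - 5, by omega⟩
  have hvβ : Rat.padicValuation 2 (β / 16) < 1 := by
    have e : β / 16 = ((2 * (-(P.a ^ p * (2 ^ m * b' ^ p))) : ℤ) : ℚ) := by
      rw [hβ, hb']
      push_cast
      rw [mul_pow]
      have : (2 : ℚ) ^ p = 32 * 2 ^ m := by rw [hm, pow_add]; ring
      rw [this]
      ring
    rw [e]
    exact v2_int_lt_one (Dvd.intro _ rfl)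
  have hβ0 : β / 16 ≠ 0 := by
    have ha0 : (P.a : ℚ) ≠ 0 := by exact_mod_cast P.ha0
    have hb0 : (P.b : ℚ) ≠ 0 := by exact_mod_cast P.hb0
    rw [hβ]
    have : (P.a : ℚ) ^ p * (P.b : ℚ) ^ p ≠ 0 := by positivity
    simpa using this
  obtain ⟨t, ht⟩ := X.exists_pow_eq (v := Rat.padicValuation 2) hp hp5 h4 hvα hvβ hβ0 v2_odd
  -- `v t ^ p = v (β / 16) ^ 2`
  have ht0 : t ≠ 0 := by
    rintro rfl
    rw [_root_.map_zero, zero_pow hp0] at ht
    exact (pow_ne_zero 2 ((Valuation.ne_zero_iff _).mpr hβ0)) ht.symm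
  apply v2_pow_ne hp hp5 (((P.a : ℚ) * (P.b : ℚ)) ^ 2 / t)
  have hvt0 : Rat.padicValuation 2 t ≠ 0 := (Valuation.ne_zero_iff _).mpr ht0
  have hv2 : Rat.padicValuation 2 (2 : ℚ) ≠ 0 := (Valuation.ne_zero_iff _).mpr two_ne_zero
  have e16 : Rat.padicValuation 2 (16 : ℚ) = Rat.padicValuation 2 2 ^ 4 := by
    rw [← map_pow]; norm_num
  have eβ : Rat.padicValuation 2 β = Rat.padicValuation 2 ((P.a : ℚ) * (P.b : ℚ)) ^ p := by
    rw [hβ, Valuation.map_neg, ← mul_pow, map_pow]
  rw [map_div₀, e16, eβ] at ht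
  rw [map_div₀, map_pow, div_pow, ht]
  set A := Rat.padicValuation 2 ((P.a : ℚ) * (P.b : ℚ)) with hA
  have hA0 : A ≠ 0 := by
    rw [hA]
    apply (Valuation.ne_zero_iff _).mpr
    have ha0 : (P.a : ℚ) ≠ 0 := by exact_mod_cast P.ha0
    have hb0 : (P.b : ℚ) ≠ 0 := by exact_mod_cast P.hb0
    positivity
  field_simp
  rw [← pow_mul, ← pow_mul, mul_comm]

end Fermat.Agent.S13Lib
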