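import Fermat.Agent.S13.TwoGal
import Fermat.Agent.S05.Final
set_option autoImplicit false
set_option linter.unusedSectionVars false

/-!
# S13: the Frey curve at `2`
-/

namespace Fermat.Agent.S13Lib

open WeierstrassCurve WeierstrassCurve.Affine WeierstrassCurve.Affine.Point
open Fermat.Agent.S05Lib

local notation "Qb" => AlgebraicClosure ℚ

theorem frey_two_dvd_b (P : FreyPackage) : (2 : ℤ) ∣ P.b :=
  (ZMod.intCast_zmod_eq_zero_iff_dvd P.b 2).1 P.hb2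

theorem frey_a₂_int (P : FreyPackage) :
    ∃ n : ℤ, ((P.b : ℚ) ^ P.p - 1 - (P.a : ℚ) ^ P.p) / 4 = (n : ℚ) := by
  have h4 : (4 : ℤ) ∣ P.b ^ P.p - 1 - P.a ^ P.p := by
    have hb : (4 : ℤ) ∣ P.b ^ P.p := by
      obtain ⟨c, hc⟩ := frey_two_dvd_b P
      obtain ⟨k, hk⟩ : ∃ k, P.p = k + 2 := ⟨P.p - 2, by have := P.hp5; omega⟩
      rw [hc, hk, mul_pow, pow_add]
      exact Dvd.dvd.mul_right (Dvd.dvd.mul_left (by norm_num) _) _
    have ha : (4 : ℤ) ∣ 1 + P.a ^ P.p := by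
      apply (ZMod.intCast_zmod_eq_zero_iff_dvd _ 4).1
      push_cast
      rw [P.ha4]
      obtain ⟨k, hk⟩ := P.hp_odd
      rw [hk, pow_succ, pow_mul]
      have h9 : (3 : ZMod 4) ^ 2 = 1 := by decide
      rw [h9, one_pow]
      decide
    have : P.b ^ P.p - 1 - P.a ^ P.p = P.b ^ P.p - (1 + P.a ^ P.p) := by ring
    rw [this]
    exact dvd_sub hb ha
  obtain ⟨n, hn⟩ := h4
  refine ⟨n, ?_⟩
  have : ((P.b : ℚ) ^ P.p - 1 - (P.a : ℚ) ^ P.p) = 4 * (n : ℚ) := by exact_mod_cast hn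
  rw [this]
  ring

theorem frey_a₄_int (P : FreyPackage) :
    ∃ m : ℤ, -((P.a : ℚ) ^ P.p) * (P.b : ℚ) ^ P.p / 16 = ((2 * m : ℤ) : ℚ) := by
  obtain ⟨c, hc⟩ := frey_two_dvd_b P
  obtain ⟨k, hk⟩ : ∃ k, P.p = k + 5 := ⟨P.p - 5, by have := P.hp5; omega⟩
  refine ⟨-(P.a ^ P.p) * (2 ^ k * c ^ P.p), ?_⟩
  have hb : (P.b : ℚ) ^ P.p = 32 * (2 ^ k * (c : ℚ) ^ P.p) := by
    rw [hc]
    push_cast
    rw [mul_pow]
    nth_rewrite 1 [hk]
    rw [pow_add]
    ring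
  rw [hb]
  push_cast
  ring

theorem two_val_two (A : ValuationSubring Qb) (hA : A.LiesOverPrime 2) :
    A.valuation (2 : Qb) < 1 := by
  have := (ValuationSubring.mem_nonunits_iff (A := A)).mp hA
  simpa using this

theorem frey_hypN (P : FreyPackage) (A : ValuationSubring Qb) (hA : A.LiesOverPrime 2) :
    HypN A.valuation (P.freyCurve⁄Qb) where
  a₁ := by simp [FreyPackage.freyCurve]
  a₃ := by simp [FreyPackage.freyCurve]
  a₆ := by simp [FreyPackage.freyCurve]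
  ha₂ := by
    obtain ⟨n, hn⟩ := frey_a₂_int P
    have : (P.freyCurve⁄Qb).a₂ = (n : Qb) := by
      have h1 : (P.freyCurve⁄Qb).a₂ = algebraMap ℚ Qb P.freyCurve.a₂ := by simp
      rw [h1]
      have h2 : P.freyCurve.a₂ = (n : ℚ) := hn
      rw [h2]
      simp
    rw [this]
    exact valuation_intCast_le_one A n
  ha₄ := by
    obtain ⟨m, hm⟩ := frey_a₄_int P
    have : (P.freyCurve⁄Qb).a₄ = ((2 * m : ℤ) : Qb) := by
      have h1 : (P.freyCurve⁄Qb).a₄ = algebraMap ℚ Qb P.freyCurve.a₄ := by simp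
      rw [h1]
      have h2 : P.freyCurve.a₄ = ((2 * m : ℤ) : ℚ) := hm
      rw [h2]
      simp
    rw [this]
    exact valuation_intCast_lt_one A hA _ (by exact_mod_cast Dvd.intro m rfl)
  ha₄0 := by
    have h1 : (P.freyCurve⁄Qb).a₄ = algebraMap ℚ Qb P.freyCurve.a₄ := by simp
    rw [h1, Ne, map_eq_zero_iff _ (algebraMap ℚ Qb).injective]
    have ha : (P.a : ℚ) ≠ 0 := by exact_mod_cast P.ha0
    have hb : (P.b : ℚ) ≠ 0 := by exact_mod_cast P.hb0
    simp only [FreyPackage.freyCurve]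
    exact div_ne_zero (mul_ne_zero (neg_ne_zero.mpr (pow_ne_zero _ ha)) (pow_ne_zero _ hb))
      (by norm_num)
  h2 := two_val_two A hA

theorem two_adic_unipotent (P : FreyPackage) (A : ValuationSubring Qb) (hA : A.LiesOverPrime 2)
    (σ : Qb ≃ₐ[ℚ] Qb) (hσ : σ ∈ A.inertiaSubgroupIn ℚ) (T : (P.freyCurve⁄Qb).Point)
    (hT : P.p • T = 0) : σ • (σ • T - T) = σ • T - T :=
  unipotentN (frey_hypN P A hA) P.pp (by have := P.hp5; omega) (galData A σ hσ) hT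

end Fermat.Agent.S13Lib
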