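import Fermat.Agent.S13.AtP
import Fermat.Agent.S13.TwoFrey
import Fermat.Agent.S13.NoRat
import Fermat.Agent.Lib.InertiaGlue
import Fermat.Prelude.Def_FLTPrelim_CofixedLine
set_option autoImplicit false
set_option linter.unusedSectionVars false

/-!
# S13, leaf C10: assembly
-/

namespace Fermat.Agent.S13Lib

open WeierstrassCurve WeierstrassCurve.Affine WeierstrassCurve.Affine.Point
open Fermat.Agent.S05Lib

local notation "Qb" => AlgebraicClosure ℚ

section linalg

variable {k V : Type*} [Field k] [AddCommGroup V] [Module k V]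

/-- a square-zero endomorphism of a plane preserving a line kills the line and maps into it. -/
theorem sq_zero_line (N : Submodule k V) (hV : Module.finrank k V = 2)
    (hN : Module.finrank k N = 1) (u : V →ₗ[k] V) (huN : ∀ x ∈ N, u x ∈ N)
    (hu : ∀ x, u (u x) = 0) : (∀ x ∈ N, u x = 0) ∧ ∀ x, u x ∈ N := by
  have : Module.Finite k V := Module.finite_of_finrank_pos (by omega)
  have h1 : ∀ x ∈ N, u x = 0 := by
    obtain ⟨R, hR0, hR⟩ := finrank_eq_one_iff'.mp hN
    obtain ⟨a, ha⟩ := hR ⟨u R, huN R R.2⟩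
    have ha' : a • (R : V) = u R := congrArg Subtype.val ha
    have h2 : (a * a) • (R : V) = 0 := by
      rw [mul_smul, ha', ← map_smul, ha', hu]
    have hR0' : (R : V) ≠ 0 := fun h => hR0 (Subtype.ext h)
    have ha0 : a = 0 := by
      rcases smul_eq_zero.mp h2 with h | h
      · exact mul_self_eq_zero.mp h
      · exact absurd h hR0'
    have huR : u R = 0 := by rw [← ha', ha0, zero_smul]
    intro x hx
    obtain ⟨c, hc⟩ := hR ⟨x, hx⟩
    have hc' : c • (R : V) = x := congrArg Subtype.val hc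
    rw [← hc', map_smul, huR, smul_zero]
  refine ⟨h1, fun x => ?_⟩
  by_contra hx
  have hlt : N < N ⊔ Submodule.span k {u x} := by
    refine lt_of_le_of_ne le_sup_left fun h => hx ?_
    rw [h]
    exact Submodule.mem_sup_right (Submodule.mem_span_singleton_self _)
  have h3 := Submodule.finrank_lt_finrank_of_lt hlt
  have h4 : N ⊔ Submodule.span k {u x} = ⊤ := by
    apply Submodule.eq_top_of_finrank_eq
    have := Submodule.finrank_le (N ⊔ Submodule.span k {u x})
    omega
  have h5 : x ∈ N ⊔ Submodule.span k {u x} := by rw [h4]; trivial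
  obtain ⟨n, hn, y, hy, hxy⟩ := Submodule.mem_sup.mp h5
  obtain ⟨c, rfl⟩ := Submodule.mem_span_singleton.mp hy
  apply hx
  have : u x = 0 := by
    conv_lhs => rw [← hxy]
    rw [map_add, map_smul, hu, smul_zero, h1 n hn, add_zero]
  rw [this]
  exact N.zero_mem

end linalg

section main

theorem smul_eq_self_of_fix {W' : Affine ℚ} (σ : Qb ≃ₐ[ℚ] Qb) (T : (W'⁄Qb).Point)
    (hx : σ (xc T) = xc T) (hy : σ (yc T) = yc T) : σ • T = T := by
  cases T with
  | zero => rfl
  | some x y h =>
    simp only [xc_some, yc_some] at hx hy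
    rw [algEquiv_smul_def, Point.map_some]
    apply some_congr
    · exact hx
    · exact hy

variable (P : FreyPackage)

/-- the `p`-torsion module of the Frey curve. -/
abbrev TV : Type := Submodule.torsionBy ℤ (P.freyCurve⁄Qb).Point P.p

theorem nsmul_coe_TV (x : TV P) : P.p • (x : (P.freyCurve⁄Qb).Point) = 0 := by
  have := x.2
  rw [Submodule.mem_torsionBy_iff] at this
  rw [← Nat.cast_smul_eq_nsmul ℤ]
  exact this

theorem exists_field_fixing [Finite (TV P)] :
    ∃ L : IntermediateField ℚ Qb, FiniteDimensional ℚ L ∧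
      ∀ σ ∈ L.fixingSubgroup, ∀ x : TV P, σ • x = x := by
  let S : Set Qb := Set.range (fun x : TV P => xc x.1) ∪ Set.range (fun x : TV P => yc x.1)
  have hS : S.Finite := (Set.finite_range _).union (Set.finite_range _)
  have : Finite S := hS.to_subtype
  refine ⟨IntermediateField.adjoin ℚ S, IntermediateField.finiteDimensional_adjoin
    (fun x _ => (Algebra.IsAlgebraic.isAlgebraic x).isIntegral), fun σ hσ x => ?_⟩
  rw [IntermediateField.mem_fixingSubgroup_iff] at hσ
  apply Subtype.ext
  exact smul_eq_self_of_fix σ x.1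
    (hσ _ (IntermediateField.subset_adjoin ℚ S (Or.inl ⟨x, rfl⟩)))
    (hσ _ (IntermediateField.subset_adjoin ℚ S (Or.inr ⟨x, rfl⟩)))

variable {P}

/-- the subgroup fixing `N` pointwise. -/
def fixN (N : Submodule (ZMod P.p) (TV P)) (_hN : IsGaloisStable ℚ N) :
    Subgroup (Qb ≃ₐ[ℚ] Qb) where
  carrier := {σ | ∀ x ∈ N, σ • x = x}
  one_mem' := fun x _ => one_smul _ x
  mul_mem' := by
    intro σ τ hσ hτ x hx
    rw [mul_smul, hτ x hx, hσ x hx]
  inv_mem' := by
    intro σ hσ x hx
    rw [inv_smul_eq_iff, hσ x hx]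

theorem fixN_normal (N : Submodule (ZMod P.p) (TV P)) (hN : IsGaloisStable ℚ N) :
    (fixN N hN).Normal := by
  constructor
  intro σ hσ τ x hx
  have h1 : τ⁻¹ • x ∈ N := hN _ x hx
  rw [mul_smul, mul_smul, hσ _ h1, smul_inv_smul]

/-- the subgroup acting trivially on the quotient by `N`. -/
def cofixN (N : Submodule (ZMod P.p) (TV P)) (hN : IsGaloisStable ℚ N) :
    Subgroup (Qb ≃ₐ[ℚ] Qb) where
  carrier := {σ | ∀ x : TV P, σ • x - x ∈ N}
  one_mem' := fun x => by rw [one_smul, sub_self]; exact N.zero_mem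
  mul_mem' := by
    intro σ τ hσ hτ x
    have e : (σ * τ) • x - x = σ • (τ • x - x) + (σ • x - x) := by
      rw [mul_smul, smul_sub]; abel
    rw [e]
    exact N.add_mem (hN _ _ (hτ x)) (hσ x)
  inv_mem' := by
    intro σ hσ x
    have e : σ⁻¹ • x - x = -(σ⁻¹ • (σ • x - x)) := by
      rw [smul_sub, inv_smul_smul]; abel
    rw [e]
    exact N.neg_mem (hN _ _ (hσ x))

theorem cofixN_normal (N : Submodule (ZMod P.p) (TV P)) (hN : IsGaloisStable ℚ N) :
    (cofixN N hN).Normal := by
  constructor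
  intro σ hσ τ x
  have e : (τ * σ * τ⁻¹) • x - x = τ • (σ • (τ⁻¹ • x) - τ⁻¹ • x) := by
    rw [mul_smul, mul_smul, smul_sub, smul_inv_smul]
  rw [e]
  exact hN _ _ (hσ _)

/-- the endomorphism `σ - 1`. -/
noncomputable def subOne (σ : Qb ≃ₐ[ℚ] Qb) : TV P →ₗ[ZMod P.p] TV P :=
  (DistribSMul.toAddMonoidHom (TV P) σ - AddMonoidHom.id (TV P)).toZModLinearMap P.p

theorem subOne_apply (σ : Qb ≃ₐ[ℚ] Qb) (x : TV P) : subOne σ x = σ • x - x := rfl

theorem final_aux (hfin : Finite (TV P)) (hcard : Nat.card (TV P) ≤ P.p ^ 2)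
    (N : Submodule (ZMod P.p) (TV P)) (hN : IsGaloisStable ℚ N) (hbot : N ≠ ⊥) (htop : N ≠ ⊤) :
    ∀ σ : Qb ≃ₐ[ℚ] Qb, ∀ x : TV P, σ • x - x ∈ N := by
  have : Fact P.p.Prime := ⟨P.pp⟩
  have hp5 := P.hp5
  have hMfin : Module.Finite (ZMod P.p) (TV P) := Module.Finite.of_finite
  -- dimensions
  have hc : Nat.card (TV P) = P.p ^ Module.finrank (ZMod P.p) (TV P) := by
    rw [Module.natCard_eq_pow_finrank (K := ZMod P.p), Nat.card_zmod]
  have hd2 : Module.finrank (ZMod P.p) (TV P) ≤ 2 := by
    rw [hc] at hcard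
    exact (Nat.pow_le_pow_iff_right P.pp.one_lt).mp hcard
  have hN1 : 0 < Module.finrank (ZMod P.p) N := by
    rw [Module.finrank_pos_iff_exists_ne_zero]
    obtain ⟨x, hx, hx0⟩ := (Submodule.ne_bot_iff N).mp hbot
    exact ⟨⟨x, hx⟩, fun h => hx0 (congrArg Subtype.val h)⟩
  have hN2 : Module.finrank (ZMod P.p) N < Module.finrank (ZMod P.p) (TV P) :=
    Submodule.finrank_lt htop
  have hV : Module.finrank (ZMod P.p) (TV P) = 2 := by omega
  have hNr : Module.finrank (ZMod P.p) N = 1 := by omega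
  obtain ⟨R, hR0, hRspan⟩ := finrank_eq_one_iff'.mp hNr
  have hR0' : ((R : TV P) : (P.freyCurve⁄Qb).Point) ≠ 0 := by
    intro h
    apply hR0
    apply Subtype.ext
    apply Subtype.ext
    exact h
  -- membership in `N` in terms of multiples of `R`
  have hmemN : ∀ x : TV P, x ∈ N ↔
      (x : (P.freyCurve⁄Qb).Point) ∈ AddSubgroup.zmultiples ((R : TV P) : (P.freyCurve⁄Qb).Point) := by
    intro x
    constructor
    · intro hx
      obtain ⟨c, hc⟩ := hRspan ⟨x, hx⟩
      have hc' : c • (R : TV P) = x := congrArg Subtype.val hc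
      have h1 : c.val • (R : TV P) = x := by
        rw [← Nat.cast_smul_eq_nsmul (ZMod P.p), ZMod.natCast_zmod_val, hc']
      have h2 : c.val • ((R : TV P) : (P.freyCurve⁄Qb).Point) = x := by
        rw [← h1]; rfl
      refine ⟨(c.val : ℤ), ?_⟩
      show (c.val : ℤ) • ((R : TV P) : (P.freyCurve⁄Qb).Point) = x
      rw [natCast_zsmul, h2]
    · rintro ⟨n, hn⟩
      have : x = n • (R : TV P) := by
        apply Subtype.ext
        rw [← hn]
        rfl
      rw [this]
      exact zsmul_mem R.2 n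
  -- inertia outside `p`
  have hout : ∀ q : ℕ, q.Prime → q ≠ P.p → ∀ A : ValuationSubring Qb, A.LiesOverPrime q →
      ∀ σ ∈ A.inertiaSubgroupIn ℚ, (∀ x ∈ N, σ • x = x) ∧ ∀ x : TV P, σ • x - x ∈ N := by
    intro q hq hqp A hA σ hσ
    by_cases hq2 : q = 2
    · subst hq2
      have := sq_zero_line N hV hNr (subOne σ)
        (fun x hx => by rw [subOne_apply]; exact N.sub_mem (hN σ x hx) hx)
        (fun x => by
          rw [subOne_apply, subOne_apply, sub_eq_zero]
          apply Subtype.ext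
          exact two_adic_unipotent P A hA σ hσ x.1 (nsmul_coe_TV P x))
      exact ⟨fun x hx => sub_eq_zero.mp (this.1 x hx), this.2⟩
    · have := Fermat.Agent.S05Lib.main P hq hq2 hqp A hA σ hσ
      exact ⟨fun x _ => this x, fun x => by
        have e : σ • x = x := this x
        rw [e, sub_self]; exact N.zero_mem⟩
  obtain ⟨L, hLfin, hL⟩ := exists_field_fixing P
  rcases at_p_dichotomy P (R : TV P).1 hR0' (nsmul_coe_TV P R)
    (fun σ => (hmemN (σ • (R : TV P))).mp (hN σ R R.2)) with h | h
  · -- impossible: `R` would be rational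
    exfalso
    have htop' : fixN N hN = ⊤ := by
      apply Fermat.Agent.Lib.eq_top_of_inertia_le _ (fixN_normal N hN)
        ⟨L, hLfin, fun σ hσ x _ => hL σ hσ x⟩
      intro q hq A hA σ hσ
      by_cases hqp : q = P.p
      · subst hqp
        intro x hx
        obtain ⟨c, hc⟩ := hRspan ⟨x, hx⟩
        have hc' : c • (R : TV P) = x := congrArg Subtype.val hc
        have hσR : σ • (R : TV P) = R := Subtype.ext (h A hA σ hσ)
        have hlin := (subOne σ).map_smul c (R : TV P)
        rw [subOne_apply, subOne_apply, hσR, sub_self, smul_zero, hc'] at hlin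
        exact sub_eq_zero.mp hlin
      · exact (hout q hq hqp A hA σ hσ).1
    apply hR0'
    apply no_rational_torsion P _ (nsmul_coe_TV P R)
    intro σ
    have : σ ∈ fixN N hN := by rw [htop']; trivial
    exact congrArg Subtype.val (this R R.2)
  · have htop' : cofixN N hN = ⊤ := by
      apply Fermat.Agent.Lib.eq_top_of_inertia_le _ (cofixN_normal N hN)
        ⟨L, hLfin, fun σ hσ x => by rw [hL σ hσ x, sub_self]; exact N.zero_mem⟩
      intro q hq A hA σ hσ
      by_cases hqp : q = P.p
      · subst hqp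
        intro x
        rw [hmemN]
        exact h A hA σ hσ x.1 (nsmul_coe_TV P x)
      · exact (hout q hq hqp A hA σ hσ).2
    intro σ x
    have : σ ∈ cofixN N hN := by rw [htop']; trivial
    exact this x

end main

end Fermat.Agent.S13Lib
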