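import Fermat.Agent.S13.AtP2
set_option autoImplicit false
set_option linter.unusedSectionVars false

/-!
# S13, leaves C4 + C5 + C6: the dichotomy at `p` for the Frey curve
-/

namespace Fermat.Agent.S13Lib

open WeierstrassCurve WeierstrassCurve.Affine WeierstrassCurve.Affine.Point
open Fermat.Agent.S05Lib

local notation "Qb" => AlgebraicClosure ℚ

theorem at_p_dichotomy (P : FreyPackage) (R : (P.freyCurve⁄Qb).Point) (hR0 : R ≠ 0)
    (hR : P.p • R = 0) (hst : ∀ σ : Qb ≃ₐ[ℚ] Qb, σ • R ∈ AddSubgroup.zmultiples R) :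
    (∀ A : ValuationSubring Qb, A.LiesOverPrime P.p → ∀ σ ∈ A.inertiaSubgroupIn ℚ, σ • R = R) ∨
    (∀ A : ValuationSubring Qb, A.LiesOverPrime P.p → ∀ σ ∈ A.inertiaSubgroupIn ℚ,
      ∀ T : (P.freyCurve⁄Qb).Point, P.p • T = 0 → σ • T - T ∈ AddSubgroup.zmultiples R) := by
  have hp2 : P.p ≠ 2 := by have := P.hp5; omega
  have h2 : ∀ A : ValuationSubring Qb, A.LiesOverPrime P.p → A.valuation (2 : Qb) = 1 := by
    intro A hA
    have := valuation_natCast_eq_one A P.pp hA Nat.prime_two hp2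
    simpa using this
  have hfix : ∀ (σ : Qb ≃ₐ[ℚ] Qb) (r : ℚ),
      (σ : Qb →+* Qb) (algebraMap ℚ Qb r) = algebraMap ℚ Qb r := fun σ r => σ.commutes r
  -- reduce to the model curve
  have key : ∀ (e α β : ℚ),
      ((e = 0 ∧ α = (P.b : ℚ) ^ P.p - (P.a : ℚ) ^ P.p ∧
          β = -((P.a : ℚ) ^ P.p * (P.b : ℚ) ^ P.p)) ∨
        (e = (P.a : ℚ) ^ P.p ∧ α = 2 * (P.a : ℚ) ^ P.p + (P.b : ℚ) ^ P.p ∧
          β = (P.a : ℚ) ^ P.p * ((P.a : ℚ) ^ P.p + (P.b : ℚ) ^ P.p))) →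
      ∀ (hH : ∀ A : ValuationSubring Qb, A.LiesOverPrime P.p →
        Hyp A.valuation ((EC α β)⁄Qb)),
      (∀ (A : ValuationSubring Qb) (hA : A.LiesOverPrime P.p), ∀ σ ∈ A.inertiaSubgroupIn ℚ,
        ∀ T : ((EC α β)⁄Qb).Point, P.p • T = 0 → σ • T - T ∈ E1 (hH A hA)) →
      (∀ A : ValuationSubring Qb, A.LiesOverPrime P.p → ∀ σ ∈ A.inertiaSubgroupIn ℚ,
        σ • R = R) ∨
      (∀ A : ValuationSubring Qb, A.LiesOverPrime P.p → ∀ σ ∈ A.inertiaSubgroupIn ℚ,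
        ∀ T : (P.freyCurve⁄Qb).Point, P.p • T = 0 → σ • T - T ∈ AddSubgroup.zmultiples R) := by
    intro e α β h hH hC5
    have hα : ∃ a : ℤ, α = a := by
      rcases h with ⟨-, rfl, -⟩ | ⟨-, rfl, -⟩
      · exact ⟨P.b ^ P.p - P.a ^ P.p, by push_cast; ring⟩
      · exact ⟨2 * P.a ^ P.p + P.b ^ P.p, by push_cast; ring⟩
    have hβ : ∃ b : ℤ, β = b := by
      rcases h with ⟨-, -, rfl⟩ | ⟨-, -, rfl⟩
      · exact ⟨-(P.a ^ P.p * P.b ^ P.p), by push_cast; ring⟩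
      · exact ⟨P.a ^ P.p * (P.a ^ P.p + P.b ^ P.p), by push_cast; ring⟩
    obtain ⟨φ, hinj, hφ⟩ := exists_transport P e α β h
    have hm := model_dichotomy hα hβ P.pp P.hp5 hH hC5 (φ R)
      (fun h0 => hR0 (hinj (by rw [h0, _root_.map_zero])))
      (by rw [← map_nsmul, hR, _root_.map_zero])
      (by
        intro σ
        obtain ⟨j, hj⟩ := AddSubgroup.mem_zmultiples_iff.mp (hst σ)
        rw [← hφ, ← hj, map_zsmul]
        exact AddSubgroup.zsmul_mem _ (AddSubgroup.mem_zmultiples _) j)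
    rcases hm with h1 | h1
    · left
      intro A hA σ hσ
      apply hinj
      rw [hφ]
      exact h1 A hA σ hσ
    · right
      intro A hA σ hσ T hT
      have := h1 A hA σ hσ (φ T) (by rw [← map_nsmul, hT, _root_.map_zero])
      obtain ⟨j, hj⟩ := AddSubgroup.mem_zmultiples_iff.mp this
      refine AddSubgroup.mem_zmultiples_iff.mpr ⟨j, hinj ?_⟩
      rw [map_zsmul, hj, map_sub, hφ]
  by_cases hab : (P.p : ℤ) ∣ P.a * P.b
  · refine key 0 _ _ (Or.inl ⟨rfl, rfl, rfl⟩) (fun A hA =>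
      { toIsE := isE_EC _ _ _
        ha₂ := by rw [EC_a₂]; exact (case_ab P A P.pp hA hab).1.le
        ha₄ := by rw [EC_a₄]; exact (case_ab P A P.pp hA hab).2.1.le
        h2 := h2 A hA }) fun A hA σ hσ T hT => ?_
    obtain ⟨c1, c2, c3, c4⟩ := case_ab P A P.pp hA hab
    exact sub_mem_E1_of_mult _ (by rw [EC_a₂]; exact c1) (by rw [EC_a₄]; exact c2)
      (by rw [EC_a₄]; exact c3) P.pp P.hp5 (galData A σ hσ) (hfix σ _)
      (by rw [EC_a₄]; exact c4) hT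
  by_cases hc : (P.p : ℤ) ∣ P.c
  · refine key _ _ _ (Or.inr ⟨rfl, rfl, rfl⟩) (fun A hA =>
      { toIsE := isE_EC _ _ _
        ha₂ := by rw [EC_a₂]; exact (case_c P A P.pp hA hc).1.le
        ha₄ := by rw [EC_a₄]; exact (case_c P A P.pp hA hc).2.1.le
        h2 := h2 A hA }) fun A hA σ hσ T hT => ?_
    obtain ⟨c1, c2, c3, c4⟩ := case_c P A P.pp hA hc
    exact sub_mem_E1_of_mult _ (by rw [EC_a₂]; exact c1) (by rw [EC_a₄]; exact c2)
      (by rw [EC_a₄]; exact c3) P.pp P.hp5 (galData A σ hσ) (hfix σ _)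
      (by rw [EC_a₄]; exact c4) hT
  · refine key 0 _ _ (Or.inl ⟨rfl, rfl, rfl⟩) (fun A hA =>
      { toIsE := isE_EC _ _ _
        ha₂ := by rw [EC_a₂]; exact (case_good P A P.pp hA hab hc).1
        ha₄ := by rw [EC_a₄]; exact (case_good P A P.pp hA hab hc).2.1.le
        h2 := h2 A hA }) fun A hA σ hσ T _ => ?_
    obtain ⟨c1, c2, c3⟩ := case_good P A P.pp hA hab hc
    exact sub_mem_E1_of_good _ (by rw [EC_a₄]; exact c2) (by rw [EC_a₂, EC_a₄]; exact c3)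
      (galData A σ hσ) T

end Fermat.Agent.S13Lib
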