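import Fermat.Agent.S05.Mult
set_option autoImplicit false
set_option linter.unusedSectionVars false

/-!
# S13, leaf C5: inertia moves torsion points by elements of the kernel of reduction

`E1 = {O} ∪ {1 < v x}`.  These are the proofs of `S05/L3.lean`, `S05/Mult.lean`, without the
hypothesis that `p` is a unit.
-/

namespace Fermat.Agent.S13Lib

open WeierstrassCurve WeierstrassCurve.Affine WeierstrassCurve.Affine.Point
open Fermat.Agent.S05Lib

section E1def

variable {F Γ₀ : Type*} [Field F] [DecidableEq F] [LinearOrderedCommGroupWithZero Γ₀]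
  {v : Valuation F Γ₀} {W : WeierstrassCurve.Affine F}

theorem a₄_lt_mul_self (H : Hyp v W) {γ : Γ₀} (hγ : 1 < γ) : v W.a₄ < γ * γ :=
  lt_of_le_of_lt H.ha₄ (by
    calc (1 : Γ₀) = 1 * 1 := (one_mul 1).symm
      _ < γ * γ := mul_lt_mul'' hγ hγ zero_le zero_le)

/-- the kernel of reduction `{O} ∪ {1 < v x}`. -/
def E1 (H : Hyp v W) : AddSubgroup W.Point where
  carrier := {P | P = 0 ∨ 1 < v (xc P)}
  zero_mem' := Or.inl rfl
  neg_mem' := by
    rintro P (h | h)
    · exact Or.inl (by rw [h, _root_.neg_zero])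
    · exact Or.inr (by rwa [xc_neg])
  add_mem' := by
    rintro P Q hP hQ
    by_cases hP0 : P = 0
    · rw [hP0, zero_add]; exact hQ
    by_cases hQ0 : Q = 0
    · rw [hQ0, add_zero]; exact hP
    have hP' := hP.resolve_left hP0
    have hQ' := hQ.resolve_left hQ0
    have hγ : 1 < min (v (xc P)) (v (xc Q)) := lt_min hP' hQ'
    have h1 : P ∈ Ege H _ hγ.le (a₄_lt_mul_self H hγ) := Or.inr (min_le_left _ _)
    have h2 : Q ∈ Ege H _ hγ.le (a₄_lt_mul_self H hγ) := Or.inr (min_le_right _ _)
    rcases AddSubgroup.add_mem _ h1 h2 with h | h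
    · exact Or.inl h
    · exact Or.inr (hγ.trans_le h)

theorem mem_E1 (H : Hyp v W) {P : W.Point} : P ∈ E1 H ↔ P = 0 ∨ 1 < v (xc P) := Iff.rfl

end E1def

variable {F : Type*} [Field F] [DecidableEq F] {W : WeierstrassCurve.Affine F}
  {A : ValuationSubring F}

theorem s_mem_E1 (H : Hyp A.valuation W) {σ : F →+* F} {s : W.Point →+ W.Point}
    (G : GalData A W σ s) {T : W.Point} (hT : T ∈ E1 H) : s T ∈ E1 H := by
  rcases hT with h | h
  · exact Or.inl (by rw [h, _root_.map_zero])
  · exact Or.inr (by rw [G.xc_s, G.v_eq]; exact h)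

theorem sub_mem_E1_of_integral (H : Hyp A.valuation W) {σ : F →+* F} {s : W.Point →+ W.Point}
    (G : GalData A W σ s) {T : W.Point} (hx : A.valuation (xc T) ≤ 1)
    (hns : A.valuation (yc T) < 1 → A.valuation (xc T ^ 2 - W.a₄) = 1) : s T - T ∈ E1 H := by
  by_cases hT0 : T = 0
  · rw [hT0, _root_.map_zero, sub_zero]; exact AddSubgroup.zero_mem _
  by_contra hmem
  rw [mem_E1, not_or, not_lt] at hmem
  obtain ⟨hR0, hRv⟩ := hmem
  have hne : s T ≠ T := fun h => hR0 (sub_eq_zero.mpr h)
  have hsx : xc (s T) = σ (xc T) := G.xc_s T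
  have hsy : yc (s T) = σ (yc T) := G.yc_s T
  have hy1 : A.valuation (yc T) ≤ 1 := v_yc_le_one H hx
  have hdx : A.valuation (σ (xc T) - xc T) < 1 := G.v_sub _ hx
  have hdy : A.valuation (σ (yc T) - yc T) < 1 := G.v_sub _ hy1
  have hsT0 : s T ≠ 0 := G.s_ne T hT0
  have hcurve := curve_eq H.toIsE T
  set x := xc T with hxdef
  set y := yc T with hydef
  by_cases hxx : σ x = x
  · rcases eq_or_eq_neg_of_xc_eq hsT0 hT0 (by rw [hsx, hxx]) with h | h
    · exact hne h
    · have h1 : σ y = -y := by rw [← hsy, h, yc_neg H.toIsE]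
      have h2 : A.valuation y < 1 := by
        have : σ y - y = -(2 * y) := by rw [h1]; ring
        rw [this, Valuation.map_neg, map_mul, H.h2, one_mul] at hdy
        exact hdy
      have hRe : s T - T = -(T + T) := by rw [h]; abel
      rw [hRe, xc_neg] at hRv
      rw [hRe, neg_eq_zero] at hR0
      by_cases hy0 : y = 0
      · exact hR0 (add_self_eq_zero_of_yc_eq_zero H.toIsE hy0)
      · have i2 := congrArg A.valuation (xc_add_self H.toIsE H.two_ne_zero hy0)
        rw [map_mul, map_mul, H.v_four, one_mul, map_pow, map_pow, hns h2, one_pow] at i2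
        have h6 : A.valuation (xc (T + T)) * A.valuation y ^ 2 < 1 :=
          mul_lt_one_of_le_of_lt' hRv (pow_lt_one₀ zero_le h2 two_ne_zero)
        exact absurd i2 h6.ne
  · have hxne : xc (s T) ≠ xc T := by rw [hsx]; exact hxx
    have i1 := xc_sub H.toIsE hsT0 hT0 hxne
    rw [hsx, hsy] at i1
    have hD0 : 0 < A.valuation ((σ x - x) ^ 2) :=
      zero_lt_iff.mpr ((Valuation.ne_zero_iff _).mpr (pow_ne_zero 2 (sub_ne_zero.mpr hxx)))
    have hD1 : A.valuation ((σ x - x) ^ 2) < 1 := by
      rw [map_pow]; exact pow_lt_one₀ zero_le hdx two_ne_zero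
    have hsx1 : A.valuation (σ x) ≤ 1 := by rw [G.v_eq]; exact hx
    have hsy1 : A.valuation (σ y) ≤ 1 := by rw [G.v_eq]; exact hy1
    set Np := (σ x * x + W.a₄) * (σ x + x) + 2 * W.a₂ * (σ x * x) + 2 * (σ y * y) with hNp
    have hNpD : A.valuation Np ≤ A.valuation ((σ x - x) ^ 2) := by
      rw [← i1, map_mul]
      calc A.valuation (xc (s T - T)) * A.valuation ((σ x - x) ^ 2)
          ≤ 1 * A.valuation ((σ x - x) ^ 2) := by gcongr
        _ = _ := one_mul _
    rcases lt_or_eq_of_le hy1 with hylt | hyeq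
    · -- `y` in the maximal ideal
      have hB : A.valuation (σ x * x - W.a₄) = 1 := by
        have e : σ x * x - W.a₄ = (x ^ 2 - W.a₄) + x * (σ x - x) := by ring
        rw [e, ← hns hylt]
        apply Valuation.map_add_eq_of_lt_left
        rw [hns hylt, map_mul]
        exact mul_lt_one_of_le_of_lt' hx hdx
      have hcs : (σ y) ^ 2 = (σ x) ^ 3 + W.a₂ * (σ x) ^ 2 + W.a₄ * σ x := by
        have := curve_eq H.toIsE (s T)
        rwa [hsx, hsy] at this
      have i3 := congrArg A.valuation (N_mul_N hcs hcurve)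
      rw [← hNp, map_mul, map_mul, map_pow (A.valuation) (σ x * x - W.a₄), hB, one_pow,
        one_mul] at i3
      have hNm : A.valuation ((σ x * x + W.a₄) * (σ x + x) + 2 * W.a₂ * (σ x * x)
          - 2 * (σ y * y)) < 1 := by
        have e : (σ x * x + W.a₄) * (σ x + x) + 2 * W.a₂ * (σ x * x) - 2 * (σ y * y) =
            Np - 4 * (σ y * y) := by rw [hNp]; ring
        rw [e]
        refine Valuation.map_sub_lt _ (hNpD.trans_lt hD1) ?_
        rw [map_mul, H.v_four, one_mul, map_mul]
        exact mul_lt_one_of_le_of_lt' hsy1 hylt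
      have h7 : A.valuation Np * A.valuation ((σ x * x + W.a₄) * (σ x + x) + 2 * W.a₂ * (σ x * x)
          - 2 * (σ y * y)) < A.valuation ((σ x - x) ^ 2) := by
        calc _ ≤ A.valuation ((σ x - x) ^ 2) * A.valuation ((σ x * x + W.a₄) * (σ x + x)
              + 2 * W.a₂ * (σ x * x) - 2 * (σ y * y)) := by gcongr
          _ < A.valuation ((σ x - x) ^ 2) * 1 := mul_lt_mul_of_pos_left hNm hD0
          _ = _ := mul_one _
      exact absurd i3 h7.ne
    · -- `y` a unit
      have e : Np = 4 * y ^ 2 +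
          ((σ x - x) * (x * σ x + 2 * x ^ 2 + W.a₄ + 2 * W.a₂ * x) + 2 * y * (σ y - y)) := by
        rw [hNp]
        linear_combination (-2) * hcurve
      have h4y : A.valuation (4 * y ^ 2) = 1 := by
        rw [map_mul, H.v_four, map_pow, hyeq, one_pow, one_mul]
      have hE : A.valuation ((σ x - x) * (x * σ x + 2 * x ^ 2 + W.a₄ + 2 * W.a₂ * x)
          + 2 * y * (σ y - y)) < 1 := by
        refine Valuation.map_add_lt _ ?_ ?_
        · rw [map_mul, mul_comm]
          refine mul_lt_one_of_le_of_lt' ?_ hdx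
          refine Valuation.map_add_le _ (Valuation.map_add_le _ (Valuation.map_add_le _ ?_ ?_)
            H.ha₄) ?_
          · rw [map_mul]; exact mul_le_one' hx hsx1
          · rw [map_mul, H.h2, one_mul, map_pow]; exact pow_le_one' hx 2
          · rw [map_mul, map_mul, H.h2, one_mul]; exact mul_le_one' H.ha₂ hx
        · rw [map_mul, map_mul, H.h2, one_mul]
          exact mul_lt_one_of_le_of_lt' hy1 hdy
      have h8 : A.valuation Np = 1 := by
        rw [e, ← h4y]
        apply Valuation.map_add_eq_of_lt_left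
        rw [h4y]
        exact hE
      rw [h8] at hNpD
      exact absurd hNpD (not_le.mpr hD1)

/-- the good reduction case. -/
theorem sub_mem_E1_of_good (H : Hyp A.valuation W) (hβ : A.valuation W.a₄ = 1)
    (hdisc : A.valuation (W.a₂ ^ 2 - 4 * W.a₄) = 1) {σ : F →+* F} {s : W.Point →+ W.Point}
    (G : GalData A W σ s) (T : W.Point) : s T - T ∈ E1 H := by
  rcases lt_or_ge 1 (A.valuation (xc T)) with hx | hx
  · have hT : T ∈ E1 H := Or.inr hx
    exact AddSubgroup.sub_mem _ (s_mem_E1 H G hT) hT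
  refine sub_mem_E1_of_integral H G hx fun hy => ?_
  have hle : A.valuation (xc T ^ 2 - W.a₄) ≤ 1 :=
    Valuation.map_sub_le _ (by rw [map_pow]; exact pow_le_one' hx 2) H.ha₄
  by_contra hcon
  have he : A.valuation (xc T ^ 2 - W.a₄) < 1 := lt_of_le_of_ne hle hcon
  have hcurve := curve_eq H.toIsE T
  set x := xc T
  set y := yc T
  have h1 : W.a₄ * (2 * x + W.a₂) = y ^ 2 - W.a₂ * (x ^ 2 - W.a₄) - (x ^ 2 - W.a₄) * x := by
    linear_combination (-1) * hcurve
  have h2 : A.valuation (2 * x + W.a₂) < 1 := by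
    have : A.valuation (W.a₄ * (2 * x + W.a₂)) < 1 := by
      rw [h1]
      refine Valuation.map_sub_lt _ (Valuation.map_sub_lt _ ?_ ?_) ?_
      · rw [map_pow]; exact pow_lt_one₀ zero_le hy two_ne_zero
      · rw [map_mul]; exact mul_lt_one_of_le_of_lt' H.ha₂ he
      · rw [map_mul, mul_comm]; exact mul_lt_one_of_le_of_lt' hx he
    rwa [map_mul, hβ, one_mul] at this
  have h3 : W.a₂ ^ 2 - 4 * W.a₄ = 4 * (x ^ 2 - W.a₄) - (2 * x - W.a₂) * (2 * x + W.a₂) := by ring
  have h4 : A.valuation (W.a₂ ^ 2 - 4 * W.a₄) < 1 := by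
    rw [h3]
    refine Valuation.map_sub_lt _ ?_ ?_
    · rw [map_mul, H.v_four, one_mul]; exact he
    · rw [map_mul]
      refine mul_lt_one_of_le_of_lt' (Valuation.map_sub_le _ ?_ H.ha₂) h2
      rw [map_mul, H.h2, one_mul]; exact hx
  rw [hdisc] at h4
  exact lt_irrefl _ h4

/-- (L7) -/
theorem sub_mem_E1_of_v_eq (H : Hyp A.valuation W) (hα : A.valuation W.a₂ = 1)
    {σ : F →+* F} {s : W.Point →+ W.Point} (G : GalData A W σ s) {S : W.Point}
    (hlow : A.valuation W.a₄ < A.valuation (xc S)) (hup : A.valuation (xc S) < 1)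
    {t : F} (ht : σ t = t) (hvt : A.valuation (xc S) = A.valuation t) : s S - S ∈ E1 H := by
  have hS0 : S ≠ 0 := by
    rintro rfl
    rw [xc_zero, _root_.map_zero] at hlow
    exact absurd hlow (not_lt.mpr zero_le)
  by_contra hmem
  rw [mem_E1, not_or, not_lt] at hmem
  obtain ⟨hR0, hRv⟩ := hmem
  have hne : s S ≠ S := fun h => hR0 (sub_eq_zero.mpr h)
  have hsx : xc (s S) = σ (xc S) := G.xc_s S
  have hsy : yc (s S) = σ (yc S) := G.yc_s S
  have hsS0 : s S ≠ 0 := G.s_ne S hS0
  have hcurve := curve_eq H.toIsE S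
  have hvy := v_yc_eq H hα hlow hup
  set x := xc S with hxdef
  set y := yc S with hydef
  have hvx0 : 0 < A.valuation x := lt_of_le_of_lt zero_le hlow
  have hx0 : x ≠ 0 := (Valuation.ne_zero_iff _).mp hvx0.ne'
  have ht0 : t ≠ 0 := (Valuation.ne_zero_iff _).mp (hvt ▸ hvx0.ne')
  -- `σ x - x` is small
  have hdx : A.valuation (σ x - x) < A.valuation x := by
    have h1 : A.valuation (x / t) ≤ 1 := by rw [map_div₀, hvt, div_self (hvt ▸ hvx0.ne')]
    have h2 := G.v_sub _ h1
    have e : σ x - x = (σ (x / t) - x / t) * t := by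
      rw [map_div₀, ht]
      field_simp
    rw [e, map_mul, hvt]
    calc A.valuation (σ (x / t) - x / t) * A.valuation t < 1 * A.valuation t :=
          mul_lt_mul_of_pos_right h2 (hvt ▸ hvx0)
      _ = _ := one_mul _
  -- `g = y / x` is a unit
  set g := y / x with hgdef
  have hvg : A.valuation g = 1 := by rw [hgdef, map_div₀, hvy, div_self hvx0.ne']
  have hdg : A.valuation (σ g - g) < 1 := G.v_sub _ hvg.le
  have hyg : y = g * x := by rw [hgdef]; field_simp
  have hsyg : σ y = σ g * σ x := by rw [hyg, map_mul]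
  have hg2 : g ^ 2 = x + W.a₂ + W.a₄ / x := by
    rw [hgdef, div_pow, hcurve]
    field_simp
  by_cases hxx : σ x = x
  · rcases eq_or_eq_neg_of_xc_eq hsS0 hS0 (by rw [hsx, hxx]) with h | h
    · exact hne h
    · have h1 : σ y = -y := by rw [← hsy, h, yc_neg H.toIsE]
      have h2 : σ g = -g := by
        rw [hsyg, hxx, hyg] at h1
        have : (σ g + g) * x = 0 := by linear_combination h1
        have := (mul_eq_zero.mp this).resolve_right hx0
        linear_combination this
      have h3 : σ g - g = -(2 * g) := by rw [h2]; ring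
      rw [h3, Valuation.map_neg, map_mul, H.h2, hvg, one_mul] at hdg
      exact lt_irrefl _ hdg
  · have hxne : xc (s S) ≠ xc S := by rw [hsx]; exact hxx
    have i1 := congrArg A.valuation (xc_sub H.toIsE hsS0 hS0 hxne)
    rw [hsx, hsy] at i1
    have hvsx : A.valuation (σ x) = A.valuation x := G.v_eq x
    have hβx : A.valuation (W.a₄ / x) < 1 := by
      rw [map_div₀]
      exact (div_lt_one₀ hvx0).mpr hlow
    have hU : A.valuation (σ x + x + 2 * W.a₂ + 2 * (σ g * g)) = 1 := by
      have e : σ x + x + 2 * W.a₂ + 2 * (σ g * g) =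
          4 * g ^ 2 + (σ x - x - 2 * (W.a₄ / x) + 2 * g * (σ g - g)) := by
        linear_combination (-2) * hg2
      have h4 : A.valuation (4 * g ^ 2) = 1 := by
        rw [map_mul, H.v_four, map_pow, hvg, one_pow, one_mul]
      rw [e, ← h4]
      apply Valuation.map_add_eq_of_lt_left
      rw [h4]
      refine Valuation.map_add_lt _ (Valuation.map_sub_lt _ (hdx.trans hup) ?_) ?_
      · rw [map_mul, H.h2, one_mul]; exact hβx
      · rw [map_mul, map_mul, H.h2, hvg, one_mul, one_mul]; exact hdg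
    have eN : (σ x * x + W.a₄) * (σ x + x) + 2 * W.a₂ * (σ x * x) + 2 * (σ y * y) =
        σ x * x * (σ x + x + 2 * W.a₂ + 2 * (σ g * g)) + W.a₄ * (σ x + x) := by
      rw [hsyg, hyg]; ring
    have hN : A.valuation ((σ x * x + W.a₄) * (σ x + x) + 2 * W.a₂ * (σ x * x) + 2 * (σ y * y)) =
        A.valuation x ^ 2 := by
      have h5 : A.valuation (σ x * x * (σ x + x + 2 * W.a₂ + 2 * (σ g * g))) =
          A.valuation x ^ 2 := by
        rw [map_mul, map_mul, hU, hvsx, mul_one, pow_two]
      rw [eN, ← h5]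
      apply Valuation.map_add_eq_of_lt_left
      rw [h5, map_mul, pow_two]
      calc A.valuation W.a₄ * A.valuation (σ x + x) ≤ A.valuation W.a₄ * A.valuation x := by
            gcongr
            exact Valuation.map_add_le _ hvsx.le le_rfl
        _ < A.valuation x * A.valuation x := mul_lt_mul_of_pos_right hlow hvx0
    rw [hN, map_mul, map_pow] at i1
    have h6 : A.valuation (xc (s S - S)) * A.valuation (σ x - x) ^ 2 < A.valuation x ^ 2 := by
      calc _ ≤ 1 * A.valuation (σ x - x) ^ 2 := by gcongr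
        _ = A.valuation (σ x - x) ^ 2 := one_mul _
        _ < A.valuation x ^ 2 := pow_lt_pow_left₀ hdx zero_le two_ne_zero
    exact absurd i1 h6.ne

/-- the multiplicative reduction case. -/
theorem sub_mem_E1_of_mult (H : Hyp A.valuation W) (hα : A.valuation W.a₂ = 1)
    (hβ1 : A.valuation W.a₄ < 1) (hβ0 : W.a₄ ≠ 0)
    {p : ℕ} (hp : p.Prime) (hp5 : 5 ≤ p)
    {σ : F →+* F} {s : W.Point →+ W.Point} (G : GalData A W σ s)
    {t : F} (ht : σ t = t) (hvt : A.valuation W.a₄ ^ 2 = A.valuation t ^ p)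
    {T : W.Point} (hpT : p • T = 0) : s T - T ∈ E1 H := by
  have hE0 : A.valuation W.a₄ < 1 * 1 := by rwa [one_mul]
  by_cases hT : T ∈ Ege H 1 le_rfl hE0
  · rcases hT with hT | hT
    · rw [hT, _root_.map_zero, sub_zero]; exact AddSubgroup.zero_mem _
    · rcases lt_or_eq_of_le hT with hx | hx
      · have hT1 : T ∈ E1 H := Or.inr hx
        exact AddSubgroup.sub_mem _ (s_mem_E1 H G hT1) hT1
      · refine sub_mem_E1_of_integral H G hx.symm.le fun _ => ?_
        have hx1 : A.valuation (xc T ^ 2) = 1 := by rw [map_pow, ← hx, one_pow]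
        rw [← hx1]
        exact Valuation.map_sub_eq_of_lt_left _ (by rw [hx1]; exact hβ1)
  · have hnot : ∀ n, ¬ p ∣ n → n • T ∉ Ege H 1 le_rfl hE0 := by
      intro n hn hmem
      obtain ⟨m, hm⟩ := exists_nsmul_inv hp hpT hn
      exact hT (hm ▸ AddSubgroup.nsmul_mem _ hmem m)
    have hup : ∀ n, ¬ p ∣ n → A.valuation (xc (n • T)) < 1 := by
      intro n hn
      by_contra hcon
      exact hnot n hn (Or.inr (not_lt.mp hcon))
    have hlow : ∀ n, ¬ p ∣ n → A.valuation W.a₄ < A.valuation (xc (n • T)) := by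
      intro n hn
      by_contra hcon
      have h2n : ¬ p ∣ 2 * n := by
        intro h
        rcases (Nat.Prime.dvd_mul hp).mp h with h | h
        · have := Nat.le_of_dvd (by norm_num) h
          omega
        · exact hn h
      apply hnot (2 * n) h2n
      rw [mul_nsmul', two_nsmul]
      exact two_mem_E0 H hβ1 hβ0 (not_lt.mp hcon)
    obtain ⟨k₀, hk₀, hk₀max⟩ := Finset.exists_max_image (Finset.Ioo 0 p)
      (fun k => A.valuation (xc (k • T))) ⟨1, by simp; omega⟩
    rw [Finset.mem_Ioo] at hk₀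
    have hk₀p : ¬ p ∣ k₀ := not_dvd_of_lt hk₀.1 hk₀.2
    have hjk : ∀ j, 0 < j → j < p → ¬ p ∣ j * k₀ := by
      intro j h0 hj h
      rcases (Nat.Prime.dvd_mul hp).mp h with h | h
      · exact not_dvd_of_lt h0 hj h
      · exact hk₀p h
    have hpS : p • (k₀ • T) = 0 := by rw [nsmul_left_comm, hpT, nsmul_zero]
    have hpow := v_xc_pow_eq H hα hβ0 hp hp5 hpS
      (fun j h0 hj => by rw [← mul_nsmul']; exact hlow _ (hjk j h0 hj))
      (fun j h0 hj => by rw [← mul_nsmul']; exact hup _ (hjk j h0 hj))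
      (fun j h0 hj => by
        rw [← mul_nsmul']
        have e : (j * k₀) • T = ((j * k₀) % p) • T := by
          conv_lhs => rw [← Nat.mod_add_div (j * k₀) p, add_nsmul, mul_nsmul, hpT, nsmul_zero,
            add_zero]
        rw [e]
        apply hk₀max
        rw [Finset.mem_Ioo]
        refine ⟨Nat.pos_of_ne_zero fun h => hjk j h0 hj (Nat.dvd_of_mod_eq_zero h),
          Nat.mod_lt _ hp.pos⟩)
    rw [hvt] at hpow
    have hv := (pow_left_inj₀ zero_le zero_le hp.ne_zero).mp hpow
    have hfix := sub_mem_E1_of_v_eq H hα G (hlow _ hk₀p) (hup _ hk₀p) ht hv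
    obtain ⟨m, hm⟩ := exists_nsmul_inv hp hpT hk₀p
    have e : s T - T = m • (s (k₀ • T) - k₀ • T) := by
      rw [nsmul_sub, ← map_nsmul, hm]
    rw [e]
    exact AddSubgroup.nsmul_mem _ hfix m

end Fermat.Agent.S13Lib
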