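import Mathlib
set_option autoImplicit false

/-!
# S13, leaf C4: a Mahler measure type bound

If all the coefficients of `f` have valuation `≤ M` and `S` is a finite set of roots of `f` of
valuation `> 1`, then `v (leading coefficient) * ∏_{r ∈ S} v r ≤ M`.
-/

namespace Fermat.Agent.S13Lib

open Polynomial

variable {F Γ₀ : Type*} [Field F] [LinearOrderedCommGroupWithZero Γ₀] (v : Valuation F Γ₀)

/-- dividing by `X - r` with `1 < v r` divides the bound on the coefficients by `v r`. -/
theorem mahler_step {f g : F[X]} {r : F} {M : Γ₀} (hfg : f = (X - C r) * g) (hr : 1 < v r)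
    (hf : ∀ n, v (f.coeff n) ≤ M) : ∀ n, v (g.coeff n) ≤ M / v r := by
  have hr0 : 0 < v r := lt_trans one_pos hr
  have hr0' : r ≠ 0 := (Valuation.ne_zero_iff v).mp hr0.ne'
  have hM : M / v r ≤ M := by
    rw [div_le_iff₀ hr0]
    calc M = M * 1 := (mul_one M).symm
      _ ≤ M * v r := by gcongr
  intro n
  induction n with
  | zero =>
    have h0 : f.coeff 0 = -(r * g.coeff 0) := by
      rw [hfg, sub_mul, coeff_sub, coeff_C_mul, mul_coeff_zero]
      simp
    have h1 : g.coeff 0 = -(f.coeff 0) / r := by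
      rw [h0]; field_simp
    rw [h1, map_div₀, Valuation.map_neg]
    gcongr
    exact hf 0
  | succ n ih =>
    have h0 : f.coeff (n + 1) = g.coeff n - r * g.coeff (n + 1) := by
      rw [hfg, sub_mul, coeff_sub, coeff_C_mul, coeff_X_mul]
    have h1 : g.coeff (n + 1) = (g.coeff n - f.coeff (n + 1)) / r := by
      rw [h0]; field_simp; ring
    rw [h1, map_div₀]
    gcongr
    exact Valuation.map_sub_le v (ih.trans hM) (hf (n + 1))

theorem mahler [DecidableEq F] (S : Finset F) : ∀ (f : F[X]) (M : Γ₀), (∀ n, v (f.coeff n) ≤ M) →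
    (∀ r ∈ S, f.eval r = 0 ∧ 1 < v r) → v f.leadingCoeff * ∏ r ∈ S, v r ≤ M := by
  induction S using Finset.induction_on with
  | empty =>
    intro f M hf _
    simpa using hf f.natDegree
  | insert r S hrS ih =>
    intro f M hf hS
    obtain ⟨hr0, hr1⟩ := hS r (Finset.mem_insert_self r S)
    obtain ⟨g, hg⟩ : (X - C r) ∣ f := dvd_iff_isRoot.mpr hr0
    have hvr : 0 < v r := lt_trans one_pos hr1
    have hlc : f.leadingCoeff = g.leadingCoeff := by
      rw [hg, leadingCoeff_mul, leadingCoeff_X_sub_C, one_mul]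
    have := ih g (M / v r) (mahler_step v hg hr1 hf) (by
      intro s hs
      obtain ⟨hs0, hs1⟩ := hS s (Finset.mem_insert_of_mem hs)
      refine ⟨?_, hs1⟩
      rw [hg, eval_mul, eval_sub, eval_X, eval_C] at hs0
      have hne : s - r ≠ 0 := sub_ne_zero.mpr (fun h => hrS (h ▸ hs))
      exact (mul_eq_zero.mp hs0).resolve_left hne)
    rw [Finset.prod_insert hrS, hlc]
    rw [le_div_iff₀ hvr] at this
    calc v g.leadingCoeff * (v r * ∏ x ∈ S, v x) = v g.leadingCoeff * (∏ x ∈ S, v x) * v r := by
          rw [mul_assoc, mul_comm (v r)]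
      _ ≤ M := this

end Fermat.Agent.S13Lib
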