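import Fermat.Agent.S05.Final
import Fermat.Agent.S13.Link
import Fermat.Agent.S13.Mahler
import Fermat.Agent.S13.AtP1
set_option autoImplicit false
set_option linter.unusedSectionVars false

/-!
# S13, leaf C6: the dichotomy at `p` on the model curve
-/

namespace Fermat.Agent.S13Lib

open WeierstrassCurve WeierstrassCurve.Affine WeierstrassCurve.Affine.Point
open Fermat.Agent.S05Lib

local notation "Qb" => AlgebraicClosure ℚ

/-! ### valuations of rational numbers -/

theorem algebraMap_rat_eq (r : ℚ) : algebraMap ℚ Qb r = (r.num : Qb) / ((r.den : ℤ) : Qb) := by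
  conv_lhs => rw [← Rat.num_div_den r]
  simp

theorem val_rat_le_one (A : ValuationSubring Qb) {q : ℕ} (hq : q.Prime) (hA : A.LiesOverPrime q)
    (r : ℚ) (h : ¬ q ∣ r.den) : A.valuation (algebraMap ℚ Qb r) ≤ 1 := by
  rw [algebraMap_rat_eq, map_div₀, valuation_intCast_eq_one A hq hA (r.den : ℤ)
    (by exact_mod_cast h), div_one]
  exact valuation_intCast_le_one A _

theorem one_le_val_rat (A : ValuationSubring Qb) {q : ℕ} (hq : q.Prime) (hA : A.LiesOverPrime q)
    (r : ℚ) (h : q ∣ r.den) : 1 ≤ A.valuation (q : Qb) * A.valuation (algebraMap ℚ Qb r) := by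
  have hnum : ¬ (q : ℤ) ∣ r.num := by
    intro hn
    have h1 : q ∣ r.num.natAbs := Int.natCast_dvd.mp hn
    have h2 : q ∣ Nat.gcd r.num.natAbs r.den := Nat.dvd_gcd h1 h
    rw [r.reduced] at h2
    exact hq.one_lt.ne' (Nat.dvd_one.mp h2)
  obtain ⟨m, hm⟩ := h
  have hden0 : ((r.den : ℤ) : Qb) ≠ 0 := by
    have := r.den_nz
    exact_mod_cast this
  have hv0 : 0 < A.valuation ((r.den : ℤ) : Qb) :=
    zero_lt_iff.mpr ((Valuation.ne_zero_iff _).mpr hden0)
  rw [algebraMap_rat_eq, map_div₀, valuation_intCast_eq_one A hq hA _ hnum, ← mul_div_assoc,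
    mul_one, le_div_iff₀ hv0, one_mul]
  have e : ((r.den : ℤ) : Qb) = (q : Qb) * ((m : ℤ) : Qb) := by
    rw [hm]; push_cast; ring
  rw [e, map_mul]
  calc A.valuation (q : Qb) * A.valuation ((m : ℤ) : Qb) ≤ A.valuation (q : Qb) * 1 := by
        gcongr
        exact valuation_intCast_le_one A _
    _ = _ := mul_one _

/-! ### the division polynomial has integral coefficients -/

theorem EC_eq_map (a b : ℤ) :
    ((EC (a : ℚ) (b : ℚ))⁄Qb) =
      (WeierstrassCurve.map (⟨0, a, 0, b, 0⟩ : WeierstrassCurve ℤ) (Int.castRingHom Qb)) := by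
  ext <;> simp [EC]

theorem coeff_preΨ'_int (a b : ℤ) (n k : ℕ) :
    ∃ z : ℤ, (WeierstrassCurve.preΨ' ((EC (a : ℚ) (b : ℚ))⁄Qb) n).coeff k = (z : Qb) := by
  rw [EC_eq_map, WeierstrassCurve.map_preΨ', Polynomial.coeff_map]
  exact ⟨_, rfl⟩

/-! ### multiples of a point of order `p` -/

section Mult

variable {F : Type*} [Field F] [DecidableEq F] {W : WeierstrassCurve.Affine F}

/-- the `x`-coordinates of the nonzero multiples of `R`. -/
def SN (R : W.Point) (p : ℕ) : Finset F := (Finset.Ioo 0 p).image (fun k => xc (k • R))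

theorem exists_nat_of_mem_zmultiples {p : ℕ} (hp : 0 < p) {R Q : W.Point} (hR : p • R = 0)
    (hQ : Q ∈ AddSubgroup.zmultiples R) (hQ0 : Q ≠ 0) : ∃ k, 0 < k ∧ k < p ∧ Q = k • R := by
  obtain ⟨j, rfl⟩ := AddSubgroup.mem_zmultiples_iff.mp hQ
  have hp' : (0 : ℤ) < p := by exact_mod_cast hp
  have h1 : 0 ≤ j % p := Int.emod_nonneg _ hp'.ne'
  have h2 : j % p < p := Int.emod_lt_of_pos _ hp'
  have e : j • R = (j % p).toNat • R := by
    rw [← natCast_zsmul, Int.toNat_of_nonneg h1]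
    conv_lhs => rw [← Int.emod_add_mul_ediv j p, add_zsmul, mul_zsmul', natCast_zsmul, hR,
      zsmul_zero, add_zero]
  refine ⟨(j % p).toNat, ?_, by omega, e⟩
  rcases Nat.eq_zero_or_pos (j % p).toNat with h | h
  · rw [e, h, zero_nsmul] at hQ0
    exact absurd rfl hQ0
  · exact h

theorem xc_mem_SN {p : ℕ} (hp : 0 < p) {R Q : W.Point} (hR : p • R = 0)
    (hQ : Q ∈ AddSubgroup.zmultiples R) (hQ0 : Q ≠ 0) : xc Q ∈ SN R p := by
  obtain ⟨k, h0, hk, rfl⟩ := exists_nat_of_mem_zmultiples hp hR hQ hQ0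
  exact Finset.mem_image.mpr ⟨k, Finset.mem_Ioo.mpr ⟨h0, hk⟩, rfl⟩

theorem R_mem_of_mem {p : ℕ} (hp : p.Prime) {R Q : W.Point} (hR : p • R = 0)
    (hQ : Q ∈ AddSubgroup.zmultiples R) (hQ0 : Q ≠ 0) (K : AddSubgroup W.Point) (hK : Q ∈ K) :
    R ∈ K := by
  obtain ⟨k, h0, hk, rfl⟩ := exists_nat_of_mem_zmultiples hp.pos hR hQ hQ0
  obtain ⟨m, hm⟩ := exists_nsmul_inv hp hR (not_dvd_of_lt h0 hk)
  rw [← hm]
  exact AddSubgroup.nsmul_mem _ hK m

end Mult

/-! ### the dichotomy -/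

theorem gal_nsmul {W' : Affine ℚ} (σ : Qb ≃ₐ[ℚ] Qb) (k : ℕ) (Q : (W'⁄Qb).Point) :
    σ • (k • Q) = k • (σ • Q) :=
  map_nsmul (DistribSMul.toAddMonoidHom (W'⁄Qb).Point σ) k Q

theorem one_lt_prod_of {ι Γ₀ : Type*} [LinearOrderedCommGroupWithZero Γ₀] [DecidableEq ι]
    (S : Finset ι) (f : ι → Γ₀) (h : ∀ i ∈ S, 1 < f i) :
    1 ≤ ∏ i ∈ S, f i ∧ (S.Nonempty → 1 < ∏ i ∈ S, f i) := by
  induction S using Finset.induction_on with
  | empty => simp
  | insert i S hi ih =>
    have h1 := (ih fun j hj => h j (Finset.mem_insert_of_mem hj)).1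
    have h2 := h i (Finset.mem_insert_self i S)
    have h3 : 1 < ∏ j ∈ insert i S, f j := by
      rw [Finset.prod_insert hi]
      calc 1 < f i := h2
        _ = f i * 1 := (mul_one _).symm
        _ ≤ f i * ∏ j ∈ S, f j := by gcongr
    exact ⟨h3.le, fun _ => h3⟩

theorem model_dichotomy {α β : ℚ} (hα : ∃ a : ℤ, α = a) (hβ : ∃ b : ℤ, β = b)
    {p : ℕ} (hp : p.Prime) (hp5 : 5 ≤ p)
    (hH : ∀ A : ValuationSubring Qb, A.LiesOverPrime p → Hyp A.valuation ((EC α β)⁄Qb))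
    (hC5 : ∀ (A : ValuationSubring Qb) (hA : A.LiesOverPrime p), ∀ σ ∈ A.inertiaSubgroupIn ℚ,
      ∀ T : ((EC α β)⁄Qb).Point, p • T = 0 → σ • T - T ∈ E1 (hH A hA))
    (R : ((EC α β)⁄Qb).Point) (hR0 : R ≠ 0) (hR : p • R = 0)
    (hst : ∀ σ : Qb ≃ₐ[ℚ] Qb, σ • R ∈ AddSubgroup.zmultiples R) :
    (∀ A : ValuationSubring Qb, A.LiesOverPrime p → ∀ σ ∈ A.inertiaSubgroupIn ℚ, σ • R = R) ∨
    (∀ A : ValuationSubring Qb, A.LiesOverPrime p → ∀ σ ∈ A.inertiaSubgroupIn ℚ,
      ∀ T : ((EC α β)⁄Qb).Point, p • T = 0 → σ • T - T ∈ AddSubgroup.zmultiples R) := by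
  obtain ⟨a, rfl⟩ := hα
  obtain ⟨b, rfl⟩ := hβ
  have hne : ∀ k, 0 < k → k < p → k • R ≠ 0 := fun k h0 hk =>
    nsmul_ne_zero_of_not_dvd hp hR hR0 (not_dvd_of_lt h0 hk)
  -- the product of the `x`-coordinates is rational
  have hsub : ∀ σ : Qb ≃ₐ[ℚ] Qb, (SN R p).image σ ⊆ SN R p := by
    intro σ ξ hξ
    obtain ⟨η, hη, rfl⟩ := Finset.mem_image.mp hξ
    obtain ⟨k, hk, rfl⟩ := Finset.mem_image.mp hη
    rw [Finset.mem_Ioo] at hk
    rw [← xc_smul]
    apply xc_mem_SN hp.pos hR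
    · rw [gal_nsmul]
      exact AddSubgroup.nsmul_mem _ (hst σ) k
    · intro h
      apply hne k hk.1 hk.2
      have := congrArg (fun Q => σ⁻¹ • Q) h
      simpa using this
  have himg : ∀ σ : Qb ≃ₐ[ℚ] Qb, (SN R p).image σ = SN R p := fun σ =>
    Finset.eq_of_subset_of_card_le (hsub σ) (by rw [Finset.card_image_of_injective _ σ.injective])
  obtain ⟨r, hr⟩ : ∃ r : ℚ, algebraMap ℚ Qb r = ∏ ξ ∈ SN R p, ξ := by
    have h1 : IsAlgClosure ℚ (AlgebraicClosure ℚ) := AlgebraicClosure.instIsAlgClosure ℚ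
    have h2 : IsGalois ℚ (AlgebraicClosure ℚ) := inferInstance
    apply (InfiniteGalois.mem_range_algebraMap_iff_fixed (k := ℚ) _).mpr
    intro σ
    rw [map_prod]
    conv_rhs => rw [← himg σ]
    rw [Finset.prod_image (fun x _ y _ h => σ.injective h)]
  have hSNne : (SN R p).Nonempty :=
    ⟨xc (1 • R), Finset.mem_image.mpr ⟨1, Finset.mem_Ioo.mpr ⟨one_pos, by omega⟩, rfl⟩⟩
  -- `R ∈ E1 A` iff `1 < v c`
  have hc_le : ∀ (A : ValuationSubring Qb) (hA : A.LiesOverPrime p), R ∉ E1 (hH A hA) →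
      A.valuation (algebraMap ℚ Qb r) ≤ 1 := by
    intro A hA hRE
    rw [hr, map_prod]
    apply Finset.prod_le_one'
    intro ξ hξ
    obtain ⟨k, hk, rfl⟩ := Finset.mem_image.mp hξ
    rw [Finset.mem_Ioo] at hk
    by_contra hcon
    push Not at hcon
    exact hRE (R_mem_of_mem hp hR (AddSubgroup.nsmul_mem _ (AddSubgroup.mem_zmultiples R) k)
      (hne k hk.1 hk.2) _ (Or.inr hcon))
  by_cases hden : p ∣ r.den
  · right
    intro A hA σ hσ T hT
    have H := hH A hA
    have hpc := one_le_val_rat A hp hA r hden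
    have hvp : A.valuation (p : Qb) < 1 := (ValuationSubring.mem_nonunits_iff (A := A)).mp hA
    have hRE : R ∈ E1 (hH A hA) := by
      by_contra hcon
      have h1 := hc_le A hA hcon
      have : A.valuation (p : Qb) * A.valuation (algebraMap ℚ Qb r) < 1 := by
        rw [mul_comm]
        exact mul_lt_one_of_le_of_lt' h1 hvp
      exact absurd hpc (not_le.mpr this)
    have hD := hC5 A hA σ hσ T hT
    set D := σ • T - T with hDdef
    by_contra hDN
    have hD0 : D ≠ 0 := fun h => hDN (h ▸ AddSubgroup.zero_mem _)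
    have hpD : p • D = 0 := by
      rw [hDdef, nsmul_sub, ← gal_nsmul, hT, sub_zero]
      rfl
    have hvD : 1 < A.valuation (xc D) := hD.resolve_left hD0
    have hnotin : xc D ∉ SN R p := by
      intro hmem
      obtain ⟨k, hk, hk'⟩ := Finset.mem_image.mp hmem
      rw [Finset.mem_Ioo] at hk
      rcases eq_or_eq_neg_of_xc_eq (hne k hk.1 hk.2) hD0 hk' with h | h
      · exact hDN (h ▸ AddSubgroup.nsmul_mem _ (AddSubgroup.mem_zmultiples R) k)
      · apply hDN
        have : D = -(k • R) := by rw [h, neg_neg]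
        rw [this]
        exact AddSubgroup.neg_mem _ (AddSubgroup.nsmul_mem _ (AddSubgroup.mem_zmultiples R) k)
    have h2 : (2 : Qb) ≠ 0 := two_ne_zero
    have hpQ : (p : Qb) ≠ 0 := by exact_mod_cast hp.ne_zero
    have hM := mahler A.valuation (insert (xc D) (SN R p))
      (WeierstrassCurve.preΨ' ((EC (a : ℚ) (b : ℚ))⁄Qb) p) 1 (by
        intro n
        obtain ⟨z, hz⟩ := coeff_preΨ'_int a b p n
        rw [hz]
        exact valuation_intCast_le_one A z) (by
        intro ξ hξ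
        rcases Finset.mem_insert.mp hξ with rfl | hξ
        · exact ⟨eval_preΨ'_eq_zero H.toIsE h2 hp hp5 hD0 hpD, hvD⟩
        · obtain ⟨k, hk, rfl⟩ := Finset.mem_image.mp hξ
          rw [Finset.mem_Ioo] at hk
          refine ⟨eval_preΨ'_eq_zero H.toIsE h2 hp hp5 (hne k hk.1 hk.2)
            (by rw [nsmul_left_comm, hR, nsmul_zero]), ?_⟩
          exact (AddSubgroup.nsmul_mem _ hRE k).resolve_left (hne k hk.1 hk.2))
    rw [WeierstrassCurve.leadingCoeff_preΨ' _ hpQ,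
      if_neg (Nat.not_even_iff_odd.mpr (hp.odd_of_ne_two (by omega))),
      Finset.prod_insert hnotin, ← map_prod, ← hr] at hM
    have : 1 < A.valuation (p : Qb) * (A.valuation (xc D) * A.valuation (algebraMap ℚ Qb r)) := by
      calc 1 < A.valuation (xc D) := hvD
        _ = A.valuation (xc D) * 1 := (mul_one _).symm
        _ ≤ A.valuation (xc D) * (A.valuation (p : Qb) * A.valuation (algebraMap ℚ Qb r)) := by
          gcongr
        _ = _ := by rw [mul_left_comm]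
    exact absurd hM (not_le.mpr this)
  · left
    intro A hA σ hσ
    have hc1 := val_rat_le_one A hp hA r hden
    have hRE : R ∉ E1 (hH A hA) := by
      intro hRE
      have : 1 < A.valuation (algebraMap ℚ Qb r) := by
        rw [hr, map_prod]
        refine (one_lt_prod_of _ _ ?_).2 hSNne
        intro ξ hξ
        obtain ⟨k, hk, rfl⟩ := Finset.mem_image.mp hξ
        rw [Finset.mem_Ioo] at hk
        exact (AddSubgroup.nsmul_mem _ hRE k).resolve_left (hne k hk.1 hk.2)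
      exact absurd hc1 (not_le.mpr this)
    have hD := hC5 A hA σ hσ R hR
    by_contra hcon
    have hD0 : σ • R - R ≠ 0 := sub_ne_zero.mpr hcon
    exact hRE (R_mem_of_mem hp hR
      (AddSubgroup.sub_mem _ (hst σ) (AddSubgroup.mem_zmultiples R)) hD0 _ hD)

end Fermat.Agent.S13Lib
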