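import Fermat.Agent.S05.Final
import Fermat.Agent.S13.Link
import Fermat.Agent.S13.AtP1
set_option autoImplicit false
set_option linter.unusedSectionVars false

/-!
# S13, leaf C3 (part 1): a point of order `p` on a short model with `a₄` a `p`-adic unit
-/

namespace Fermat.Agent.S13Lib

open WeierstrassCurve WeierstrassCurve.Affine WeierstrassCurve.Affine.Point
open Fermat.Agent.S05Lib

/-! ### the constant coefficient of the division polynomial -/

theorem v_preNormEDS'_odd {F Γ₀ : Type*} [Field F] [LinearOrderedCommGroupWithZero Γ₀]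
    (v : Valuation F Γ₀) (c d : F) (hc : v c = 1) :
    ∀ n : ℕ, Odd n → v (preNormEDS' 0 c d n) = 1 := by
  intro n
  induction n using Nat.strong_induction_on with
  | _ n ih =>
    intro hn
    rcases Nat.lt_or_ge n 5 with h5 | h5
    · obtain rfl | rfl : n = 1 ∨ n = 3 := by
        obtain ⟨k, rfl⟩ := hn
        omega
      · simp
      · simpa using hc
    · obtain ⟨m, rfl⟩ : ∃ m, n = 2 * (m + 2) + 1 := by
        obtain ⟨k, rfl⟩ := hn
        exact ⟨k - 2, by omega⟩
      rw [preNormEDS'_odd]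
      by_cases hm : Even m
      · simp only [hm, if_true, mul_zero, mul_one, zero_sub, Valuation.map_neg, map_mul, map_pow]
        rw [ih (m + 1) (by omega) hm.add_one, ih (m + 3) (by omega) (by
          have : m + 3 = (m + 2) + 1 := rfl
          rw [this]
          exact (hm.add (by decide)).add_one)]
        simp
      · have hm' : Odd m := Nat.not_even_iff_odd.mp hm
        simp only [hm, if_false, mul_zero, mul_one, sub_zero, map_mul, map_pow]
        rw [ih (m + 4) (by omega) (hm'.add_even (by decide)),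
          ih (m + 2) (by omega) (hm'.add_even (by decide))]
        simp

theorem v_eval_zero_preΨ' {F Γ₀ : Type*} [Field F] [LinearOrderedCommGroupWithZero Γ₀]
    (v : Valuation F Γ₀) {W : WeierstrassCurve.Affine F} (hW : IsE W) (h4 : v W.a₄ = 1)
    {n : ℕ} (hn : Odd n) : v ((WeierstrassCurve.preΨ' W n).eval 0) = 1 := by
  rw [WeierstrassCurve.preΨ', ← Polynomial.coe_evalRingHom, map_preNormEDS',
    Polynomial.coe_evalRingHom, Polynomial.eval_pow, eval_Ψ₂Sq hW, eval_Ψ₃ hW]
  have e : ((4 : F) * 0 ^ 3 + 4 * W.a₂ * 0 ^ 2 + 4 * W.a₄ * 0) ^ 2 = 0 := by ring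
  rw [e]
  apply v_preNormEDS'_odd v _ _ _ n hn
  have e2 : (3 : F) * 0 ^ 4 + 4 * W.a₂ * 0 ^ 3 + 6 * W.a₄ * 0 ^ 2 - W.a₄ ^ 2 = -W.a₄ ^ 2 := by ring
  rw [e2, Valuation.map_neg, map_pow, h4, one_pow]

/-! ### a root of valuation `> 1` -/

theorem v_prod_le_one {F Γ₀ : Type*} [Field F] [LinearOrderedCommGroupWithZero Γ₀]
    (v : Valuation F Γ₀) (s : Multiset F) (h : ∀ r ∈ s, v r ≤ 1) :
    v ((s.map (fun r => (0 : F) - r)).prod) ≤ 1 := by
  induction s using Multiset.induction_on with
  | empty => simp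
  | cons a s ih =>
    rw [Multiset.map_cons, Multiset.prod_cons, map_mul, zero_sub, Valuation.map_neg]
    exact mul_le_one' (h a (Multiset.mem_cons_self a s))
      (ih fun r hr => h r (Multiset.mem_cons_of_mem hr))

theorem exists_root_gt_one {F Γ₀ : Type*} [Field F] [IsAlgClosed F]
    [LinearOrderedCommGroupWithZero Γ₀] (v : Valuation F Γ₀) (f : Polynomial F)
    (hlc : v f.leadingCoeff < 1) (h0 : v (f.eval 0) = 1) : ∃ r, f.eval r = 0 ∧ 1 < v r := by
  by_contra hcon
  push Not at hcon
  have hf0 : f ≠ 0 := by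
    rintro rfl
    simp at h0
  have h1 := (IsAlgClosed.splits f).eval_eq_prod_roots 0
  have h2 := v_prod_le_one v f.roots (fun r hr => hcon r ((Polynomial.mem_roots hf0).mp hr))
  rw [h1, map_mul] at h0
  have : v f.leadingCoeff * v ((f.roots.map (fun r => (0 : F) - r)).prod) < 1 := by
    rw [mul_comm]
    exact mul_lt_one_of_le_of_lt' h2 hlc
  exact absurd h0 this.ne

/-! ### the point -/

variable {F : Type*} [Field F] [DecidableEq F] {W : WeierstrassCurve.Affine F}
  {A : ValuationSubring F}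

/-- points of `E1` have no torsion of order `< p` when all primes `< p` are units. -/
theorem nsmul_ne_zero_of_mem_E1 (H : Hyp A.valuation W) {p : ℕ}
    (hunit : ∀ q : ℕ, q.Prime → q < p → A.valuation (q : F) = 1) {T : W.Point} (hT0 : T ≠ 0)
    (hT : T ∈ E1 H) : ∀ k, 0 < k → k < p → k • T ≠ 0 := by
  intro k hk0 hkp hk
  set n := addOrderOf T with hn
  have hnk : n ∣ k := addOrderOf_dvd_of_nsmul_eq_zero hk
  have hn0 : 0 < n := Nat.pos_of_dvd_of_pos hnk hk0
  have hn1 : n ≠ 1 := by
    intro h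
    rw [hn, AddMonoid.addOrderOf_eq_one_iff] at h
    exact hT0 h
  set q := n.minFac with hq
  have hqp : q.Prime := Nat.minFac_prime hn1
  obtain ⟨m, hm⟩ : q ∣ n := Nat.minFac_dvd n
  have hm0 : 0 < m := Nat.pos_of_ne_zero (by rintro rfl; omega)
  have hmn : m < n := by
    rw [hm]
    calc m = 1 * m := (one_mul m).symm
      _ < q * m := Nat.mul_lt_mul_of_pos_right hqp.one_lt hm0
  have hT'0 : m • T ≠ 0 := fun h => by
    have := Nat.le_of_dvd hm0 (addOrderOf_dvd_of_nsmul_eq_zero h)
    omega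
  have hqT' : q • (m • T) = 0 := by
    rw [← mul_nsmul', ← hm, hn, addOrderOf_nsmul_eq_zero]
  have hT'E : 1 < A.valuation (xc (m • T)) := (AddSubgroup.nsmul_mem _ hT m).resolve_left hT'0
  have hqlt : q < p := lt_of_le_of_lt (Nat.le_of_dvd hk0 ((Nat.minFac_dvd n).trans hnk)) hkp
  rcases Nat.lt_or_ge q 3 with h3 | h3
  · have hq2 : q = 2 := by have := hqp.two_le; omega
    rw [hq2, two_nsmul] at hqT'
    have hy : yc (m • T) = 0 := by
      by_contra hy
      exact add_self_ne_zero H.toIsE H.two_ne_zero hy hqT'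
    have hc := curve_eq H.toIsE (m • T)
    rw [hy] at hc
    set x := xc (m • T)
    have hx0 : 0 < A.valuation x := lt_trans one_pos hT'E
    have h1 : A.valuation (x ^ 3 + (W.a₂ * x ^ 2 + W.a₄ * x)) = A.valuation (x ^ 3) := by
      apply Valuation.map_add_eq_of_lt_left
      rw [map_pow]
      refine Valuation.map_add_lt _ ?_ ?_
      · rw [map_mul, map_pow]
        calc A.valuation W.a₂ * A.valuation x ^ 2 ≤ 1 * A.valuation x ^ 2 := by
              gcongr; exact H.ha₂
          _ = A.valuation x ^ 2 := one_mul _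
          _ < A.valuation x ^ 3 := pow_lt_pow_right₀ hT'E (by norm_num)
      · rw [map_mul]
        calc A.valuation W.a₄ * A.valuation x ≤ 1 * A.valuation x := by
              gcongr; exact H.ha₄
          _ = A.valuation x ^ 1 := by rw [one_mul, pow_one]
          _ < A.valuation x ^ 3 := pow_lt_pow_right₀ hT'E (by norm_num)
    have h2 : x ^ 3 + (W.a₂ * x ^ 2 + W.a₄ * x) = 0 := by linear_combination -hc
    rw [h2, _root_.map_zero, map_pow] at h1
    exact (pow_pos hx0 3).ne h1
  · exact absurd (no_torsion A H hqp h3 (hunit q hqp hqlt) hT'0 hqT') (not_le.mpr hT'E)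

/-- existence of a point of order `p` with `Y ≠ 0`. -/
theorem exists_torsion_short [IsAlgClosed F] (H : Hyp A.valuation W) (h4 : A.valuation W.a₄ = 1)
    {p : ℕ} (hp : p.Prime) (hp5 : 5 ≤ p) (hpF : (p : F) ≠ 0) (hvp : A.valuation (p : F) < 1)
    (hunit : ∀ q : ℕ, q.Prime → q < p → A.valuation (q : F) = 1) :
    ∃ (x y : F) (h : W.Nonsingular x y), y ≠ 0 ∧ p • (Point.some x y h) = 0 := by
  have hodd : Odd p := hp.odd_of_ne_two (by omega)
  obtain ⟨r, hr0, hr1⟩ := exists_root_gt_one A.valuation (WeierstrassCurve.preΨ' W p)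
    (by
      rw [WeierstrassCurve.leadingCoeff_preΨ' W hpF, if_neg (Nat.not_even_iff_odd.mpr hodd)]
      exact hvp)
    (v_eval_zero_preΨ' A.valuation H.toIsE h4 hodd)
  obtain ⟨y, hy⟩ := IsAlgClosed.exists_pow_nat_eq (r ^ 3 + W.a₂ * r ^ 2 + W.a₄ * r)
    (n := 2) (by norm_num)
  have hr0' : 0 < A.valuation r := lt_trans one_pos hr1
  have hcub : r ^ 3 + W.a₂ * r ^ 2 + W.a₄ * r ≠ 0 := by
    intro h0
    have h1 : A.valuation (r ^ 3 + (W.a₂ * r ^ 2 + W.a₄ * r)) = A.valuation (r ^ 3) := by
      apply Valuation.map_add_eq_of_lt_left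
      rw [map_pow]
      refine Valuation.map_add_lt _ ?_ ?_
      · rw [map_mul, map_pow]
        calc A.valuation W.a₂ * A.valuation r ^ 2 ≤ 1 * A.valuation r ^ 2 := by
              gcongr; exact H.ha₂
          _ = A.valuation r ^ 2 := one_mul _
          _ < A.valuation r ^ 3 := pow_lt_pow_right₀ hr1 (by norm_num)
      · rw [map_mul]
        calc A.valuation W.a₄ * A.valuation r ≤ 1 * A.valuation r := by
              gcongr; exact H.ha₄
          _ = A.valuation r ^ 1 := by rw [one_mul, pow_one]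
          _ < A.valuation r ^ 3 := pow_lt_pow_right₀ hr1 (by norm_num)
    rw [← add_assoc, h0, _root_.map_zero, map_pow] at h1
    exact (pow_pos hr0' 3).ne h1
  have hy0 : y ≠ 0 := by
    rintro rfl
    apply hcub
    rw [← hy]
    ring
  have hns : W.Nonsingular r y := by
    rw [Affine.nonsingular_iff']
    refine ⟨?_, Or.inr ?_⟩
    · rw [Affine.equation_iff, H.a₁, H.a₃, H.a₆]
      linear_combination hy
    · rw [H.a₁, H.a₃]
      intro h
      have : 2 * y = 0 := by linear_combination h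
      exact hy0 ((mul_eq_zero.mp this).resolve_left H.two_ne_zero)
  refine ⟨r, y, hns, hy0, ?_⟩
  have hT0 : Point.some r y hns ≠ 0 := Point.some_ne_zero _
  have hTE : Point.some r y hns ∈ E1 H := Or.inr hr1
  exact nsmul_eq_zero_of_eval_preΨ' H.toIsE H.two_ne_zero hp5 hodd
    (nsmul_ne_zero_of_mem_E1 H hunit hT0 hTE) hr0

end Fermat.Agent.S13Lib
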