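import Fermat.Agent.S13.TwoVal
import Fermat.Agent.S05.L3
set_option autoImplicit false
set_option linter.unusedSectionVars false

/-!
# S13: inertia at `2` acts unipotently on the odd torsion of `Y² + X Y = X³ + a₂ X² + a₄ X`
-/

namespace Fermat.Agent.S13Lib

open WeierstrassCurve WeierstrassCurve.Affine WeierstrassCurve.Affine.Point
open Fermat.Agent.S05Lib

variable {F : Type*} [Field F] [DecidableEq F] {W : WeierstrassCurve.Affine F}
  {A : ValuationSubring F}

theorem v_le_one_of_sq_le {Γ₀ : Type*} [LinearOrderedCommGroupWithZero Γ₀] {a : Γ₀}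
    (h : a ^ 2 ≤ 1) : a ≤ 1 := by
  by_contra hcon
  push Not at hcon
  exact absurd h (not_le.mpr (one_lt_pow₀ hcon two_ne_zero))

/-- inertia fixes the torsion points with unit `x`-coordinate -/
theorem fixed_of_unitN (H : HypN A.valuation W) {p : ℕ} (hp : p.Prime) (hp3 : 3 ≤ p)
    {σ : F →+* F} {s : W.Point →+ W.Point} (G : GalData A W σ s) {T : W.Point}
    (hpT : p • T = 0) (hx : A.valuation (xc T) = 1) : s T = T := by
  have hT0 : T ≠ 0 := by
    rintro rfl
    rw [xc_zero, _root_.map_zero] at hx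
    exact zero_ne_one hx
  by_contra hne
  have hR0 : s T - T ≠ 0 := sub_ne_zero.mpr hne
  have hpR : p • (s T - T) = 0 := by rw [nsmul_sub, ← map_nsmul, hpT, _root_.map_zero, sub_zero]
  have hRv := no_torsionN H hp hp3 hR0 hpR
  have hsx : xc (s T) = σ (xc T) := G.xc_s T
  have hsy : yc (s T) = σ (yc T) := G.yc_s T
  have hy1 : A.valuation (yc T) ≤ 1 := by
    have := v_yc_sq_leN H T hx.ge
    rw [hx, one_pow] at this
    exact v_le_one_of_sq_le this
  have hdx : A.valuation (σ (xc T) - xc T) < 1 := G.v_sub _ hx.le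
  have hdy : A.valuation (σ (yc T) - yc T) < 1 := G.v_sub _ hy1
  have hsT0 : s T ≠ 0 := G.s_ne T hT0
  set x := xc T with hxdef
  set y := yc T with hydef
  have h2y : A.valuation (2 * y) < 1 := by
    rw [map_mul, mul_comm]
    exact mul_lt_one_of_le_of_lt' hy1 H.h2
  by_cases hxx : σ x = x
  · rcases eq_or_eq_neg_of_xc_eq hsT0 hT0 (by rw [hsx, hxx]) with h | h
    · exact hne h
    · have h1 : σ y = -y - x := by rw [← hsy, h, yc_negN H.toIsN]
      have h3 : σ y - y = -(x + 2 * y) := by rw [h1]; ring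
      have h4 : A.valuation (x + 2 * y) = 1 := by
        rw [← hx]
        exact Valuation.map_add_eq_of_lt_left _ (by rw [hx]; exact h2y)
      rw [h3, Valuation.map_neg, h4] at hdy
      exact lt_irrefl _ hdy
  · have hxne : xc (s T) ≠ xc T := by rw [hsx]; exact hxx
    have i1 := xc_sub_slope H.toIsN hsT0 hT0 hxne
    rw [hsx, hsy] at i1
    have hnum : A.valuation (σ y + y + x) = 1 := by
      have e : σ y + y + x = x + (2 * y + (σ y - y)) := by ring
      rw [e, ← hx]
      exact Valuation.map_add_eq_of_lt_left _ (by rw [hx]; exact Valuation.map_add_lt _ h2y hdy)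
    have hd0 : 0 < A.valuation (σ x - x) :=
      zero_lt_iff.mpr ((Valuation.ne_zero_iff _).mpr (sub_ne_zero.mpr hxx))
    set lam := (σ y + y + x) / (σ x - x) with hlam
    have hl : 1 < A.valuation lam := by
      rw [hlam, map_div₀, hnum]
      exact (one_lt_div₀ hd0).mpr hdx
    have hl2 : A.valuation lam < A.valuation (lam ^ 2) := by
      rw [map_pow, pow_two]
      calc A.valuation lam = 1 * A.valuation lam := (one_mul _).symm
        _ < A.valuation lam * A.valuation lam := mul_lt_mul_of_pos_right hl (one_pos.trans hl)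
    have hsx1 : A.valuation (σ x) ≤ 1 := by rw [G.v_eq]; exact hx.le
    have e : lam ^ 2 + lam - W.a₂ - σ x - x = lam ^ 2 + (lam - W.a₂ - σ x - x) := by ring
    have hrest : A.valuation (lam - W.a₂ - σ x - x) < A.valuation (lam ^ 2) := by
      refine Valuation.map_sub_lt _ (Valuation.map_sub_lt _ (Valuation.map_sub_lt _ hl2 ?_) ?_) ?_
      · exact H.ha₂.trans_lt (hl.trans hl2)
      · exact hsx1.trans_lt (hl.trans hl2)
      · exact hx.le.trans_lt (hl.trans hl2)
    rw [i1, e, Valuation.map_add_eq_of_lt_left _ hrest] at hRv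
    exact absurd (hl.trans hl2) (not_lt.mpr hRv)

/-- torsion points outside `E₀` -/
theorem low_of_not_mem (H : HypN A.valuation W) {p : ℕ} (hp : p.Prime) (hp3 : 3 ≤ p)
    {T : W.Point} (hpT : p • T = 0) (hT : T ∉ EgeN H 1 le_rfl) :
    A.valuation W.a₄ < A.valuation (xc T) ∧ A.valuation (xc T) < 1 := by
  constructor
  · by_contra hcon
    have h2p : ¬ p ∣ 2 := fun h => by
      have := Nat.le_of_dvd (by norm_num) h
      omega
    obtain ⟨m, hm⟩ := exists_nsmul_inv hp hpT h2p
    apply hT
    rw [← hm, two_nsmul]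
    exact AddSubgroup.nsmul_mem _ (two_mem_E0N H (not_lt.mp hcon)) m
  · by_contra hcon
    exact hT (Or.inr (not_lt.mp hcon))

/-- for a torsion point `T` outside `E₀`, `σ T - T` lies in `E₀` -/
theorem sub_mem_E0N (H : HypN A.valuation W)
    {σ : F →+* F} {s : W.Point →+ W.Point} (G : GalData A W σ s) {T : W.Point}
    (hlow : A.valuation W.a₄ < A.valuation (xc T)) (hup : A.valuation (xc T) < 1) :
    s T - T = 0 ∨ 1 ≤ A.valuation (xc (s T - T)) := by
  have hT0 : T ≠ 0 := by
    rintro rfl
    rw [xc_zero, _root_.map_zero] at hlow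
    exact absurd hlow (not_lt.mpr zero_le)
  have hsx : xc (s T) = σ (xc T) := G.xc_s T
  have hsy : yc (s T) = σ (yc T) := G.yc_s T
  have hsT0 : s T ≠ 0 := G.s_ne T hT0
  have hcurve := curve_eqN H.toIsN T
  have hcurve' := curve_eqN H.toIsN (s T)
  rw [hsx, hsy] at hcurve'
  set x := xc T with hxdef
  set y := yc T with hydef
  have hvx0 : 0 < A.valuation x := lt_of_le_of_lt zero_le hlow
  have hx0 : x ≠ 0 := (Valuation.ne_zero_iff _).mp hvx0.ne'
  have hvsx : A.valuation (σ x) = A.valuation x := G.v_eq x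
  have hsx0 : σ x ≠ 0 := (Valuation.ne_zero_iff _).mp (hvsx ▸ hvx0.ne')
  obtain ⟨g, hgdef⟩ : ∃ g, g = y / x := ⟨_, rfl⟩
  have hyg : y = g * x := by rw [hgdef]; field_simp
  have hsyg : σ y = σ g * σ x := by rw [hyg, map_mul]
  have hg2 : g ^ 2 + g = x + W.a₂ + W.a₄ / x := by
    have : (g ^ 2 + g) * x ^ 2 = (x + W.a₂ + W.a₄ / x) * x ^ 2 := by
      have e1 : (x + W.a₂ + W.a₄ / x) * x ^ 2 = x ^ 3 + W.a₂ * x ^ 2 + W.a₄ * x := by
        field_simp
      rw [e1, ← hcurve, hyg]
      ring
    exact mul_right_cancel₀ (pow_ne_zero 2 hx0) this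
  have hsg2 : σ g ^ 2 + σ g = σ x + W.a₂ + W.a₄ / σ x := by
    have : (σ g ^ 2 + σ g) * σ x ^ 2 = (σ x + W.a₂ + W.a₄ / σ x) * σ x ^ 2 := by
      have e1 : (σ x + W.a₂ + W.a₄ / σ x) * σ x ^ 2 = σ x ^ 3 + W.a₂ * σ x ^ 2 + W.a₄ * σ x := by
        field_simp
      rw [e1, ← hcurve', hsyg]
      ring
    exact mul_right_cancel₀ (pow_ne_zero 2 hsx0) this
  have hβx : A.valuation (W.a₄ / x) < 1 := by
    rw [map_div₀]
    exact (div_lt_one₀ hvx0).mpr hlow
  have hβsx : A.valuation (W.a₄ / σ x) < 1 := by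
    rw [map_div₀, hvsx]
    exact (div_lt_one₀ hvx0).mpr hlow
  have hvg : A.valuation g ≤ 1 := by
    by_contra hcon
    push Not at hcon
    have h1 : A.valuation g < A.valuation (g ^ 2) := by
      rw [map_pow, pow_two]
      calc A.valuation g = 1 * A.valuation g := (one_mul _).symm
        _ < A.valuation g * A.valuation g := mul_lt_mul_of_pos_right hcon (one_pos.trans hcon)
    have h2 : A.valuation (g ^ 2 + g) = A.valuation (g ^ 2) :=
      Valuation.map_add_eq_of_lt_left _ h1
    have h3 : A.valuation (x + W.a₂ + W.a₄ / x) ≤ 1 :=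
      Valuation.map_add_le _ (Valuation.map_add_le _ hup.le H.ha₂) hβx.le
    rw [← hg2, h2] at h3
    exact absurd (hcon.trans h1) (not_lt.mpr h3)
  have hvsg : A.valuation (σ g) ≤ 1 := by rw [G.v_eq]; exact hvg
  have hdg : A.valuation (σ g - g) < 1 := G.v_sub _ hvg
  have h2g : ∀ z : F, A.valuation z ≤ 1 → A.valuation (2 * z) < 1 := by
    intro z hz
    rw [map_mul, mul_comm]
    exact mul_lt_one_of_le_of_lt' hz H.h2
  by_cases hxx : σ x = x
  · rcases eq_or_eq_neg_of_xc_eq hsT0 hT0 (by rw [hsx, hxx]) with h | h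
    · exact Or.inl (sub_eq_zero.mpr h)
    · exfalso
      have h1 : σ y = -y - x := by rw [← hsy, h, yc_negN H.toIsN]
      have h2 : σ g = -g - 1 := by
        rw [hsyg, hxx, hyg] at h1
        have : (σ g + g + 1) * x = 0 := by linear_combination h1
        have := (mul_eq_zero.mp this).resolve_right hx0
        linear_combination this
      have h3 : σ g - g = -(1 + 2 * g) := by rw [h2]; ring
      have h4 : A.valuation (1 + 2 * g) = 1 := by
        rw [← (A.valuation).map_one]
        exact Valuation.map_add_eq_of_lt_left _ (by rw [(A.valuation).map_one]; exact h2g g hvg)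
      rw [h3, Valuation.map_neg, h4] at hdg
      exact lt_irrefl _ hdg
  · right
    have hxne : xc (s T) ≠ xc T := by rw [hsx]; exact hxx
    have i1 := xc_sub_slope H.toIsN hsT0 hT0 hxne
    rw [hsx, hsy] at i1
    have hd : σ x - x ≠ 0 := sub_ne_zero.mpr hxx
    set lam := (σ y + y + x) / (σ x - x) with hlam
    have e1 : lam - σ g = x * (σ g + g + 1) / (σ x - x) := by
      rw [hlam, hsyg, hyg]
      field_simp
      ring
    have e2 : lam + σ g + 1 = (σ x * (1 + 2 * σ g) + x * (g - σ g)) / (σ x - x) := by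
      rw [hlam, hsyg, hyg]
      field_simp
      ring
    have e3 : lam ^ 2 + lam - W.a₂ - σ x - x =
        (lam - σ g) * (lam + σ g + 1) + (W.a₄ / σ x - x) := by
      linear_combination hsg2
    have hv1 : A.valuation (σ g + g + 1) = 1 := by
      have e : σ g + g + 1 = 1 + (2 * g + (σ g - g)) := by ring
      rw [e, ← (A.valuation).map_one]
      refine Valuation.map_add_eq_of_lt_left _ ?_
      rw [(A.valuation).map_one]
      exact Valuation.map_add_lt _ (h2g g hvg) hdg
    have hv2 : A.valuation (σ x * (1 + 2 * σ g) + x * (g - σ g)) = A.valuation x := by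
      have h5 : A.valuation (1 + 2 * σ g) = 1 := by
        rw [← (A.valuation).map_one]
        exact Valuation.map_add_eq_of_lt_left _ (by rw [(A.valuation).map_one]; exact h2g _ hvsg)
      have h6 : A.valuation (σ x * (1 + 2 * σ g)) = A.valuation x := by
        rw [map_mul, h5, mul_one, hvsx]
      rw [← h6]
      refine Valuation.map_add_eq_of_lt_left _ ?_
      rw [h6, map_mul, Valuation.map_sub_swap]
      calc A.valuation x * A.valuation (σ g - g) < A.valuation x * 1 :=
            mul_lt_mul_of_pos_left hdg hvx0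
        _ = _ := mul_one _
    have hvd : A.valuation (σ x - x) ≤ A.valuation x := Valuation.map_sub_le _ hvsx.le le_rfl
    have hvd0 : 0 < A.valuation (σ x - x) := zero_lt_iff.mpr ((Valuation.ne_zero_iff _).mpr hd)
    have hM : 1 ≤ A.valuation ((lam - σ g) * (lam + σ g + 1)) := by
      rw [e1, e2, map_mul, map_div₀, map_div₀, map_mul, hv1, hv2, mul_one]
      have h7 : 1 ≤ A.valuation x / A.valuation (σ x - x) := (one_le_div₀ hvd0).mpr hvd
      calc (1 : _) = 1 * 1 := (one_mul 1).symm
        _ ≤ _ := mul_le_mul' h7 h7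
    have hsmall : A.valuation (W.a₄ / σ x - x) < 1 := Valuation.map_sub_lt _ hβsx hup
    rw [i1, e3, Valuation.map_add_eq_of_lt_left _ (hsmall.trans_le hM)]
    exact hM

/-- inertia at `2` acts unipotently on the `p`-torsion -/
theorem unipotentN (H : HypN A.valuation W) {p : ℕ} (hp : p.Prime) (hp3 : 3 ≤ p)
    {σ : F →+* F} {s : W.Point →+ W.Point} (G : GalData A W σ s) {T : W.Point}
    (hpT : p • T = 0) : s (s T - T) = s T - T := by
  have hpR : p • (s T - T) = 0 := by rw [nsmul_sub, ← map_nsmul, hpT, _root_.map_zero, sub_zero]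
  have key : ∀ R : W.Point, p • R = 0 → (R = 0 ∨ 1 ≤ A.valuation (xc R)) → s R = R := by
    intro R hR h
    rcases h with h | h
    · rw [h, _root_.map_zero]
    · have hR0 : R ≠ 0 := by
        rintro rfl
        rw [xc_zero, _root_.map_zero] at h
        exact absurd h (not_le.mpr one_pos)
      exact fixed_of_unitN H hp hp3 G hR (le_antisymm (no_torsionN H hp hp3 hR0 hR) h)
  by_cases hT : T ∈ EgeN H 1 le_rfl
  · rw [key T hpT hT, sub_self, _root_.map_zero]
  · obtain ⟨hlow, hup⟩ := low_of_not_mem H hp hp3 hpT hT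
    exact key _ hpR (sub_mem_E0N H G hlow hup)

end Fermat.Agent.S13Lib
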