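import Fermat.Agent.S05.Ident
set_option autoImplicit false
set_option linter.unusedSectionVars false

/-!
# S13: `x`-coordinate identities on `Y² + X Y = X³ + a₂ X² + a₄ X`
-/

namespace Fermat.Agent.S13Lib

open WeierstrassCurve WeierstrassCurve.Affine WeierstrassCurve.Affine.Point
open Fermat.Agent.S05Lib

variable {F : Type*} [Field F] {W : WeierstrassCurve.Affine F}

/-- A Weierstrass curve of the shape `Y² + X Y = X³ + a₂ X² + a₄ X`. -/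
structure IsN {F : Type*} [CommRing F] (W : WeierstrassCurve.Affine F) : Prop where
  a₁ : W.a₁ = 1
  a₃ : W.a₃ = 0
  a₆ : W.a₆ = 0

theorem yc_negN (hW : IsN W) (P : W.Point) : yc (-P) = -yc P - xc P := by
  cases P with
  | zero => simp [← zero_def]
  | some x y h =>
    rw [neg_some, yc_some, yc_some, xc_some, negY, hW.a₁, hW.a₃]
    ring

theorem curve_eqN (hW : IsN W) (P : W.Point) :
    yc P ^ 2 + xc P * yc P = xc P ^ 3 + W.a₂ * xc P ^ 2 + W.a₄ * xc P := by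
  cases P with
  | zero => simp [← zero_def]
  | some x y h =>
    have := (equation_iff x y).mp h.1
    rw [hW.a₁, hW.a₃, hW.a₆] at this
    simp only [xc_some, yc_some]
    linear_combination this

/-- `ψ₂² = 4 x³ + b₂ x² + 4 a₄ x` -/
theorem psi_sq (hW : IsN W) (P : W.Point) :
    (2 * yc P + xc P) ^ 2 = 4 * xc P ^ 3 + (1 + 4 * W.a₂) * xc P ^ 2 + 4 * W.a₄ * xc P := by
  linear_combination 4 * curve_eqN hW P

variable [DecidableEq F]

/-- sum -/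
theorem xc_addN (hW : IsN W) {P Q : W.Point} (hP : P ≠ 0) (hQ : Q ≠ 0) (h : xc P ≠ xc Q) :
    xc (P + Q) * (xc P - xc Q) ^ 2 =
      (xc P * xc Q + W.a₄) * (xc P + xc Q) + 2 * W.a₂ * (xc P * xc Q) - 2 * (yc P * yc Q)
        - (xc Q * yc P + xc P * yc Q) := by
  have c1 := curve_eqN hW P
  have c2 := curve_eqN hW Q
  obtain ⟨h1, e1⟩ := exists_eq_some hP
  obtain ⟨h2, e2⟩ := exists_eq_some hQ
  have e3 : xc (P + Q) = W.addX (xc P) (xc Q) (W.slope (xc P) (xc Q) (yc P) (yc Q)) := by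
    conv_lhs => rw [e1, e2, add_of_X_ne h, xc_some]
  rw [e3, slope_of_X_ne h, addX, hW.a₁]
  have hne : xc P - xc Q ≠ 0 := sub_ne_zero.mpr h
  field_simp
  linear_combination c1 + c2

/-- difference -/
theorem xc_subN (hW : IsN W) {P Q : W.Point} (hP : P ≠ 0) (hQ : Q ≠ 0) (h : xc P ≠ xc Q) :
    xc (P - Q) * (xc P - xc Q) ^ 2 =
      (xc P * xc Q + W.a₄) * (xc P + xc Q) + 2 * W.a₂ * (xc P * xc Q) + 2 * (yc P * yc Q)
        + (xc Q * yc P + xc P * yc Q) + xc P * xc Q := by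
  have := xc_addN hW hP (neg_ne_zero.mpr hQ) (by rwa [xc_neg])
  rw [xc_neg, yc_negN hW, ← sub_eq_add_neg] at this
  rw [this]
  ring

/-- difference, through the slope -/
theorem xc_sub_slope (hW : IsN W) {P Q : W.Point} (hP : P ≠ 0) (hQ : Q ≠ 0) (h : xc P ≠ xc Q) :
    xc (P - Q) = ((yc P + yc Q + xc Q) / (xc P - xc Q)) ^ 2 +
      (yc P + yc Q + xc Q) / (xc P - xc Q) - W.a₂ - xc P - xc Q := by
  have hQ' : -Q ≠ 0 := neg_ne_zero.mpr hQ
  have h' : xc P ≠ xc (-Q) := by rwa [xc_neg]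
  obtain ⟨h1, e1⟩ := exists_eq_some hP
  obtain ⟨h2, e2⟩ := exists_eq_some hQ'
  have e3 : xc (P + -Q) = W.addX (xc P) (xc (-Q)) (W.slope (xc P) (xc (-Q)) (yc P) (yc (-Q))) := by
    conv_lhs => rw [e1, e2, add_of_X_ne h', xc_some]
  rw [sub_eq_add_neg, e3, slope_of_X_ne h', addX, hW.a₁, xc_neg, yc_negN hW]
  have e4 : yc P - (-yc Q - xc Q) = yc P + yc Q + xc Q := by ring
  rw [e4]
  ring

/-- purely algebraic -/
theorem N_mul_NN {x₁ y₁ x₂ y₂ α β : F} (c1 : y₁ ^ 2 + x₁ * y₁ = x₁ ^ 3 + α * x₁ ^ 2 + β * x₁)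
    (c2 : y₂ ^ 2 + x₂ * y₂ = x₂ ^ 3 + α * x₂ ^ 2 + β * x₂) :
    ((x₁ * x₂ + β) * (x₁ + x₂) + 2 * α * (x₁ * x₂) + 2 * (y₁ * y₂) + (x₂ * y₁ + x₁ * y₂)
        + x₁ * x₂) *
      ((x₁ * x₂ + β) * (x₁ + x₂) + 2 * α * (x₁ * x₂) - 2 * (y₁ * y₂) - (x₂ * y₁ + x₁ * y₂)) =
      (x₁ * x₂ - β) ^ 2 * (x₁ - x₂) ^ 2 := by
  linear_combination
    (-((y₂ + x₂) ^ 2 + y₂ ^ 2 + 2 * (x₂ ^ 3 + α * x₂ ^ 2 + β * x₂))) * c1 +
    (-((y₁ + x₁) ^ 2 + y₁ ^ 2 + 2 * (x₁ ^ 3 + α * x₁ ^ 2 + β * x₁))) * c2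

theorem xc_add_mul_xc_subN (hW : IsN W) {P Q : W.Point} (hP : P ≠ 0) (hQ : Q ≠ 0)
    (h : xc P ≠ xc Q) :
    xc (P + Q) * xc (P - Q) * (xc P - xc Q) ^ 2 = (xc P * xc Q - W.a₄) ^ 2 := by
  have e1 := xc_addN hW hP hQ h
  have e2 := xc_subN hW hP hQ h
  have e3 := N_mul_NN (curve_eqN hW P) (curve_eqN hW Q)
  have hne : (xc P - xc Q) ^ 2 ≠ 0 := pow_ne_zero 2 (sub_ne_zero.mpr h)
  apply mul_right_cancel₀ hne
  rw [← e3, ← e1, ← e2]
  ring

theorem add_self_eq_zero_of_psi (hW : IsN W) {P : W.Point} (hy : 2 * yc P + xc P = 0) :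
    P + P = 0 := by
  by_cases hP : P = 0
  · rw [hP, add_zero]
  obtain ⟨h1, e1⟩ := exists_eq_some hP
  rw [e1]
  apply add_self_of_Y_eq
  rw [negY, hW.a₁, hW.a₃]
  linear_combination hy

theorem yc_ne_negYN (hW : IsN W) {P : W.Point} (hy : 2 * yc P + xc P ≠ 0) :
    yc P ≠ W.negY (xc P) (yc P) := by
  rw [negY, hW.a₁, hW.a₃]
  intro h
  apply hy
  linear_combination h

theorem psi_ne_zero (hW : IsN W) {P : W.Point} (h : P + P ≠ 0) : 2 * yc P + xc P ≠ 0 :=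
  fun hy => h (add_self_eq_zero_of_psi hW hy)

/-- duplication -/
theorem xc_add_selfN (hW : IsN W) {P : W.Point} (hy : 2 * yc P + xc P ≠ 0) :
    xc (P + P) * (2 * yc P + xc P) ^ 2 = (xc P ^ 2 - W.a₄) ^ 2 := by
  have hP : P ≠ 0 := by
    rintro rfl
    exact hy (by simp)
  have c1 := curve_eqN hW P
  obtain ⟨h1, e1⟩ := exists_eq_some hP
  have hne := yc_ne_negYN hW hy
  have e3 : xc (P + P) = W.addX (xc P) (xc P) (W.slope (xc P) (xc P) (yc P) (yc P)) := by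
    conv_lhs => rw [e1, add_self_of_Y_ne hne, xc_some]
  rw [e3, slope_of_Y_ne rfl hne, addX, negY, hW.a₁, hW.a₃]
  have h3 : yc P - (-yc P - 1 * xc P - 0) = 2 * yc P + xc P := by ring
  rw [h3]
  field_simp
  linear_combination (-(4 * W.a₂ + 8 * xc P + 1)) * c1

end Fermat.Agent.S13Lib
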