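import Fermat.Agent.S13.TwoIdent
import Fermat.Agent.S05.L2
set_option autoImplicit false
set_option linter.unusedSectionVars false

/-!
# S13: valuations on `Y² + X Y = X³ + a₂ X² + a₄ X` in residue characteristic two
-/

namespace Fermat.Agent.S13Lib

open WeierstrassCurve WeierstrassCurve.Affine WeierstrassCurve.Affine.Point
open Fermat.Agent.S05Lib

variable {F Γ₀ : Type*} [Field F] [LinearOrderedCommGroupWithZero Γ₀]

/-- standing hypotheses: integral model `Y² + X Y = X³ + a₂ X² + a₄ X`, node at `(0,0)`,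
residue characteristic two. -/
structure HypN (v : Valuation F Γ₀) (W : WeierstrassCurve.Affine F) : Prop extends IsN W where
  ha₂ : v W.a₂ ≤ 1
  ha₄ : v W.a₄ < 1
  ha₄0 : W.a₄ ≠ 0
  h2 : v (2 : F) < 1

variable {v : Valuation F Γ₀} {W : WeierstrassCurve.Affine F}

theorem HypN.v_four (H : HypN v W) : v (4 : F) < 1 := by
  have : (4 : F) = 2 * 2 := by norm_num
  rw [this, map_mul]
  exact mul_lt_one_of_le_of_lt' H.h2.le H.h2

theorem HypN.v_b₂ (H : HypN v W) : v (1 + 4 * W.a₂) = 1 := by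
  have h1 : v (4 * W.a₂) < 1 := by
    rw [map_mul, mul_comm]
    exact mul_lt_one_of_le_of_lt' H.ha₂ H.v_four
  rw [← v.map_one]
  exact Valuation.map_add_eq_of_lt_left _ (by rwa [v.map_one])

theorem HypN.v_a₄_pos (H : HypN v W) : 0 < v W.a₄ :=
  zero_lt_iff.mpr ((Valuation.ne_zero_iff v).mpr H.ha₄0)

theorem v_rhs_le (H : HypN v W) (P : W.Point) (hx : 1 ≤ v (xc P)) :
    v (xc P ^ 3 + W.a₂ * xc P ^ 2 + W.a₄ * xc P) ≤ v (xc P) ^ 3 := by
  refine Valuation.map_add_le v (Valuation.map_add_le v (by rw [map_pow]) ?_) ?_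
  · rw [map_mul, map_pow]
    calc v W.a₂ * v (xc P) ^ 2 ≤ 1 * v (xc P) ^ 2 := by gcongr; exact H.ha₂
      _ = v (xc P) ^ 2 := one_mul _
      _ ≤ v (xc P) ^ 3 := pow_le_pow_right₀ hx (by norm_num)
  · rw [map_mul]
    calc v W.a₄ * v (xc P) ≤ 1 * v (xc P) := by gcongr; exact H.ha₄.le
      _ = v (xc P) ^ 1 := by rw [one_mul, pow_one]
      _ ≤ v (xc P) ^ 3 := pow_le_pow_right₀ hx (by norm_num)

theorem v_yc_sq_leN (H : HypN v W) (P : W.Point) (hx : 1 ≤ v (xc P)) :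
    v (yc P) ^ 2 ≤ v (xc P) ^ 3 := by
  by_contra hcon
  push Not at hcon
  have hx0 : 0 < v (xc P) := lt_of_lt_of_le one_pos hx
  have hxy : v (xc P) < v (yc P) := by
    by_contra h
    push Not at h
    have : v (yc P) ^ 2 ≤ v (xc P) ^ 3 :=
      calc v (yc P) ^ 2 ≤ v (xc P) ^ 2 := by gcongr
        _ ≤ v (xc P) ^ 3 := pow_le_pow_right₀ hx (by norm_num)
    exact absurd hcon (not_lt.mpr this)
  have hy0 : 0 < v (yc P) := hx0.trans hxy
  have h1 : v (xc P * yc P) < v (yc P ^ 2) := by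
    rw [map_mul, map_pow, pow_two]
    exact mul_lt_mul_of_pos_right hxy hy0
  have h2 : v (yc P ^ 2 + xc P * yc P) = v (yc P ^ 2) := Valuation.map_add_eq_of_lt_left _ h1
  rw [curve_eqN H.toIsN, map_pow] at h2
  have := v_rhs_le H P hx
  rw [h2] at this
  exact absurd hcon (not_lt.mpr this)

theorem v_N_leN {α β x₁ x₂ y₁ y₂ : F} (hα : v α ≤ 1) (hβ : v β ≤ 1) (h2 : v (2 : F) ≤ 1)
    (h1 : 1 ≤ v x₂) (h12 : v x₂ ≤ v x₁) (hy₁ : v y₁ ^ 2 ≤ v x₁ ^ 3) (hy₂ : v y₂ ^ 2 ≤ v x₂ ^ 3) :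
    v ((x₁ * x₂ + β) * (x₁ + x₂) + 2 * α * (x₁ * x₂) + 2 * (y₁ * y₂) + (x₂ * y₁ + x₁ * y₂)
        + x₁ * x₂) ≤ v x₁ ^ 2 * v x₂ ∧
    v ((x₁ * x₂ + β) * (x₁ + x₂) + 2 * α * (x₁ * x₂) - 2 * (y₁ * y₂) - (x₂ * y₁ + x₁ * y₂))
        ≤ v x₁ ^ 2 * v x₂ := by
  have h1' : 1 ≤ v x₁ := h1.trans h12
  have e1 : v ((x₁ * x₂ + β) * (x₁ + x₂)) ≤ v x₁ ^ 2 * v x₂ := by
    rw [map_mul]
    have a1 : v (x₁ * x₂ + β) ≤ v x₁ * v x₂ := by
      refine Valuation.map_add_le v (by rw [map_mul]) (hβ.trans ?_)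
      calc (1 : Γ₀) = 1 * 1 := (one_mul 1).symm
        _ ≤ v x₁ * v x₂ := by gcongr
    have a2 : v (x₁ + x₂) ≤ v x₁ := Valuation.map_add_le v le_rfl h12
    calc v (x₁ * x₂ + β) * v (x₁ + x₂) ≤ (v x₁ * v x₂) * v x₁ := by gcongr
      _ = v x₁ ^ 2 * v x₂ := by field_simp
  have e5 : v (x₁ * x₂) ≤ v x₁ ^ 2 * v x₂ := by
    rw [map_mul]
    calc v x₁ * v x₂ = 1 * (v x₁ * v x₂) := (one_mul _).symm
      _ ≤ v x₁ * (v x₁ * v x₂) := by gcongr
      _ = v x₁ ^ 2 * v x₂ := by field_simp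
  have e2 : v (2 * α * (x₁ * x₂)) ≤ v x₁ ^ 2 * v x₂ := by
    rw [map_mul, map_mul]
    calc v 2 * v α * v (x₁ * x₂) ≤ 1 * 1 * v (x₁ * x₂) := by gcongr
      _ = v (x₁ * x₂) := by rw [one_mul, one_mul]
      _ ≤ _ := e5
  have e3 : v (2 * (y₁ * y₂)) ≤ v x₁ ^ 2 * v x₂ := by
    rw [map_mul, map_mul]
    have : v y₁ * v y₂ ≤ v x₁ ^ 2 * v x₂ := by
      apply (pow_le_pow_iff_left₀ zero_le zero_le two_ne_zero).mp
      calc (v y₁ * v y₂) ^ 2 = v y₁ ^ 2 * v y₂ ^ 2 := mul_pow _ _ _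
        _ ≤ v x₁ ^ 3 * v x₂ ^ 3 := by gcongr
        _ = v x₁ ^ 3 * v x₂ ^ 2 * v x₂ := by field_simp
        _ ≤ v x₁ ^ 3 * v x₂ ^ 2 * v x₁ := by gcongr
        _ = (v x₁ ^ 2 * v x₂) ^ 2 := by field_simp
    calc v 2 * (v y₁ * v y₂) ≤ 1 * (v y₁ * v y₂) := by gcongr
      _ = v y₁ * v y₂ := one_mul _
      _ ≤ _ := this
  have e4 : v (x₂ * y₁ + x₁ * y₂) ≤ v x₁ ^ 2 * v x₂ := by
    refine Valuation.map_add_le v ?_ ?_
    · rw [map_mul]
      apply (pow_le_pow_iff_left₀ zero_le zero_le two_ne_zero).mp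
      calc (v x₂ * v y₁) ^ 2 = v x₂ ^ 2 * v y₁ ^ 2 := mul_pow _ _ _
        _ ≤ v x₂ ^ 2 * v x₁ ^ 3 := by gcongr
        _ = v x₂ ^ 2 * v x₁ ^ 3 * 1 := (mul_one _).symm
        _ ≤ v x₂ ^ 2 * v x₁ ^ 3 * v x₁ := by gcongr
        _ = (v x₁ ^ 2 * v x₂) ^ 2 := by field_simp
    · rw [map_mul]
      apply (pow_le_pow_iff_left₀ zero_le zero_le two_ne_zero).mp
      calc (v x₁ * v y₂) ^ 2 = v x₁ ^ 2 * v y₂ ^ 2 := mul_pow _ _ _
        _ ≤ v x₁ ^ 2 * v x₂ ^ 3 := by gcongr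
        _ = v x₁ ^ 2 * v x₂ ^ 2 * v x₂ * 1 := by field_simp
        _ ≤ v x₁ ^ 2 * v x₂ ^ 2 * v x₁ * v x₁ := by gcongr
        _ = (v x₁ ^ 2 * v x₂) ^ 2 := by field_simp
  exact ⟨Valuation.map_add_le v (Valuation.map_add_le v (Valuation.map_add_le v
      (Valuation.map_add_le v e1 e2) e3) e4) e5,
    Valuation.map_sub_le v (Valuation.map_sub_le v (Valuation.map_add_le v e1 e2) e3) e4⟩

variable [DecidableEq F]

theorem le_v_xc_of_xc_neN (H : HypN v W) {P Q : W.Point} (hP : P ≠ 0) (hQ : Q ≠ 0)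
    (hne : xc P ≠ xc Q) (h1 : 1 ≤ v (xc Q)) (h12 : v (xc Q) ≤ v (xc P)) :
    v (xc Q) ≤ v (xc (P + Q)) ∧ v (xc Q) ≤ v (xc (P - Q)) := by
  have h1' : 1 ≤ v (xc P) := h1.trans h12
  obtain ⟨n1, n2⟩ := v_N_leN (v := v) H.ha₂ H.ha₄.le H.h2.le h1 h12 (v_yc_sq_leN H P h1')
    (v_yc_sq_leN H Q h1)
  have i1 := congrArg v (xc_addN H.toIsN hP hQ hne)
  have i2 := congrArg v (xc_subN H.toIsN hP hQ hne)
  rw [← i1] at n2
  rw [← i2] at n1
  have hD : 0 < v ((xc P - xc Q) ^ 2) :=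
    zero_lt_iff.mpr ((Valuation.ne_zero_iff v).mpr (pow_ne_zero 2 (sub_ne_zero.mpr hne)))
  have hβ : v W.a₄ < v (xc P) * v (xc Q) :=
    calc v W.a₄ < 1 := H.ha₄
      _ = 1 * 1 := (one_mul 1).symm
      _ ≤ v (xc P) * v (xc Q) := by gcongr
  have hB : v (xc P * xc Q - W.a₄) = v (xc P) * v (xc Q) := by
    rw [← map_mul]
    exact Valuation.map_sub_eq_of_lt_left _ (by rw [map_mul]; exact hβ)
  have hx1 : 0 < v (xc P) := lt_of_lt_of_le one_pos h1'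
  have hx2 : 0 < v (xc Q) := lt_of_lt_of_le one_pos h1
  have hBB : 0 < v (xc P) ^ 2 * v (xc Q) := mul_pos (pow_pos hx1 2) hx2
  have i3 : v (xc (P - Q)) * v ((xc P - xc Q) ^ 2) * (v (xc (P + Q)) * v ((xc P - xc Q) ^ 2)) =
      (v (xc P) * v (xc Q)) ^ 2 * v ((xc P - xc Q) ^ 2) := by
    rw [← map_mul, ← map_mul, i1, i2, ← map_mul,
      N_mul_NN (curve_eqN H.toIsN P) (curve_eqN H.toIsN Q), map_mul, map_pow, hB]
  rw [map_mul] at n1 n2
  set D := v ((xc P - xc Q) ^ 2) with hDdef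
  set Xp := v (xc (P + Q))
  set Xm := v (xc (P - Q))
  constructor
  · apply le_of_mul_le_mul_right _ (mul_pos hD (mul_pos hD hBB))
    calc v (xc Q) * (D * (D * (v (xc P) ^ 2 * v (xc Q))))
        = ((v (xc P) * v (xc Q)) ^ 2 * D) * D := by field_simp
      _ = (Xm * D * (Xp * D)) * D := by rw [i3]
      _ ≤ ((v (xc P) ^ 2 * v (xc Q)) * (Xp * D)) * D := by gcongr
      _ = Xp * (D * (D * (v (xc P) ^ 2 * v (xc Q)))) := by field_simp
  · apply le_of_mul_le_mul_right _ (mul_pos hD (mul_pos hD hBB))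
    calc v (xc Q) * (D * (D * (v (xc P) ^ 2 * v (xc Q))))
        = ((v (xc P) * v (xc Q)) ^ 2 * D) * D := by field_simp
      _ = (Xm * D * (Xp * D)) * D := by rw [i3]
      _ ≤ (Xm * D * (v (xc P) ^ 2 * v (xc Q))) * D := by gcongr
      _ = Xm * (D * (D * (v (xc P) ^ 2 * v (xc Q)))) := by field_simp

omit [DecidableEq F] in
theorem v_psi_sq_le (H : HypN v W) (P : W.Point) (h1 : 1 ≤ v (xc P)) :
    v ((2 * yc P + xc P) ^ 2) ≤ v (xc P) ^ 3 := by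
  rw [psi_sq H.toIsN]
  refine Valuation.map_add_le v (Valuation.map_add_le v ?_ ?_) ?_
  · rw [map_mul, map_pow]
    calc v 4 * v (xc P) ^ 3 ≤ 1 * v (xc P) ^ 3 := by gcongr; exact H.v_four.le
      _ = _ := one_mul _
  · rw [map_mul, map_pow, H.v_b₂, one_mul]
    exact pow_le_pow_right₀ h1 (by norm_num)
  · rw [map_mul, map_mul]
    calc v 4 * v W.a₄ * v (xc P) ≤ 1 * 1 * v (xc P) := by
          gcongr
          · exact H.v_four.le
          · exact H.ha₄.le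
      _ = v (xc P) ^ 1 := by rw [one_mul, one_mul, pow_one]
      _ ≤ v (xc P) ^ 3 := pow_le_pow_right₀ h1 (by norm_num)

omit [DecidableEq F] in
theorem v_psi_sq_lt (H : HypN v W) (P : W.Point) (h1 : 1 < v (xc P)) :
    v ((2 * yc P + xc P) ^ 2) < v (xc P) ^ 3 := by
  have hx0 : 0 < v (xc P) := one_pos.trans h1
  rw [psi_sq H.toIsN]
  refine Valuation.map_add_lt v (Valuation.map_add_lt v ?_ ?_) ?_
  · rw [map_mul, map_pow]
    calc v 4 * v (xc P) ^ 3 < 1 * v (xc P) ^ 3 :=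
          mul_lt_mul_of_pos_right H.v_four (pow_pos hx0 3)
      _ = _ := one_mul _
  · rw [map_mul, map_pow, H.v_b₂, one_mul]
    exact pow_lt_pow_right₀ h1 (by norm_num)
  · rw [map_mul, map_mul]
    calc v 4 * v W.a₄ * v (xc P) ≤ 1 * 1 * v (xc P) := by
          gcongr
          · exact H.v_four.le
          · exact H.ha₄.le
      _ = v (xc P) ^ 1 := by rw [one_mul, one_mul, pow_one]
      _ < v (xc P) ^ 3 := pow_lt_pow_right₀ h1 (by norm_num)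

omit [DecidableEq F] in
theorem v_sq_sub_a₄ (H : HypN v W) (P : W.Point) (h1 : 1 ≤ v (xc P)) :
    v (xc P ^ 2 - W.a₄) = v (xc P) ^ 2 := by
  rw [← map_pow]
  refine Valuation.map_sub_eq_of_lt_left _ ?_
  rw [map_pow]
  exact H.ha₄.trans_le (one_le_pow₀ h1)

theorem le_v_xc_add_selfN (H : HypN v W) {P : W.Point} (hy : 2 * yc P + xc P ≠ 0)
    (h1 : 1 ≤ v (xc P)) : v (xc P) ≤ v (xc (P + P)) := by
  have i2 := congrArg v (xc_add_selfN H.toIsN hy)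
  rw [map_mul, map_pow _ (xc P ^ 2 - W.a₄), v_sq_sub_a₄ H P h1] at i2
  have hx1 : 0 < v (xc P) := lt_of_lt_of_le one_pos h1
  apply le_of_mul_le_mul_right _ (pow_pos hx1 3)
  calc v (xc P) * v (xc P) ^ 3 = (v (xc P) ^ 2) ^ 2 := by field_simp
    _ = v (xc (P + P)) * v ((2 * yc P + xc P) ^ 2) := i2.symm
    _ ≤ v (xc (P + P)) * v (xc P) ^ 3 := mul_le_mul' le_rfl (v_psi_sq_le H P h1)

theorem lt_v_xc_add_selfN (H : HypN v W) {P : W.Point} (hy : 2 * yc P + xc P ≠ 0)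
    (h1 : 1 < v (xc P)) : v (xc P) < v (xc (P + P)) := by
  have i2 := congrArg v (xc_add_selfN H.toIsN hy)
  rw [map_mul, map_pow _ (xc P ^ 2 - W.a₄), v_sq_sub_a₄ H P h1.le] at i2
  have hx1 : 0 < v (xc P) := one_pos.trans h1
  have hX : 0 < v (xc (P + P)) := by
    rw [zero_lt_iff]
    intro h0
    rw [h0, zero_mul] at i2
    exact (pow_pos (pow_pos hx1 2) 2).ne i2
  apply lt_of_mul_lt_mul_right _ (pow_pos hx1 3).le
  calc v (xc P) * v (xc P) ^ 3 = (v (xc P) ^ 2) ^ 2 := by field_simp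
    _ = v (xc (P + P)) * v ((2 * yc P + xc P) ^ 2) := i2.symm
    _ < v (xc (P + P)) * v (xc P) ^ 3 := mul_lt_mul_of_pos_left (v_psi_sq_lt H P h1) hX

theorem min_le_v_xc_addN (H : HypN v W) {P Q : W.Point} (hP : P ≠ 0) (hQ : Q ≠ 0)
    (hPQ : P + Q ≠ 0) (h1 : 1 ≤ v (xc P)) (h2 : 1 ≤ v (xc Q)) :
    min (v (xc P)) (v (xc Q)) ≤ v (xc (P + Q)) := by
  by_cases hne : xc P = xc Q
  · rcases eq_or_eq_neg_of_xc_eq hP hQ hne with h | h
    · subst h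
      rw [min_self]
      exact le_v_xc_add_selfN H (psi_ne_zero H.toIsN hPQ) h1
    · exact absurd (by rw [h, neg_add_cancel]) hPQ
  · rcases le_total (v (xc Q)) (v (xc P)) with h | h
    · rw [min_eq_right h]
      exact (le_v_xc_of_xc_neN H hP hQ hne h2 h).1
    · rw [min_eq_left h, add_comm]
      exact (le_v_xc_of_xc_neN H hQ hP (Ne.symm hne) h1 h).1

/-- the subgroup `{O} ∪ {γ ≤ v x}`. -/
def EgeN (H : HypN v W) (γ : Γ₀) (h1 : 1 ≤ γ) : AddSubgroup W.Point where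
  carrier := {P | P = 0 ∨ γ ≤ v (xc P)}
  zero_mem' := Or.inl rfl
  neg_mem' := by
    rintro P (h | h)
    · exact Or.inl (by rw [h, _root_.neg_zero])
    · exact Or.inr (by rwa [xc_neg])
  add_mem' := by
    rintro P Q hP hQ
    by_cases hP0 : P = 0
    · rw [hP0, zero_add]; exact hQ
    by_cases hQ0 : Q = 0
    · rw [hQ0, add_zero]; exact hP
    by_cases hPQ : P + Q = 0
    · exact Or.inl hPQ
    have hP' := hP.resolve_left hP0
    have hQ' := hQ.resolve_left hQ0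
    exact Or.inr ((le_min hP' hQ').trans (min_le_v_xc_addN H hP0 hQ0 hPQ (h1.trans hP')
      (h1.trans hQ')))

theorem mem_EgeN (H : HypN v W) {γ : Γ₀} {h1 : 1 ≤ γ} {P : W.Point} :
    P ∈ EgeN H γ h1 ↔ P = 0 ∨ γ ≤ v (xc P) := Iff.rfl

/-- no odd torsion in the kernel of reduction -/
theorem no_torsionN (H : HypN v W) {p : ℕ} (hp : p.Prime) (hp3 : 3 ≤ p) {T : W.Point}
    (hT0 : T ≠ 0) (hpT : p • T = 0) : v (xc T) ≤ 1 := by
  by_contra hcon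
  push Not at hcon
  have h2p : ¬ p ∣ 2 := fun h => by
    have := Nat.le_of_dvd (by norm_num) h
    omega
  have h2T : T + T ≠ 0 := by
    rw [← two_nsmul]
    exact nsmul_ne_zero_of_not_dvd hp hpT hT0 h2p
  have hlt := lt_v_xc_add_selfN H (psi_ne_zero H.toIsN h2T) hcon
  obtain ⟨m, hm⟩ := exists_nsmul_inv hp hpT h2p
  obtain ⟨γ, hγ⟩ : ∃ γ, γ = v (xc (T + T)) := ⟨_, rfl⟩
  rw [← hγ] at hlt
  have h1 : 1 ≤ γ := (hcon.trans hlt).le
  have hmem : T ∈ EgeN H γ h1 := by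
    have h3 : m • (T + T) ∈ EgeN H γ h1 :=
      AddSubgroup.nsmul_mem _ (Or.inr hγ.le) m
    rwa [← two_nsmul, hm] at h3
  rcases hmem with h | h
  · exact hT0 h
  · exact absurd hlt (not_lt.mpr h)

/-- points close to the node: `2 P` lies in `E₀` -/
theorem two_mem_E0N (H : HypN v W) {P : W.Point} (hP : v (xc P) ≤ v W.a₄) :
    P + P = 0 ∨ 1 ≤ v (xc (P + P)) := by
  by_cases hy : 2 * yc P + xc P = 0
  · exact Or.inl (add_self_eq_zero_of_psi H.toIsN hy)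
  right
  have hb0 := H.v_a₄_pos
  have i2 := congrArg v (xc_add_selfN H.toIsN hy)
  have hx2 : v (xc P ^ 2) < v W.a₄ := by
    rw [map_pow, pow_two]
    calc v (xc P) * v (xc P) ≤ v W.a₄ * v W.a₄ := by gcongr
      _ < v W.a₄ * 1 := mul_lt_mul_of_pos_left H.ha₄ hb0
      _ = _ := mul_one _
  have hB : v (xc P ^ 2 - W.a₄) = v W.a₄ := Valuation.map_sub_eq_of_lt_right _ hx2
  rw [map_mul, map_pow _ (xc P ^ 2 - W.a₄), hB] at i2
  have hx1 : v (xc P) ≤ 1 := hP.trans H.ha₄.le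
  have hy2 : v ((2 * yc P + xc P) ^ 2) ≤ v W.a₄ ^ 2 := by
    rw [psi_sq H.toIsN]
    refine Valuation.map_add_le v (Valuation.map_add_le v ?_ ?_) ?_
    · rw [map_mul, map_pow]
      calc v 4 * v (xc P) ^ 3 = v 4 * v (xc P) * v (xc P) ^ 2 := by field_simp
        _ ≤ 1 * 1 * v W.a₄ ^ 2 := by
          gcongr
          exact H.v_four.le
        _ = _ := by rw [one_mul, one_mul]
    · rw [map_mul, map_pow, H.v_b₂, one_mul]
      gcongr
    · rw [map_mul, map_mul]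
      calc v 4 * v W.a₄ * v (xc P) ≤ 1 * v W.a₄ * v W.a₄ := by
            gcongr
            exact H.v_four.le
        _ = _ := by rw [one_mul, pow_two]
  apply le_of_mul_le_mul_right _ (pow_pos hb0 2)
  calc 1 * v W.a₄ ^ 2 = v (xc (P + P)) * v ((2 * yc P + xc P) ^ 2) := by
        rw [one_mul, i2]
    _ ≤ v (xc (P + P)) * v W.a₄ ^ 2 := by gcongr

end Fermat.Agent.S13Lib
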